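import Fermat.Agent.S36.NrmDefs

/-!
# S36 / S35 norm block, (ALC): compatibilities of the Atkin-Lehner involutions
-/

set_option autoImplicit false
set_option linter.style.haveILetI false
set_option synthInstance.maxHeartbeats 400000

open AlgebraicCurve ModularCurve

namespace Fermat.Agent.S36Lib

open Fermat.Agent.S18Lib Fermat.Agent.S24Lib Fermat.Agent.ESLib Fermat.Agent.S34Lib

noncomputable section

/-- two algebra homomorphisms agreeing on the generators `j(q^k)` are equal -/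
theorem ALC_ext {N N₂ : ℕ} [NeZero N] [NeZero N₂] (f g : FB N →ₐ[Qb] FB N₂)
    (hJ : ∀ (k : ℕ) (hk : k ∣ N), ((f ⟨Wq_J k, Wq_J_mem hk⟩ : FB N₂) : LaurentSeries Qb) =
      ((g ⟨Wq_J k, Wq_J_mem hk⟩ : FB N₂) : LaurentSeries Qb)) (x : FB N) : f x = g x := by
  have key : (f : FB N →+* FB N₂) = (g : FB N →+* FB N₂) := by
    refine Wq_ringHom_ext _ _ ?_ ?_
    · intro c
      show f (algebraMap Qb (FB N) c) = g (algebraMap Qb (FB N) c)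
      rw [f.commutes, g.commutes]
    · intro d hd
      exact Subtype.ext (hJ d hd)
  exact RingHom.congr_fun key x

/-- the defining property of `w_Q`, for an element given by its `q`-expansion -/
theorem ALC_gen {N Q M : ℕ} [NeZero N] {w : FB N ≃ₐ[Qb] FB N} (h : IsAL N Q M w) (y : FB N)
    (d e : ℕ) (hd : d ∣ Q) (he : e ∣ M) (hy : (y : LaurentSeries Qb) = Wq_J (d * e)) :
    ((w y : FB N) : LaurentSeries Qb) = Wq_J (Q / d * e) := by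
  obtain ⟨y, hy'⟩ := y
  have hy2 : y = Wq_J (d * e) := hy
  subst hy2
  exact h.gen d e hd he hy'

/-- uniqueness -/
theorem IsAL.unique {N Q M : ℕ} [NeZero N] (hN : N = Q * M) {w w₂ : FB N ≃ₐ[Qb] FB N}
    (h : IsAL N Q M w) (h₂ : IsAL N Q M w₂) : w = w₂ := by
  refine AlgEquiv.ext fun x => ?_
  refine ALC_ext (w : FB N →ₐ[Qb] FB N) (w₂ : FB N →ₐ[Qb] FB N) ?_ x
  intro k hk
  rw [hN] at hk
  obtain ⟨d, e, hd, he, rfl⟩ := (Nat.dvd_mul).1 hk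
  show ((w _ : FB N) : LaurentSeries Qb) = ((w₂ _ : FB N) : LaurentSeries Qb)
  rw [ALC_gen h _ d e hd he rfl, ALC_gen h₂ _ d e hd he rfl]

/-- `w_Q` commutes with the inclusion `FB (Q M) → FB (Q M₂)`, `M ∣ M₂` -/
theorem IsAL.comm_aHom {N N₂ Q M M₂ : ℕ} [NeZero N] [NeZero N₂] (hN : N = Q * M) (hN₂ : N₂ = Q * M₂)
    (hM : M ∣ M₂) (hd : N ∣ N₂) {w : FB N ≃ₐ[Qb] FB N} {w₂ : FB N₂ ≃ₐ[Qb] FB N₂}
    (h : IsAL N Q M w) (h₂ : IsAL N₂ Q M₂ w₂) (x : FB N) : w₂ (aHom hd x) = aHom hd (w x) := by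
  refine ALC_ext ((w₂ : FB N₂ →ₐ[Qb] FB N₂).comp (aHom hd))
    ((aHom hd).comp (w : FB N →ₐ[Qb] FB N)) ?_ x
  intro k hk
  rw [hN] at hk
  obtain ⟨d, e, hd', he, rfl⟩ := (Nat.dvd_mul).1 hk
  show ((w₂ (aHom hd _) : FB N₂) : LaurentSeries Qb) = ((aHom hd (w _) : FB N₂) : LaurentSeries Qb)
  rw [coe_aHom, ALC_gen h _ d e hd' he rfl,
    ALC_gen h₂ _ d e hd' (he.trans hM) (by rw [coe_aHom])]

/-- `w_Q` commutes with `z ↦ z(q^d)`, `FB (Q M) → FB (Q M₂)`, `M d ∣ M₂` -/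
theorem IsAL.comm_bHom {N N₂ Q M M₂ d : ℕ} [NeZero N] [NeZero N₂] [NeZero d] (hN : N = Q * M)
    (hN₂ : N₂ = Q * M₂) (hM : M * d ∣ M₂) (hd : N * d ∣ N₂) {w : FB N ≃ₐ[Qb] FB N}
    {w₂ : FB N₂ ≃ₐ[Qb] FB N₂} (h : IsAL N Q M w) (h₂ : IsAL N₂ Q M₂ w₂) (x : FB N) :
    w₂ (bHom d hd x) = bHom d hd (w x) := by
  refine ALC_ext ((w₂ : FB N₂ →ₐ[Qb] FB N₂).comp (bHom d hd))
    ((bHom d hd).comp (w : FB N →ₐ[Qb] FB N)) ?_ x
  intro k hk
  rw [hN] at hk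
  obtain ⟨a, e, ha, he, rfl⟩ := (Nat.dvd_mul).1 hk
  show ((w₂ (bHom d hd _) : FB N₂) : LaurentSeries Qb) =
    ((bHom d hd (w _) : FB N₂) : LaurentSeries Qb)
  rw [coe_bHom, ALC_gen h _ a e ha he rfl, Wq_qExpand_J,
    ALC_gen h₂ _ a (e * d) ha ((Nat.mul_dvd_mul_right he d).trans hM) (by
      rw [coe_bHom, Wq_qExpand_J]
      congr 1
      ring)]
  congr 1
  ring

/-- `w_{Q q} ∘ V_q = incl ∘ w_Q` on `FB (Q M) → FB (Q q M)` -/
theorem IsAL.swap {N' N Q q M : ℕ} [NeZero N'] [NeZero N] [NeZero q] (hN' : N' = Q * M)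
    (hN : N = Q * q * M) (ha : N' ∣ N) (hb : N' * q ∣ N) {w' : FB N' ≃ₐ[Qb] FB N'}
    {w : FB N ≃ₐ[Qb] FB N} (h' : IsAL N' Q M w') (h : IsAL N (Q * q) M w) (x : FB N') :
    w (bHom q hb x) = aHom ha (w' x) := by
  refine ALC_ext ((w : FB N →ₐ[Qb] FB N).comp (bHom q hb))
    ((aHom ha).comp (w' : FB N' →ₐ[Qb] FB N')) ?_ x
  intro k hk
  rw [hN'] at hk
  obtain ⟨d, e, hd, he, rfl⟩ := (Nat.dvd_mul).1 hk
  show ((w (bHom q hb _) : FB N) : LaurentSeries Qb) =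
    ((aHom ha (w' _) : FB N) : LaurentSeries Qb)
  rw [coe_aHom, ALC_gen h' _ d e hd he rfl,
    ALC_gen h _ (d * q) e (Nat.mul_dvd_mul_right hd q) he (by
      rw [coe_bHom, Wq_qExpand_J]
      congr 1
      ring),
    Nat.mul_div_mul_right _ _ (Nat.pos_of_ne_zero (NeZero.ne q))]

theorem IsAL.swap' {N' N Q q M : ℕ} [NeZero N'] [NeZero N] [NeZero q] (hN' : N' = Q * M)
    (hN : N = Q * q * M) (ha : N' ∣ N) (hb : N' * q ∣ N) {w' : FB N' ≃ₐ[Qb] FB N'}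
    {w : FB N ≃ₐ[Qb] FB N} (h' : IsAL N' Q M w') (h : IsAL N (Q * q) M w) (x : FB N') :
    w (aHom ha x) = bHom q hb (w' x) := by
  have h1 := IsAL.swap hN' hN ha hb h' h (w' x)
  rw [h'.invol] at h1
  rw [← h1, h.invol]

end

end Fermat.Agent.S36Lib
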