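import Mathlib

/-!
# S36 / S35 norm block, (EMBN): abstract facts on norms (Mathlib only)
-/

set_option autoImplicit false
set_option synthInstance.maxHeartbeats 400000

namespace Fermat.Agent.S36Lib

/-- the norm is the product over a complete list of distinct embeddings into ANY field -/
theorem norm_eq_prod_of_injective {F E L : Type*} [Field F] [Field E] [Field L] [Algebra F E]
    [Algebra F L] [FiniteDimensional F E] [Algebra.IsSeparable F E] {ι : Type*} [Fintype ι]
    (σ : ι → E →ₐ[F] L) (hσ : Function.Injective σ)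
    (hcard : Fintype.card ι = Module.finrank F E) (x : E) :
    algebraMap F L (Algebra.norm F x) = ∏ i, σ i x := by
  let Ω := AlgebraicClosure L
  let j : L →ₐ[F] Ω := IsScalarTower.toAlgHom F L Ω
  have hj : Function.Injective j := (algebraMap L Ω).injective
  apply hj
  have h1 : j (algebraMap F L (Algebra.norm F x)) = algebraMap F Ω (Algebra.norm F x) :=
    j.commutes _
  rw [h1, Algebra.norm_eq_prod_embeddings F Ω, map_prod]
  let e : ι → (E →ₐ[F] Ω) := fun i => j.comp (σ i)
  have he : Function.Injective e := by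
    intro a b hab
    apply hσ
    ext y
    apply hj
    exact DFunLike.congr_fun hab y
  have hcard' : Fintype.card ι = Fintype.card (E →ₐ[F] Ω) := by
    rw [hcard, AlgHom.card]
  have hbij : Function.Bijective e := (Fintype.bijective_iff_injective_and_card e).2 ⟨he, hcard'⟩
  exact (Fintype.prod_bijective e hbij _ _ (fun i => rfl)).symm

/-- transport of the norm by an isomorphism of extensions, `along` form -/
theorem norm_along_equiv {F E F₂ E₂ : Type*} [Field F] [Field E] [Field F₂] [Field E₂]
    (φ : F →+* E) (φ₂ : F₂ →+* E₂) (u : F ≃+* F₂) (v : E ≃+* E₂)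
    (h : ∀ x, v (φ x) = φ₂ (u x)) (y : E) :
    (letI := φ₂.toAlgebra; Algebra.norm F₂ (v y)) = u (letI := φ.toAlgebra; Algebra.norm F y) := by
  letI := φ.toAlgebra
  letI := φ₂.toAlgebra
  have h1 := Algebra.norm_eq_of_equiv_equiv u v (by
    ext x
    exact (h x).symm) y
  show Algebra.norm F₂ (v y) = u (Algebra.norm F y)
  rw [h1, RingEquiv.apply_symm_apply]

/-- same for the degree -/
theorem finrank_along_equiv {F E F₂ E₂ : Type*} [Field F] [Field E] [Field F₂] [Field E₂]
    (φ : F →+* E) (φ₂ : F₂ →+* E₂) (u : F ≃+* F₂) (v : E ≃+* E₂)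
    (h : ∀ x, v (φ x) = φ₂ (u x)) :
    (letI := φ₂.toAlgebra; Module.finrank F₂ E₂) = (letI := φ.toAlgebra; Module.finrank F E) := by
  letI := φ.toAlgebra
  letI := φ₂.toAlgebra
  exact (Algebra.finrank_eq_of_equiv_equiv u v (by
    ext x
    exact (h x).symm)).symm

end Fermat.Agent.S36Lib
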