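import Fermat.Agent.S36.NrmDefs
import Fermat.Agent.S36.NrmEmb
import Fermat.Agent.S36.ALCompat

/-!
# S36 / S35 norm block, (NA): the norm along the inclusion, via Atkin-Lehner
-/

set_option autoImplicit false
set_option synthInstance.maxHeartbeats 400000

open AlgebraicCurve ModularCurve

namespace Fermat.Agent.S36Lib

open Fermat.Agent.S18Lib Fermat.Agent.S24Lib Fermat.Agent.ESLib Fermat.Agent.S34Lib

noncomputable section

theorem nrm_aHom_eq {N' N q M : ℕ} [NeZero N'] [NeZero N] [NeZero q] (h : N' * q = N)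
    (hN' : N' = q * M) {w' : FB N' ≃ₐ[Qb] FB N'} {w : FB N ≃ₐ[Qb] FB N} (h' : IsAL N' q M w')
    (hw : IsAL N (q * q) M w) (f : FB N) :
    nrm (aHom (Dvd.intro q h)) f = w' (nrm (bHom q (dvd_of_eq h)) (w f)) := by
  have hN : N = q * q * M := by rw [← h, hN']; ring
  have key := norm_along_equiv (bHom q (dvd_of_eq h)).toRingHom (aHom (Dvd.intro q h)).toRingHom
    w'.toRingEquiv w.toRingEquiv
    (fun x => IsAL.swap hN' hN (Dvd.intro q h) (dvd_of_eq h) h' hw x) (w f)
  have e : w.toRingEquiv (w f) = f := hw.invol f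
  rw [e] at key
  exact key

end

end Fermat.Agent.S36Lib
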