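import Fermat.Agent.S36.NrmDefs
import Fermat.Agent.S36.NrmEmb
import Fermat.Agent.S36.ALCompat
import Fermat.Agent.S37.NormBeta

/-!
# S36 / S35 norm block, (WH): `w_Q` commutes with the multiplicative Hecke operators
-/

set_option autoImplicit false
set_option linter.style.haveILetI false
set_option synthInstance.maxHeartbeats 400000

open AlgebraicCurve ModularCurve

namespace Fermat.Agent.S36Lib

open Fermat.Agent.S18Lib Fermat.Agent.S24Lib Fermat.Agent.ESLib Fermat.Agent.S34Lib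
  Fermat.Agent.S37Lib

noncomputable section

theorem WH_alpha_eq (N ℓ : ℕ) [NeZero N] [NeZero ℓ] (x : FB N) :
    heckeAlphaBar Qb N ℓ x = aHom (dvd_mul_right N ℓ) x := by
  apply Subtype.ext
  rw [coe_aHom, coe_heckeAlphaBar]

theorem WH_beta_eq (N ℓ : ℕ) [NeZero N] [NeZero ℓ] (x : FB N) :
    heckeBetaBar Qb N ℓ x = bHom ℓ (dvd_refl (N * ℓ)) x := by
  apply Subtype.ext
  rw [coe_bHom, coe_heckeBetaBar]

theorem WH_heckeMul_zero (ℓ : ℕ) [NeZero ℓ] : heckeMul ℓ (0 : LaurentSeries Qb) = 0 := by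
  unfold heckeMul
  rw [map_zero, zero_mul]

theorem IsAL.comm_heckeMul {N Q M ℓ : ℕ} [NeZero N] [NeZero ℓ] (hN : N = Q * M)
    (hc : Nat.Coprime Q M) (hℓ : ℓ.Prime) (hℓN : ¬ ℓ ∣ N) {w : FB N ≃ₐ[Qb] FB N}
    (h : IsAL N Q M w) (f f' : FB N)
    (hf : (f' : LaurentSeries Qb) = heckeMul ℓ (f : LaurentSeries Qb)) :
    ((w f' : FB N) : LaurentSeries Qb) = heckeMul ℓ ((w f : FB N) : LaurentSeries Qb) := by
  by_cases hf0 : f = 0
  · subst hf0
    have hf'0 : f' = 0 := by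
      apply Subtype.ext
      rw [hf, ZeroMemClass.coe_zero, WH_heckeMul_zero]
    rw [hf'0, map_zero, ZeroMemClass.coe_zero, WH_heckeMul_zero]
  have hwf0 : w f ≠ 0 := by
    intro h0
    exact hf0 ((map_eq_zero_iff w w.injective).1 h0)
  have hN2 : N * ℓ = Q * (M * ℓ) := by rw [hN]; ring
  have hc2 : Nat.Coprime Q (M * ℓ) := by
    refine Nat.Coprime.mul_right hc ?_
    rw [Nat.coprime_comm, Nat.Prime.coprime_iff_not_dvd hℓ]
    intro hd
    exact hℓN (hN ▸ Dvd.dvd.mul_right hd M)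
  obtain ⟨w2, hw2⟩ := exists_isAL (N * ℓ) Q (M * ℓ) hN2 hc2
  have n1 := norm_heckeBeta N ℓ hℓ hℓN f hf0
  have n2 := norm_heckeBeta N ℓ hℓ hℓN (w f) hwf0
  have hcomm : ∀ x : FB N, (w2 : FB (N * ℓ) ≃+* FB (N * ℓ)) ((heckeAlphaBar Qb N ℓ).toRingHom x) =
      (heckeAlphaBar Qb N ℓ).toRingHom ((w : FB N ≃+* FB N) x) := by
    intro x
    show w2 (heckeAlphaBar Qb N ℓ x) = heckeAlphaBar Qb N ℓ (w x)
    rw [WH_alpha_eq, WH_alpha_eq]
    exact IsAL.comm_aHom hN hN2 (dvd_mul_right M ℓ) (dvd_mul_right N ℓ) h hw2 x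
  have key := norm_along_equiv (heckeAlphaBar Qb N ℓ).toRingHom (heckeAlphaBar Qb N ℓ).toRingHom
    (w : FB N ≃+* FB N) (w2 : FB (N * ℓ) ≃+* FB (N * ℓ)) hcomm (heckeBetaBar Qb N ℓ f)
  have hbeta : (w2 : FB (N * ℓ) ≃+* FB (N * ℓ)) (heckeBetaBar Qb N ℓ f) =
      heckeBetaBar Qb N ℓ (w f) := by
    show w2 (heckeBetaBar Qb N ℓ f) = heckeBetaBar Qb N ℓ (w f)
    rw [WH_beta_eq, WH_beta_eq]
    exact IsAL.comm_bHom hN hN2 (dvd_refl _) (dvd_refl _) h hw2 f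
  rw [hbeta] at key
  letI := algebraAlong (heckeAlphaBar Qb N ℓ)
  have hf' : f' = Algebra.norm (FB N) (heckeBetaBar Qb N ℓ f) := by
    apply Subtype.ext
    rw [hf]
    exact n1.symm
  rw [hf', ← n2]
  exact congrArg Subtype.val key.symm

end

end Fermat.Agent.S36Lib
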