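import Fermat.Agent.ES.Formal

/-!
# S36 / S35 norm block, (FML): formal identities on Laurent series
-/

set_option autoImplicit false
set_option linter.style.haveILetI false
set_option synthInstance.maxHeartbeats 400000

open AlgebraicCurve ModularCurve

namespace Fermat.Agent.S36Lib

open Fermat.Agent.ESLib

noncomputable section

section Formal

variable {K : Type*} [Field K]

theorem twist_qExpand' (ℓ : ℕ) [NeZero ℓ] (z : Kˣ) (f : LaurentSeries K) :
    twist z (qExpand K ℓ f) = qExpand K ℓ (twist (z ^ ℓ) f) := by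
  ext n
  rw [twist_coeff]
  by_cases hn : (ℓ : ℤ) ∣ n
  · obtain ⟨k, rfl⟩ := hn
    rw [qExpand_coeff_mul, qExpand_coeff_mul, twist_coeff, zpow_mul, zpow_natCast]
  · rw [qExpand_coeff_of_not_dvd ℓ _ hn, qExpand_coeff_of_not_dvd ℓ _ hn, mul_zero]

theorem FML_qExpand_comm (q ℓ : ℕ) [NeZero q] [NeZero ℓ] (f : LaurentSeries K) :
    qExpand K q (qExpand K ℓ f) = qExpand K ℓ (qExpand K q f) := by
  rw [qExpand_qExpand, qExpand_qExpand]
  exact qExpand_congr (mul_comm q ℓ) f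

/-- `V_ℓ` commutes with `∏_{z ∈ μ_q} twist z` -/
theorem FML_prodTwist_qExpand (q ℓ : ℕ) [NeZero q] [NeZero ℓ] (h : Nat.Coprime q ℓ)
    (hq : ∃ ζ : K, IsPrimitiveRoot ζ q) (f : LaurentSeries K) :
    prodTwist q (qExpand K ℓ f) = qExpand K ℓ (prodTwist q f) := by
  unfold prodTwist
  letI : Fintype (rootsOfUnity q K) := Fintype.ofFinite _
  rw [map_prod]
  simp only [twist_qExpand']
  obtain ⟨ζ, hζ⟩ := hq
  have hcard : (Nat.card (rootsOfUnity q K)).Coprime ℓ := by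
    rw [hζ.card_rootsOfUnity]
    exact h
  exact Fintype.prod_equiv (powCoprime hcard)
    (fun z : rootsOfUnity q K => qExpand K ℓ (twist ((z : Kˣ) ^ ℓ) f))
    (fun z : rootsOfUnity q K => qExpand K ℓ (twist (z : Kˣ) f)) (fun z => rfl)

theorem normL_qExpand (q ℓ : ℕ) [NeZero q] [NeZero ℓ] (h : Nat.Coprime q ℓ)
    (hq : ∃ ζ : K, IsPrimitiveRoot ζ q) (f : LaurentSeries K) :
    normL q (qExpand K ℓ f) = qExpand K ℓ (normL q f) := by
  apply qExpand_injective (R := K) q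
  rw [qExpand_normL q hq, FML_prodTwist_qExpand q ℓ h hq, FML_qExpand_comm, qExpand_normL q hq]

theorem FML_prodTwist_comm (q ℓ : ℕ) [NeZero q] [NeZero ℓ] (f : LaurentSeries K) :
    prodTwist q (prodTwist ℓ f) = prodTwist ℓ (prodTwist q f) := by
  unfold prodTwist
  letI : Fintype (rootsOfUnity q K) := Fintype.ofFinite _
  letI : Fintype (rootsOfUnity ℓ K) := Fintype.ofFinite _
  simp only [← twistHom_apply, map_prod]
  simp only [twistHom_apply, twist_twist]
  rw [Finset.prod_comm]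
  refine Finset.prod_congr rfl fun y _ => Finset.prod_congr rfl fun z _ => ?_
  rw [mul_comm]

theorem normL_normL (q ℓ : ℕ) [NeZero q] [NeZero ℓ] (h : Nat.Coprime q ℓ)
    (hq : ∃ ζ : K, IsPrimitiveRoot ζ q) (hℓ : ∃ ζ : K, IsPrimitiveRoot ζ ℓ)
    (f : LaurentSeries K) : normL q (normL ℓ f) = normL ℓ (normL q f) := by
  apply qExpand_injective (R := K) q
  apply qExpand_injective (R := K) ℓ
  rw [qExpand_normL q hq, ← FML_prodTwist_qExpand q ℓ h hq, qExpand_normL ℓ hℓ,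
    FML_qExpand_comm, qExpand_normL ℓ hℓ, ← FML_prodTwist_qExpand ℓ q h.symm hℓ,
    qExpand_normL q hq, FML_prodTwist_comm]

theorem normL_heckeMul (q ℓ : ℕ) [NeZero q] [NeZero ℓ] (h : Nat.Coprime q ℓ)
    (hq : ∃ ζ : K, IsPrimitiveRoot ζ q) (hℓ : ∃ ζ : K, IsPrimitiveRoot ζ ℓ)
    (f : LaurentSeries K) : normL q (heckeMul ℓ f) = heckeMul ℓ (normL q f) := by
  unfold heckeMul
  rw [normL_mul q hq, normL_qExpand q ℓ h hq, normL_normL q ℓ h hq hℓ]

theorem qExpand_heckeMul (q ℓ : ℕ) [NeZero q] [NeZero ℓ] (h : Nat.Coprime q ℓ)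
    (hℓ : ∃ ζ : K, IsPrimitiveRoot ζ ℓ) (f : LaurentSeries K) :
    qExpand K q (heckeMul ℓ f) = heckeMul ℓ (qExpand K q f) := by
  unfold heckeMul
  rw [map_mul, FML_qExpand_comm, normL_qExpand ℓ q h.symm hℓ]

end Formal

end

end Fermat.Agent.S36Lib
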