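import Fermat.Agent.S36.NrmB
import Fermat.Agent.S36.NrmA
import Fermat.Agent.S36.ALHecke
import Fermat.Agent.S36.NrmFormal

/-!
# S36 / S35 norm block, (HC): the norms commute with the Hecke operators
-/

set_option autoImplicit false
set_option synthInstance.maxHeartbeats 400000

open AlgebraicCurve ModularCurve

namespace Fermat.Agent.S36Lib

open Fermat.Agent.S18Lib Fermat.Agent.S24Lib Fermat.Agent.ESLib Fermat.Agent.S34Lib

noncomputable section

theorem nrm_bHom_heckeMul {N' N q ℓ : ℕ} [NeZero N'] [NeZero N] [NeZero q] [NeZero ℓ]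
    (hq : q.Prime) (h : N' * q = N) (hqN' : N'.factorization q = 1) (hℓ : ℓ.Prime)
    (hℓN : ¬ ℓ ∣ N) (f f' : FB N)
    (hf : (f' : LaurentSeries Qb) = heckeMul ℓ (f : LaurentSeries Qb)) :
    ((nrm (bHom q (dvd_of_eq h)) f' : FB N') : LaurentSeries Qb)
      = heckeMul ℓ ((nrm (bHom q (dvd_of_eq h)) f : FB N') : LaurentSeries Qb) := by
  have hne : q ≠ ℓ := by
    rintro rfl
    exact hℓN (Dvd.intro_left N' h)
  have hc : Nat.Coprime q ℓ := (Nat.coprime_primes hq hℓ).2 hne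
  rw [coe_nrm_bHom hq h hqN', coe_nrm_bHom hq h hqN', hf,
    normL_heckeMul q ℓ hc (exists_primitiveRoot_Qb q) (exists_primitiveRoot_Qb ℓ)]

/-- `N' = q * M` with `q ∤ M` -/
theorem HC_exists_M {N' q : ℕ} [NeZero N'] (hq : q.Prime) (hqN' : N'.factorization q = 1) :
    ∃ M : ℕ, N' = q * M ∧ Nat.Coprime q M := by
  have hd : q ∣ N' := by
    by_contra hcon
    rw [Nat.factorization_eq_zero_of_not_dvd hcon] at hqN'
    exact absurd hqN' (by norm_num)
  obtain ⟨M, hM⟩ := hd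
  refine ⟨M, hM, ?_⟩
  rw [Nat.Prime.coprime_iff_not_dvd hq]
  rintro ⟨M₂, rfl⟩
  have h2 : q ^ 2 ∣ N' := ⟨M₂, by rw [hM]; ring⟩
  have := (hq.pow_dvd_iff_le_factorization (NeZero.ne N')).1 h2
  omega

theorem nrm_aHom_heckeMul {N' N q ℓ : ℕ} [NeZero N'] [NeZero N] [NeZero q] [NeZero ℓ]
    (hq : q.Prime) (h : N' * q = N) (hqN' : N'.factorization q = 1) (hℓ : ℓ.Prime)
    (hℓN : ¬ ℓ ∣ N) (f f' : FB N)
    (hf : (f' : LaurentSeries Qb) = heckeMul ℓ (f : LaurentSeries Qb)) :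
    ((nrm (aHom (Dvd.intro q h)) f' : FB N') : LaurentSeries Qb)
      = heckeMul ℓ ((nrm (aHom (Dvd.intro q h)) f : FB N') : LaurentSeries Qb) := by
  obtain ⟨M, hN', hc⟩ := HC_exists_M hq hqN'
  have hN : N = q * q * M := by rw [← h, hN']; ring
  have hc2 : Nat.Coprime (q * q) M := Nat.Coprime.mul_left hc hc
  obtain ⟨w', hw'⟩ := exists_isAL N' q M hN' hc
  obtain ⟨w, hw⟩ := exists_isAL N (q * q) M hN hc2
  have hℓN' : ¬ ℓ ∣ N' := fun hd => hℓN (hd.trans (Dvd.intro q h))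
  rw [nrm_aHom_eq h hN' hw' hw, nrm_aHom_eq h hN' hw' hw]
  apply IsAL.comm_heckeMul hN' hc hℓ hℓN' hw'
  apply nrm_bHom_heckeMul hq h hqN' hℓ hℓN
  exact IsAL.comm_heckeMul hN hc2 hℓ hℓN hw f f' hf

end

end Fermat.Agent.S36Lib
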