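import Fermat.Agent.S36.NrmB
import Fermat.Agent.S36.NrmA
import Fermat.Agent.S36.NrmHecke
import Fermat.Agent.S37.FEFund
import Fermat.Agent.S37.Generic

/-!
# S36 / S35 norm block, (AUX): auxiliary level
-/

set_option autoImplicit false
set_option synthInstance.maxHeartbeats 400000

open AlgebraicCurve ModularCurve

namespace Fermat.Agent.S36Lib

open Fermat.Agent.S18Lib Fermat.Agent.S24Lib Fermat.Agent.ESLib Fermat.Agent.S34Lib
  Fermat.Agent.S37Lib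

noncomputable section

/-- pull-back of Kummer generators -/
theorem aHom_isKum {N N₂ : ℕ} [NeZero N] [NeZero N₂] (hd : N ∣ N₂) {m : ℕ} {f : FB N}
    (hf : IsKum N m f) : IsKum N₂ m (aHom hd f) := by
  refine ⟨fun h0 => hf.1 ((map_eq_zero (aHom hd)).1 h0), fun P => ?_⟩
  rw [Place.ord_restrictAlong (aHom hd) (fe_isIntegral_along (isFF_bar N) (isFF_bar N₂) _) P f]
  exact Dvd.dvd.mul_left (hf.2 _) _

/-- abstract Bezout step: if `f ^ (p ^ a * u * p ^ c) = G ^ (p ^ n)` with `p ∤ u`, then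
`f ^ (p ^ (a + c))` is a `p ^ n`-th power. -/
theorem AUX_bezout {F : Type*} [Field F] {p : ℕ} (hp : p.Prime) {a u c n : ℕ} (hu : ¬ p ∣ u)
    {f G : F} (hf : f ≠ 0) (h : f ^ (p ^ a * u * p ^ c) = G ^ (p ^ n)) :
    ∃ g : F, f ^ (p ^ (a + c)) = g ^ (p ^ n) := by
  have hcop : IsCoprime (u : ℤ) ((p ^ n : ℕ) : ℤ) := by
    rw [Nat.isCoprime_iff_coprime]
    exact Nat.Coprime.pow_right n ((Nat.Prime.coprime_iff_not_dvd hp).2 hu).symm
  obtain ⟨s, t, hst⟩ := hcop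
  refine ⟨G ^ s * f ^ ((p ^ (a + c) : ℕ) * t), ?_⟩
  have e1 : (G ^ s) ^ (p ^ n) = f ^ (((p ^ a * u * p ^ c : ℕ) : ℤ) * s) := by
    rw [← zpow_natCast (G ^ s), ← zpow_mul, mul_comm s, zpow_mul, zpow_natCast, ← h, zpow_mul,
      zpow_natCast]
  have e2 : (f ^ (((p ^ (a + c) : ℕ) : ℤ) * t)) ^ (p ^ n) =
      f ^ (((p ^ (a + c) : ℕ) : ℤ) * t * ((p ^ n : ℕ) : ℤ)) := by
    rw [← zpow_natCast (f ^ _), ← zpow_mul]
  rw [mul_pow, e1, e2, ← zpow_add₀ hf, ← zpow_natCast f]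
  congr 1
  have : (((p ^ a * u * p ^ c : ℕ) : ℤ) * s + ((p ^ (a + c) : ℕ) : ℤ) * t * ((p ^ n : ℕ) : ℤ)) =
      ((p ^ (a + c) : ℕ) : ℤ) * (s * u + t * ((p ^ n : ℕ) : ℤ)) := by
    push_cast
    ring
  rw [this, hst, mul_one]

theorem AUX_ext {N : ℕ} {x y : FB N} (h : (x : LaurentSeries Qb) = (y : LaurentSeries Qb)) :
    x = y := Subtype.ext h

theorem nuKummer_of_mul {N N' q p r : ℕ} [NeZero N] [NeZero N'] [NeZero q] [NeZero (N * r)]
    [NeZero (N' * r)] (hq : q.Prime) (hp : p.Prime) (h : N' * q = N)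
    (hqN' : N'.factorization q = 1) (hr : r.Prime) (hrN : ¬ r ∣ N)
    (h₂ : N' * r * q = N * r) (H : NUKummer (N * r) (N' * r) q p h₂) : NUKummer N N' q p h := by
  intro A hA
  obtain ⟨c₂, hc₂⟩ := H A hA
  haveI : NeZero r := ⟨hr.ne_zero⟩
  -- `r + 1 = p ^ a * u`
  obtain ⟨a, u, hu, hru⟩ : ∃ a u : ℕ, ¬ p ∣ u ∧ r + 1 = p ^ a * u :=
    Nat.exists_eq_pow_mul_and_not_dvd (Nat.succ_ne_zero r) p hp.ne_one
  refine ⟨a + c₂, fun n f hK hI hg₁ hg₂ => ?_⟩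
  obtain ⟨g₁, hg₁⟩ := hg₁
  obtain ⟨g₂, hg₂⟩ := hg₂
  have hdN : N ∣ N * r := dvd_mul_right N r
  have hdN' : N' ∣ N' * r := dvd_mul_right N' r
  have hrq : r ≠ q := by
    rintro rfl
    exact hrN (Dvd.intro_left N' h)
  have hfac : (N' * r).factorization q = 1 := by
    rw [Nat.factorization_mul (NeZero.ne N') hr.ne_zero, Finsupp.add_apply, hqN',
      hr.factorization, Finsupp.single_apply, if_neg hrq, add_zero]
  -- the norm along `bHom`
  have hb : ∀ x : FB N, nrm (bHom q (dvd_of_eq h₂)) (aHom hdN x) =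
      aHom hdN' (nrm (bHom q (dvd_of_eq h)) x) := by
    intro x
    apply AUX_ext
    rw [coe_nrm_bHom hq h₂ hfac, coe_aHom, coe_aHom, coe_nrm_bHom hq h hqN']
  -- the norm along `aHom`
  obtain ⟨M, hN', hc⟩ := HC_exists_M hq hqN'
  have hN : N = q * q * M := by rw [← h, hN']; ring
  have hrM : ¬ r ∣ M := fun hd => hrN (hN ▸ Dvd.dvd.mul_left hd _)
  have hqr : Nat.Coprime q r := (Nat.coprime_primes hq hr).2 hrq.symm
  have hcr : Nat.Coprime q (M * r) := Nat.Coprime.mul_right hc hqr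
  have hN'r : N' * r = q * (M * r) := by rw [hN']; ring
  have hNr : N * r = q * q * (M * r) := by rw [hN]; ring
  obtain ⟨w', hw'⟩ := exists_isAL N' q M hN' hc
  obtain ⟨w, hw⟩ := exists_isAL N (q * q) M hN (Nat.Coprime.mul_left hc hc)
  obtain ⟨w'₂, hw'₂⟩ := exists_isAL (N' * r) q (M * r) hN'r hcr
  obtain ⟨w₂, hw₂⟩ := exists_isAL (N * r) (q * q) (M * r) hNr (Nat.Coprime.mul_left hcr hcr)
  have ha : ∀ x : FB N, nrm (aHom (Dvd.intro q h₂)) (aHom hdN x) =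
      aHom hdN' (nrm (aHom (Dvd.intro q h)) x) := by
    intro x
    rw [nrm_aHom_eq h₂ hN'r hw'₂ hw₂, nrm_aHom_eq h hN' hw' hw,
      IsAL.comm_aHom hN hNr (dvd_mul_right M r) hdN hw hw₂, hb,
      IsAL.comm_aHom hN' hN'r (dvd_mul_right M r) hdN' hw' hw'₂]
  obtain ⟨G, hG⟩ := hc₂ n (aHom hdN f) (aHom_isKum hdN hK)
    (by
      intro σ hσ
      obtain ⟨v, hv⟩ := hI σ hσ
      refine ⟨aHom hdN v, ?_⟩
      rw [← map_pow, ← map_mul, ← hv]
      apply AUX_ext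
      rw [coe_gal, coe_aHom, coe_aHom, coe_gal])
    ⟨aHom hdN' g₁, by rw [ha, hg₁, map_pow]⟩
    ⟨aHom hdN' g₂, by rw [hb, hg₂, map_pow]⟩
  -- take the norm down to level `N`
  have hnorm : ∀ x : FB N, nrm (aHom hdN) (aHom hdN x) = x ^ (r + 1) := by
    intro x
    have hdeg := finrank_alpha N r hr hrN
    have halpha : aHom hdN = heckeAlphaBar Qb N r := rfl
    rw [halpha]
    letI := algebraAlong (heckeAlphaBar Qb N r)
    have := Algebra.norm_algebraMap (S := FB (N * r)) x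
    rw [hdeg] at this
    exact this
  have h3 := congrArg (nrm (aHom hdN)) hG
  rw [map_pow, map_pow, hnorm, ← pow_mul, hru] at h3
  exact AUX_bezout hp hu hK.1 h3

end

end Fermat.Agent.S36Lib
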