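import Fermat.Agent.S36.NrmDefs
import Fermat.Agent.S37.FENorm
import Fermat.Agent.S37.NormBeta

/-!
# S36 / S35 norm block, (KUM): the norm of a Kummer generator is a Kummer generator
-/

set_option autoImplicit false
set_option linter.style.haveILetI false
set_option synthInstance.maxHeartbeats 400000

open AlgebraicCurve ModularCurve

namespace Fermat.Agent.S36Lib

open Fermat.Agent.S18Lib Fermat.Agent.S24Lib Fermat.Agent.ESLib Fermat.Agent.S34Lib
  Fermat.Agent.S37Lib

noncomputable section

theorem nrm_isKum {N' N : ℕ} [NeZero N'] [NeZero N] (φ : FB N' →ₐ[Qb] FB N) {m : ℕ} {f : FB N}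
    (hf : IsKum N m f) : IsKum N' m (nrm φ f) := by
  have hF := isFF_bar N'
  have hF' := isFF_bar N
  have hfin := fe_finite_along hF hF' φ
  have hnorm := fe_norm_along hF hF' φ hfin
  letI := algebraAlong φ
  haveI := isScalarTower_along φ
  haveI : Module.Finite (FB N') (FB N) := hfin
  have hnorm' : Divisor.PushforwardNormFormula Qb (FB N') (FB N) := hnorm
  refine ⟨?_, fun v => ?_⟩
  · show Algebra.norm (FB N') f ≠ 0
    exact Algebra.norm_ne_zero_iff.2 hf.1
  · show (m : ℤ) ∣ v.ord (Algebra.norm (FB N') f)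
    classical
    rw [← hnorm' f hf.1 (FFLib.divOf Qb f) (fun w => FFLib.divOf_apply hF' f w) v,
      Divisor.pushforward_apply]
    refine Finset.dvd_sum fun w _ => ?_
    split_ifs
    · rw [FFLib.divOf_apply hF' f w]
      exact Dvd.dvd.mul_right (hf.2 w) _
    · exact dvd_zero _

end

end Fermat.Agent.S36Lib
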