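import Fermat.Agent.S36.Defs
import Fermat.Agent.S34.Wq
import Fermat.Agent.S18.Level
import Fermat.Prelude.Def_ModularCurve_HeckeOperator

/-!
# S36 / S35 library, norm block: definitions

* `aHom h : FB N' →ₐ FB N` : the inclusion (`N' ∣ N`)
* `bHom d h : FB N' →ₐ FB N` : `z ↦ z(q^d)` (`N' * d ∣ N`)
* `nrm φ : FB N →* FB N'` : the norm along `φ`
* `IsAL N Q M w` : `w` is the Atkin-Lehner involution `w_Q` of `FB N`, `N = Q * M`
* `NUKummer N N' q p` : (NU) for Kummer generators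
-/

set_option autoImplicit false
set_option synthInstance.maxHeartbeats 400000

open AlgebraicCurve ModularCurve

namespace Fermat.Agent.S36Lib

open Fermat.Agent.S18Lib Fermat.Agent.S24Lib Fermat.Agent.ESLib Fermat.Agent.S34Lib

noncomputable section

/-- the inclusion `FB N' → FB N` -/
def aHom {N' N : ℕ} [NeZero N'] [NeZero N] (h : N' ∣ N) : FB N' →ₐ[Qb] FB N :=
  IntermediateField.inclusion (FB_le_of_dvd h)

theorem aHom_eq {N' N : ℕ} [NeZero N'] [NeZero N] (h : N' ∣ N) (x : LaurentSeries Qb)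
    (hx : x ∈ FB N') : aHom h ⟨x, hx⟩ = ⟨x, FB_le_of_dvd h hx⟩ := rfl

theorem coe_aHom {N' N : ℕ} [NeZero N'] [NeZero N] (h : N' ∣ N) (x : FB N') :
    ((aHom h x : FB N) : LaurentSeries Qb) = (x : LaurentSeries Qb) := by
  obtain ⟨x, hx⟩ := x
  rw [aHom_eq]

/-- `z ↦ z(q^d)`, `FB N' → FB N` -/
def bHom {N' N : ℕ} [NeZero N'] [NeZero N] (d : ℕ) [NeZero d] (h : N' * d ∣ N) :
    FB N' →ₐ[Qb] FB N :=
  (aHom h).comp (heckeBetaBar Qb N' d)

theorem coe_bHom {N' N : ℕ} [NeZero N'] [NeZero N] (d : ℕ) [NeZero d] (h : N' * d ∣ N)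
    (x : FB N') :
    ((bHom d h x : FB N) : LaurentSeries Qb) = qExpand Qb d (x : LaurentSeries Qb) := by
  rw [bHom, AlgHom.comp_apply, coe_aHom, coe_heckeBetaBar]

/-- the norm along `φ` -/
def nrm {N' N : ℕ} (φ : FB N' →ₐ[Qb] FB N) : FB N →* FB N' :=
  letI := algebraAlong φ
  Algebra.norm (FB N')

/-- `w` is the Atkin-Lehner involution `w_Q` on `FB N`, `N = Q * M` -/
structure IsAL (N Q M : ℕ) [NeZero N] (w : FB N ≃ₐ[Qb] FB N) : Prop where
  gen : ∀ d e : ℕ, d ∣ Q → e ∣ M → ∀ h : Wq_J (d * e) ∈ FB N,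
    ((w ⟨Wq_J (d * e), h⟩ : FB N) : LaurentSeries Qb) = Wq_J (Q / d * e)
  invol : ∀ x, w (w x) = x
  gal : ∀ (σ : GQ) (x : FB N), w (gal N σ x) = ESLib.gal N σ (w x)

theorem exists_isAL (N Q M : ℕ) [NeZero N] (h : N = Q * M) (hc : Nat.Coprime Q M) :
    ∃ w : FB N ≃ₐ[Qb] FB N, IsAL N Q M w := by
  subst h
  haveI : NeZero Q := ⟨fun h0 => NeZero.ne (Q * M) (by rw [h0, zero_mul])⟩
  haveI : NeZero M := ⟨fun h0 => NeZero.ne (Q * M) (by rw [h0, mul_zero])⟩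
  obtain ⟨w, h1, h2, h3⟩ := exists_wQ Q M hc
  exact ⟨w, h1, h2, h3⟩

/-- (NU) for Kummer generators: `N = N' * q`, `q ∣ N'`.  A Kummer generator whose class is fixed
by inertia at `q` and killed by the two norms to level `N'` is a `pⁿ`-th power, up to a bounded
power of `p`. -/
def NUKummer (N N' q p : ℕ) [NeZero N] [NeZero N'] [NeZero q] (h : N' * q = N) : Prop :=
  ∀ A : ValuationSubring Qb, A.LiesOverPrime q → ∃ c : ℕ, ∀ (n : ℕ) (f : FB N),
    IsKum N (p ^ n) f →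
    (∀ σ ∈ A.inertiaSubgroupIn ℚ, ∃ w : FB N, ESLib.gal N σ f = w ^ (p ^ n) * f) →
    (∃ g : FB N', nrm (aHom (Dvd.intro q h)) f = g ^ (p ^ n)) →
    (∃ g : FB N', nrm (bHom q (dvd_of_eq h)) f = g ^ (p ^ n)) →
    ∃ g : FB N, f ^ (p ^ c) = g ^ (p ^ n)

end

end Fermat.Agent.S36Lib
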