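import Fermat.Agent.S36.NrmDefs
import Fermat.Agent.ES.Trunk

/-!
# S36 / S35 library, (TC): the trunk clause

GENERIC part: `ν : FB N →* FB N'` a multiplicative map which preserves Kummer generators and
commutes with the multiplicative Hecke operators `heckeMul ℓ`, `ℓ ∤ N`.  If `t₀ = P(T_ℓ)` with
`P(T_ℓ) = 0` at level `N'` and `f` is a Kummer generator with coordinates `Θ(t₀) v`, then `ν f` is
an `m`-th power (`kap_nu_eq_pow`).

Then: `NUStatement` from `NUKummer` and the properties of the two norms (`nuStatement_of`).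
-/

set_option autoImplicit false
set_option synthInstance.maxHeartbeats 400000
set_option linter.style.haveILetI false
set_option linter.unusedSectionVars false

open AlgebraicCurve ModularCurve

namespace Fermat.Agent.S36Lib

open Fermat.Agent.S18Lib Fermat.Agent.S24Lib Fermat.Agent.ESLib Fermat.Agent.ESLib.P Matrix

section Generic

variable {N N' : ℕ} [NeZero N] [NeZero N'] {r r' : ℕ}
  {b : Module.Basis (Fin r) ℤ (EP N ℤ)} {b' : Module.Basis (Fin r') ℤ (EP N' ℤ)}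
  (H : TrunkHyp N) (H' : TrunkHyp N') {m : ℕ} (hm : 0 < m)
  (ν : FB N →* FB N') (hνK : ∀ f, IsKum N m f → IsKum N' m (ν f))

include H H' hm hνK

theorem tc_exists (v : Fin r → ZMod m) :
    ∃ v' : Fin r' → ZMod m, ∀ f, Kap b m f v → Kap b' m (ν f) v' := by
  obtain ⟨f₀, hf₀⟩ := Kap.exists (b := b) H hm v
  obtain ⟨φ, hφ, hR⟩ := H'.exists_of_isKum hm (hνK f₀ (hf₀.isKum H hm))
  have hv' : Kap b' m (ν f₀) (crd b' m ⟨φ, hφ⟩) := ⟨⟨φ, hφ⟩, hR, rfl⟩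
  refine ⟨crd b' m ⟨φ, hφ⟩, fun f hf => ?_⟩
  have h1 := hf.mul H hm (hf₀.inv H hm)
  rw [add_neg_cancel] at h1
  obtain ⟨g, hg, hfg⟩ := h1.eq_pow H hm
  have h2 : f = g ^ m * f₀ := by
    rw [← hfg, inv_mul_cancel_right₀ (hf₀.ne_zero H hm)]
  have hνf : ν f ≠ 0 := (hνK f (hf.isKum H hm)).1
  rw [h2, map_mul, map_pow] at hνf ⊢
  refine hv'.pow_mul H' hm ?_
  rintro h0
  rw [h0, zero_pow hm.ne', zero_mul] at hνf
  exact hνf rfl

variable (b b') in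
/-- the map induced by `ν` on coordinates -/
noncomputable def tcFun (v : Fin r → ZMod m) : Fin r' → ZMod m :=
  Classical.choose (tc_exists (b := b) (b' := b') H H' hm ν hνK v)

theorem tcFun_spec {v : Fin r → ZMod m} {f : FB N} (h : Kap b m f v) :
    Kap b' m (ν f) (tcFun b b' H H' hm ν hνK v) :=
  Classical.choose_spec (tc_exists (b := b) (b' := b') H H' hm ν hνK v) f h

theorem tcFun_add (v w : Fin r → ZMod m) :
    tcFun b b' H H' hm ν hνK (v + w) =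
      tcFun b b' H H' hm ν hνK v + tcFun b b' H H' hm ν hνK w := by
  obtain ⟨f, hf⟩ := Kap.exists (b := b) H hm v
  obtain ⟨g, hg⟩ := Kap.exists (b := b) H hm w
  have h1 := tcFun_spec (b' := b') H H' hm ν hνK (hf.mul H hm hg)
  rw [map_mul] at h1
  exact h1.unique H' hm ((tcFun_spec H H' hm ν hνK hf).mul H' hm (tcFun_spec H H' hm ν hνK hg))

variable (b b') in
/-- the additive map induced by `ν` on coordinates -/
noncomputable def tcHom : (Fin r → ZMod m) →+ (Fin r' → ZMod m) :=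
  AddMonoidHom.mk' (tcFun b b' H H' hm ν hνK) (tcFun_add H H' hm ν hνK)

theorem tcHom_spec {v : Fin r → ZMod m} {f : FB N} (h : Kap b m f v) :
    Kap b' m (ν f) (tcHom b b' H H' hm ν hνK v) := tcFun_spec H H' hm ν hνK h

variable {Θ₀ : TT0 N →+* Module.End ℤ (EP N ℤ)} (hΘ : IsThetaTr Θ₀)
  {Θ₀' : TT0 N' →+* Module.End ℤ (EP N' ℤ)} (hΘ' : IsThetaTr Θ₀')
  (hνH : ∀ (ℓ : ℕ) [NeZero ℓ], ℓ.Prime → ¬ ℓ ∣ N → ∀ f f' : FB N,
    (f' : LaurentSeries Qb) = heckeMul ℓ (f : LaurentSeries Qb) →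
    ((ν f' : FB N') : LaurentSeries Qb) = heckeMul ℓ ((ν f : FB N') : LaurentSeries Qb))

include hΘ hΘ' hνH

theorem tcHom_hecke {ℓ : ℕ} (hℓ : ℓ.Prime) (hℓN : ¬ ℓ ∣ N) (hℓN' : ¬ ℓ ∣ N')
    (v : Fin r → ZMod m) :
    tcHom b b' H H' hm ν hνK
        ((ThM b Θ₀ (CuspForm.heckeAlgebra.T hℓ hℓN hℓN)).map (Int.castRingHom (ZMod m)) *ᵥ v) =
      (ThM b' Θ₀' (CuspForm.heckeAlgebra.T hℓ hℓN' hℓN')).map (Int.castRingHom (ZMod m)) *ᵥ
        tcHom b b' H H' hm ν hνK v := by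
  haveI : NeZero ℓ := ⟨hℓ.ne_zero⟩
  obtain ⟨f, hf⟩ := Kap.exists (b := b) H hm v
  obtain ⟨f', h1, h2⟩ := hf.hecke H hΘ hℓ hℓN
  obtain ⟨f'', h3, h4⟩ := (tcHom_spec (b' := b') H H' hm ν hνK hf).hecke H' hΘ' hℓ hℓN'
  have h5 : ν f' = f'' := Subtype.ext ((hνH ℓ hℓ hℓN f f' h1).trans h3.symm)
  have h6 := tcHom_spec (b' := b') H H' hm ν hνK h2
  rw [h5] at h6
  exact h6.unique H' hm h4

/-- the matrix of `P(T_ℓ)` modulo `m` -/
noncomputable def tcPsi {N : ℕ} [NeZero N] {r : ℕ} (b : Module.Basis (Fin r) ℤ (EP N ℤ))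
    (Θ₀ : TT0 N →+* Module.End ℤ (EP N ℤ)) (m : ℕ) :
    MvPolynomial ℕ ℤ →+* Matrix (Fin r) (Fin r) (ZMod m) :=
  ((Int.castRingHom (ZMod m)).mapMatrix.comp (ThM b Θ₀)).comp
    (MvPolynomial.aeval (evT N) : MvPolynomial ℕ ℤ →ₐ[ℤ] TT0 N).toRingHom

omit H H' hm hνK hΘ hΘ' hνH in
theorem tcPsi_apply {N : ℕ} [NeZero N] {r : ℕ} (b : Module.Basis (Fin r) ℤ (EP N ℤ))
    (Θ₀ : TT0 N →+* Module.End ℤ (EP N ℤ)) (m : ℕ) (P : MvPolynomial ℕ ℤ) :
    tcPsi b Θ₀ m P = (ThM b Θ₀ (MvPolynomial.aeval (evT N) P)).map (Int.castRingHom (ZMod m)) :=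
  rfl

theorem tcHom_poly (hdvd : ∀ ℓ : ℕ, ¬ ℓ ∣ N → ¬ ℓ ∣ N') (P : MvPolynomial ℕ ℤ)
    (hP : ∀ ℓ ∈ P.vars, ℓ.Prime ∧ ¬ ℓ ∣ N) (v : Fin r → ZMod m) :
    tcHom b b' H H' hm ν hνK (tcPsi b Θ₀ m P *ᵥ v) =
      tcPsi b' Θ₀' m P *ᵥ tcHom b b' H H' hm ν hνK v := by
  have hmem : P ∈ MvPolynomial.supported ℤ {ℓ : ℕ | ℓ.Prime ∧ ¬ ℓ ∣ N} := by
    rw [MvPolynomial.mem_supported]
    intro ℓ hℓ
    exact hP ℓ (Finset.mem_coe.1 hℓ)
  rw [MvPolynomial.supported] at hmem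
  clear hP
  induction hmem using Algebra.adjoin_induction generalizing v with
  | mem x hx =>
    obtain ⟨ℓ, ⟨hℓ, hℓN⟩, rfl⟩ := hx
    rw [tcPsi_apply, tcPsi_apply, MvPolynomial.aeval_X, MvPolynomial.aeval_X,
      evT_of_prime N hℓ hℓN, evT_of_prime N' hℓ (hdvd ℓ hℓN)]
    exact tcHom_hecke H H' hm ν hνK hΘ hΘ' hνH hℓ hℓN (hdvd ℓ hℓN) v
  | algebraMap k =>
    have e : ∀ {s : ℕ} (Ψ : MvPolynomial ℕ ℤ →+* Matrix (Fin s) (Fin s) (ZMod m))
        (u : Fin s → ZMod m), Ψ (algebraMap ℤ _ k) *ᵥ u = k • u := by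
      intro s Ψ u
      rw [eq_intCast, map_intCast]
      have : ((k : Matrix (Fin s) (Fin s) (ZMod m))) = (k : ZMod m) • 1 := by
        rw [← Algebra.algebraMap_eq_smul_one, map_intCast]
      rw [this, smul_mulVec, one_mulVec, Int.cast_smul_eq_zsmul]
    rw [e, e, map_zsmul]
  | add x y _ _ hx hy =>
    rw [map_add, map_add, add_mulVec, add_mulVec, map_add, hx, hy]
  | mul x y _ _ hx hy =>
    rw [map_mul, map_mul, ← mulVec_mulVec, ← mulVec_mulVec, hx, hy]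

variable (b') in
include b' in
/-- **the generic trunk clause** -/
theorem kap_nu_eq_pow (hdvd : ∀ ℓ : ℕ, ¬ ℓ ∣ N → ¬ ℓ ∣ N') {t₀ : TT0 N}
    (hk : KillsLevel N N' t₀) {v : Fin r → ZMod m} {f : FB N}
    (hf : Kap b m f ((ThM b Θ₀ t₀).map (Int.castRingHom (ZMod m)) *ᵥ v)) :
    ∃ g : FB N', ν f = g ^ m := by
  obtain ⟨P, hP, rfl, h0⟩ := hk
  have h1 := tcHom_spec (b' := b') H H' hm ν hνK hf
  rw [← tcPsi_apply, tcHom_poly H H' hm ν hνK hΘ hΘ' hνH hdvd P hP v, tcPsi_apply, h0,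
    map_zero] at h1
  have h2 : (Matrix.map (0 : Matrix (Fin r') (Fin r') ℤ) (Int.castRingHom (ZMod m))) *ᵥ
      tcHom b b' H H' hm ν hνK v = 0 := by
    rw [Matrix.map_zero _ (map_zero _), zero_mulVec]
  rw [h2] at h1
  obtain ⟨g, -, hg⟩ := h1.eq_pow H' hm
  exact ⟨g, hg⟩

end Generic

/-- a Kummer generator whose coordinates are fixed by `σ` -/
theorem kap_gal_eq {N : ℕ} [NeZero N] {r : ℕ} {b : Module.Basis (Fin r) ℤ (EP N ℤ)}
    (H : TrunkHyp N) {m : ℕ} (hm : 0 < m) {u : Fin r → ZMod m} {f : FB N} (hf : Kap b m f u)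
    (σ : GQ) (hσ : rhoM b H hm σ *ᵥ u = u) : ∃ w : FB N, ESLib.gal N σ f = w ^ m * f := by
  have h1 := rhoM_spec H hm σ hf
  rw [hσ] at h1
  have h2 := h1.mul H hm (hf.inv H hm)
  rw [add_neg_cancel] at h2
  obtain ⟨g, -, hg⟩ := h2.eq_pow H hm
  exact ⟨g, by rw [← hg, inv_mul_cancel_right₀ (hf.ne_zero H hm)]⟩

/-- `NUStatement` from `NUKummer` and the properties of the two norms -/
theorem nuStatement_of
    (hK : ∀ (N N' q p : ℕ) [NeZero N] [NeZero N'] [NeZero q] (h : N' * q = N), q.Prime →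
      p.Prime → q ≠ p → N'.factorization q = 1 → NUKummer N N' q p h)
    (hkum : ∀ {N' N : ℕ} [NeZero N'] [NeZero N] (φ : FB N' →ₐ[Qb] FB N) {m : ℕ} {f : FB N},
      IsKum N m f → IsKum N' m (nrm φ f))
    (ha : ∀ {N' N q ℓ : ℕ} [NeZero N'] [NeZero N] [NeZero q] [NeZero ℓ], q.Prime →
      ∀ (h : N' * q = N), N'.factorization q = 1 → ℓ.Prime → ¬ ℓ ∣ N → ∀ (f f' : FB N),
      (f' : LaurentSeries Qb) = heckeMul ℓ (f : LaurentSeries Qb) →
      ((nrm (aHom (Dvd.intro q h)) f' : FB N') : LaurentSeries Qb)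
        = heckeMul ℓ ((nrm (aHom (Dvd.intro q h)) f : FB N') : LaurentSeries Qb))
    (hb : ∀ {N' N q ℓ : ℕ} [NeZero N'] [NeZero N] [NeZero q] [NeZero ℓ], q.Prime →
      ∀ (h : N' * q = N), N'.factorization q = 1 → ℓ.Prime → ¬ ℓ ∣ N → ∀ (f f' : FB N),
      (f' : LaurentSeries Qb) = heckeMul ℓ (f : LaurentSeries Qb) →
      ((nrm (bHom q (dvd_of_eq h)) f' : FB N') : LaurentSeries Qb)
        = heckeMul ℓ ((nrm (bHom q (dvd_of_eq h)) f : FB N') : LaurentSeries Qb)) :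
    NUStatement := by
  intro N p _ _
  have hp : p.Prime := Fact.out
  have H : TrunkHyp N := (trunkHyp0 N).toTrunkHyp
  obtain ⟨r, b, Θ₀, hinj, hTr⟩ := H.theta
  refine ⟨r, P.ThM b Θ₀, fun n => P.rhoM b H (pow_pos hp.pos n), ?_, ?_⟩
  · refine ⟨P.ThM_injective Θ₀ hinj, fun n σ => P.rhoM_compat H hp.pos n σ,
      fun n => P.rhoM_level H _, fun n σ T => P.rhoM_comm H _ hTr σ T, ?_, ?_⟩
    · intro n q hq hqNp A hA σ hσ
      refine P.rhoM_unram H _ hq (fun h => hqNp (Dvd.dvd.mul_right h p)) (fun h => ?_) A hA σ hσ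
      exact hqNp (Dvd.dvd.mul_left (hq.dvd_of_dvd_pow h) N)
    · intro n ℓ hℓ hℓN hℓp A hA σ hσ
      refine P.rhoM_es H _ hTr hℓ hℓN (fun h => ?_) A hA σ hσ
      exact hℓp ((Nat.prime_dvd_prime_iff_eq hℓ hp).mp (hℓ.dvd_of_dvd_pow h))
  · intro q hq hqp hfac _ t₀ hk A hA
    haveI : NeZero q := ⟨hq.ne_zero⟩
    have hqN : q ∣ N := Nat.dvd_of_factorization_pos (by rw [hfac]; norm_num)
    have h : N / q * q = N := Nat.div_mul_cancel hqN
    have hfac' : (N / q).factorization q = 1 := by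
      rw [Nat.factorization_div hqN, Finsupp.coe_tsub, Pi.sub_apply, hfac,
        hq.factorization_self]
    have hdvd : ∀ ℓ : ℕ, ¬ ℓ ∣ N → ¬ ℓ ∣ N / q :=
      fun ℓ hℓ hℓ' => hℓ (hℓ'.trans (Nat.div_dvd_of_dvd hqN))
    have H' : TrunkHyp (N / q) := (trunkHyp0 (N / q)).toTrunkHyp
    obtain ⟨r', b', Θ₀', -, hTr'⟩ := H'.theta
    obtain ⟨c, hc⟩ := hK N (N / q) q p h hq hp hqp hfac' A hA
    refine ⟨c, fun n v hv => ?_⟩
    have hm : 0 < p ^ n := pow_pos hp.pos n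
    set u : Fin r → ZMod (p ^ n) := redM p n (P.ThM b Θ₀ t₀) *ᵥ v with hu
    obtain ⟨f, hf⟩ := Kap.exists (b := b) H hm u
    have hI : ∀ σ ∈ A.inertiaSubgroupIn ℚ, ∃ w : FB N, ESLib.gal N σ f = w ^ (p ^ n) * f := by
      intro σ hσ
      apply kap_gal_eq H hm hf σ
      rw [hu, mulVec_mulVec]
      have := P.rhoM_comm (b := b) H hm hTr σ t₀
      rw [redM, this, ← mulVec_mulVec, hv σ hσ]
    have hA1 := kap_nu_eq_pow (b := b) b' H H' hm (nrm (aHom (Dvd.intro q h)))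
      (fun f hf => hkum _ hf) hTr hTr'
      (fun ℓ _ hℓ hℓN f f' hff => ha hq h hfac' hℓ hℓN f f' hff) hdvd hk (v := v) hf
    have hB1 := kap_nu_eq_pow (b := b) b' H H' hm (nrm (bHom q (dvd_of_eq h)))
      (fun f hf => hkum _ hf) hTr hTr'
      (fun ℓ _ hℓ hℓN f f' hff => hb hq h hfac' hℓ hℓN f f' hff) hdvd hk (v := v) hf
    obtain ⟨g, hg⟩ := hc n f (hf.isKum H hm) hI hA1 hB1
    have h1 := hf.pow H hm (p ^ c)
    rw [hg] at h1
    have hg0 : g ≠ 0 := by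
      rintro rfl
      exact h1.ne_zero H hm (zero_pow hm.ne')
    exact h1.unique H hm (Kap.pow_self H hm hg0)

end Fermat.Agent.S36Lib
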