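import Fermat.Agent.ES.KDefs
import Fermat.Prelude.Def_CuspForm_Newforms

/-!
# S36 library: the interface between the geometry (NU), strong multiplicity one (SMO) and the
Galois/Hecke glue (GL)

* `evT N ℓ` : the Hecke operator `T_ℓ` in `TT0 N` (`0` unless `ℓ` is a prime not dividing `N`)
* `KillsLevel N N' t₀` : `t₀ = P(T_ℓ)` for a polynomial `P` in the `T_ℓ`, `ℓ ∤ N`, which vanishes
  at level `N'`
* `NUMatrix Θ ρ q t₀` : the inertia invariants at `q` of the trunk are killed by `t₀`, up to a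
  bounded power of `p`
-/

set_option autoImplicit false
set_option synthInstance.maxHeartbeats 400000

namespace Fermat.Agent.S36Lib

open Fermat.Agent.S18Lib Fermat.Agent.ESLib Matrix

/-- the Hecke operator `T_ℓ` (`0` unless `ℓ` is a prime not dividing `N`) -/
noncomputable def evT (N : ℕ) [NeZero N] (ℓ : ℕ) : TT0 N :=
  open Classical in
  if h : ℓ.Prime ∧ ¬ ℓ ∣ N then CuspForm.heckeAlgebra.T h.1 h.2 h.2 else 0

theorem evT_of_prime (N : ℕ) [NeZero N] {ℓ : ℕ} (hℓ : ℓ.Prime) (hℓN : ¬ ℓ ∣ N) :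
    evT N ℓ = CuspForm.heckeAlgebra.T hℓ hℓN hℓN := by
  rw [evT, dif_pos ⟨hℓ, hℓN⟩]

/-- `t₀` is a polynomial in the `T_ℓ`, `ℓ ∤ N`, which vanishes at level `N'` -/
def KillsLevel (N N' : ℕ) [NeZero N] [NeZero N'] (t₀ : TT0 N) : Prop :=
  ∃ P : MvPolynomial ℕ ℤ, (∀ ℓ ∈ P.vars, ℓ.Prime ∧ ¬ ℓ ∣ N) ∧
    MvPolynomial.aeval (evT N) P = t₀ ∧ MvPolynomial.aeval (evT N') P = 0

/-- (NU), matrix form: the vectors of `(ℤ/pⁿ)^r` fixed by an inertia group at `q` are killed by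
`p^c t₀`, `c` independent of `n`. -/
def NUMatrix {N p : ℕ} [NeZero N] {r : ℕ} (Θ : TT0 N →+* Matrix (Fin r) (Fin r) ℤ)
    (ρ : (n : ℕ) → GQ →* Matrix (Fin r) (Fin r) (ZMod (p ^ n))) (q : ℕ) (t₀ : TT0 N) : Prop :=
  ∀ A : ValuationSubring Qb, A.LiesOverPrime q → ∃ c : ℕ, ∀ (n : ℕ) (v : Fin r → ZMod (p ^ n)),
    (∀ σ ∈ A.inertiaSubgroupIn ℚ, ρ n σ *ᵥ v = v) →
      (p ^ c : ℕ) • (redM p n (Θ t₀) *ᵥ v) = 0

/-- the statement to be delivered by the geometric part of S36 -/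
def NUStatement : Prop :=
  ∀ (N p : ℕ) [NeZero N] [Fact p.Prime],
    ∃ (r : ℕ) (Θ : TT0 N →+* Matrix (Fin r) (Fin r) ℤ)
      (ρ : (n : ℕ) → GQ →* Matrix (Fin r) (Fin r) (ZMod (p ^ n))), IsESData N p r Θ ρ ∧
      ∀ (q : ℕ) (_ : q.Prime) (_ : q ≠ p) (_ : N.factorization q = 2) [NeZero (N / q)]
        (t₀ : TT0 N), KillsLevel N (N / q) t₀ → NUMatrix Θ ρ q t₀

/-- the Hecke algebra away from `S` is contained in the Hecke algebra generated by the `T_ℓ`,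
`ℓ ∤ N` -/
theorem heckeAlgebra_le (N : ℕ) [NeZero N] (S : Finset ℕ)
    (hNS : ∀ q : ℕ, q.Prime → q ∣ N → q ∈ S) :
    CuspForm.heckeAlgebra N 2 (↑S : Set ℕ) ≤ CuspForm.heckeAlgebra N 2 {q : ℕ | q ∣ N} := by
  apply Algebra.adjoin_mono
  rintro T (⟨ℓ, hℓ, hℓN, -, rfl⟩ | ⟨q, hqN, hq, hqS, rfl⟩)
  · exact CuspForm.heckeTLin_mem_heckeGenerators hℓ hℓN hℓN
  · exact absurd (hNS q hq hqN) hqS

/-- the inclusion of the Hecke algebra away from `S` -/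
noncomputable def incS (N : ℕ) [NeZero N] (S : Finset ℕ)
    (hNS : ∀ q : ℕ, q.Prime → q ∣ N → q ∈ S) :
    CuspForm.heckeAlgebra N 2 (↑S : Set ℕ) →+* TT0 N :=
  (Subalgebra.inclusion (heckeAlgebra_le N S hNS)).toRingHom

/-- the statement to be delivered by strong multiplicity one -/
def SMOStatement : Prop :=
  ∀ {M : ℕ} [NeZero M] {g : CuspForm (CongruenceSubgroup.Gamma0 M) 2} (_ : g.IsNewform)
    (S : Finset ℕ) (hMS : ∀ q : ℕ, q.Prime → q ∣ M → q ∈ S)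
    (chig : CuspForm.heckeAlgebra M 2 (↑S : Set ℕ) →+* ℂ)
    (_ : ∀ (ℓ : ℕ) (hℓ : ℓ.Prime) (hℓM : ¬ ℓ ∣ M) (hℓS : ℓ ∉ (↑S : Set ℕ)),
      chig (CuspForm.heckeAlgebra.T hℓ hℓM hℓS) = ModularFormClass.qCoeff g ℓ)
    (q : ℕ) (_ : q.Prime) (_ : q ∣ M) [NeZero (M / q)],
    ∃ t : CuspForm.heckeAlgebra M 2 (↑S : Set ℕ),
      KillsLevel M (M / q) (incS M S hMS t) ∧ chig t ≠ 0

end Fermat.Agent.S36Lib
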