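import Mathlib

/-!
# S36 library, (GL3): a ring homomorphism from the ring of eigenvalues to a ring of
characteristic zero is injective
-/

set_option autoImplicit false

namespace Fermat.Agent.S36Lib

theorem gl_iota_injective {T : Type*} [CommRing T] [Module.Finite ℤ T] (chi : T →+* ℂ)
    {O' : Type*} [CommRing O'] [CharZero O'] (iota : chi.range →+* O') :
    Function.Injective iota := by
  have hfin : Module.Finite ℤ chi.range :=
    Module.Finite.of_surjective chi.rangeRestrict.toIntAlgHom.toLinearMap
      chi.rangeRestrict_surjective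
  have hint : Algebra.IsIntegral ℤ chi.range := Algebra.IsIntegral.of_finite ℤ _
  rw [RingHom.injective_iff_ker_eq_bot]
  apply Ideal.eq_bot_of_comap_eq_bot (R := ℤ)
  rw [eq_bot_iff]
  intro n hn
  rw [Ideal.mem_comap, RingHom.mem_ker, eq_intCast, map_intCast] at hn
  rw [Ideal.mem_bot]
  exact_mod_cast hn

end Fermat.Agent.S36Lib
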