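import Mathlib
import Fermat.Prelude.Def_ModularCurve_GenusNumerics
import Fermat.Agent.S20.Cosets
import Fermat.Agent.S20

/-!
# S36 (NUM): genus numerics for the levels `M`, `q * M`, `q ^ 2 * M`
-/

set_option autoImplicit false

namespace Fermat.Agent.S36Lib

open ModularCurve

/-- no solution of `x² + 1 = 0` modulo `N` if a prime `r ≡ 3 (4)` divides `N` -/
theorem nuTwo_eq_zero {N r : ℕ} (hr : r.Prime) (hr4 : r % 4 = 3) (hrN : r ∣ N) : nuTwo N = 0 := by
  have : Fact r.Prime := ⟨hr⟩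
  unfold nuTwo
  rw [Nat.card_eq_zero]
  left
  refine ⟨fun ⟨x, hx⟩ => ?_⟩
  have h1 : (ZMod.castHom hrN (ZMod r) x) ^ 2 + 1 = 0 := by
    have := congrArg (ZMod.castHom hrN (ZMod r)) hx
    rwa [map_add, map_pow, map_one, map_zero] at this
  have h2 : IsSquare (-1 : ZMod r) := ⟨ZMod.castHom hrN (ZMod r) x, by linear_combination -h1⟩
  exact (ZMod.exists_sq_eq_neg_one_iff.mp h2) hr4

/-- no solution of `x² + x + 1 = 0` modulo `N` if a prime `r ≡ 2 (3)` divides `N` -/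
theorem nuThree_eq_zero {N r : ℕ} (hr : r.Prime) (hr3 : r % 3 = 2) (hrN : r ∣ N) :
    nuThree N = 0 := by
  have : Fact r.Prime := ⟨hr⟩
  unfold nuThree
  rw [Nat.card_eq_zero]
  left
  refine ⟨fun ⟨x, hx⟩ => ?_⟩
  set y := ZMod.castHom hrN (ZMod r) x with hy
  have h1 : y ^ 2 + y + 1 = 0 := by
    have := congrArg (ZMod.castHom hrN (ZMod r)) hx
    rwa [map_add, map_add, map_pow, map_one, map_zero] at this
  have h3 : y ^ 3 = 1 := by linear_combination (y - 1) * h1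
  have hy1 : y ≠ 1 := by
    intro h
    rw [h] at h1
    have h30 : ((3 : ℕ) : ZMod r) = 0 := by
      push_cast
      linear_combination h1
    rw [ZMod.natCast_eq_zero_iff] at h30
    have : r = 3 := (Nat.prime_dvd_prime_iff_eq hr Nat.prime_three).mp h30
    omega
  have hy0 : y ≠ 0 := by
    intro h
    rw [h] at h3
    norm_num at h3
  have hord : orderOf y = 3 := orderOf_eq_prime h3 hy1
  have hdvd := ZMod.orderOf_dvd_card_sub_one hy0
  rw [hord] at hdvd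
  have := hr.two_le
  omega

theorem dedekindPsi_sq_mul {q M : ℕ} (hM : M ≠ 0) (hq : q.Prime) (hqM : ¬ q ∣ M) :
    dedekindPsi (q ^ 2 * M) = q * (q + 1) * dedekindPsi M := by
  have h1 : q ^ 2 * M = q * (q * M) := by ring
  rw [h1, S20Lib.dedekindPsi_mul_of_dvd (mul_ne_zero hq.ne_zero hM) hq (dvd_mul_right q M),
    S20Lib.dedekindPsi_mul_of_not_dvd hM hq hqM]
  ring

/-- `cuspCount` is multiplicative -/
theorem cuspCount_mul {a b : ℕ} (hab : a.Coprime b) (ha : a ≠ 0) (hb : b ≠ 0) :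
    cuspCount (a * b) = cuspCount a * cuspCount b := by
  unfold cuspCount
  rw [hab.divisors_mul, Finset.sum_map, Finset.sum_mul_sum, ← Finset.sum_product',
    ← Finset.sum_attach (a.divisors ×ˢ b.divisors)]
  refine Finset.sum_congr rfl fun ⟨⟨d, e⟩, hde⟩ _ => ?_
  have hd : d ∣ a := Nat.dvd_of_mem_divisors (Finset.mem_product.mp hde).1
  have he : e ∣ b := Nat.dvd_of_mem_divisors (Finset.mem_product.mp hde).2
  show Nat.totient (Nat.gcd (d * e) (a * b / (d * e))) =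
    Nat.totient (Nat.gcd d (a / d)) * Nat.totient (Nat.gcd e (b / e))
  obtain ⟨d', rfl⟩ := hd
  obtain ⟨e', rfl⟩ := he
  have hd0 : 0 < d := Nat.pos_of_ne_zero (by rintro rfl; simp at ha)
  have he0 : 0 < e := Nat.pos_of_ne_zero (by rintro rfl; simp at hb)
  have h1 : d * d' * (e * e') / (d * e) = d' * e' := by
    rw [show d * d' * (e * e') = (d * e) * (d' * e') by ring]
    exact Nat.mul_div_cancel_left _ (Nat.mul_pos hd0 he0)
  rw [h1, Nat.mul_div_cancel_left _ hd0, Nat.mul_div_cancel_left _ he0]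
  have c1 : Nat.Coprime d e := Nat.Coprime.coprime_dvd_left (dvd_mul_right d d')
    (Nat.Coprime.coprime_dvd_right (dvd_mul_right e e') hab)
  have c2 : Nat.Coprime d e' := Nat.Coprime.coprime_dvd_left (dvd_mul_right d d')
    (Nat.Coprime.coprime_dvd_right (dvd_mul_left e' e) hab)
  have c3 : Nat.Coprime d' e := Nat.Coprime.coprime_dvd_left (dvd_mul_left d' d)
    (Nat.Coprime.coprime_dvd_right (dvd_mul_right e e') hab)
  have c4 : Nat.Coprime d' e' := Nat.Coprime.coprime_dvd_left (dvd_mul_left d' d)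
    (Nat.Coprime.coprime_dvd_right (dvd_mul_left e' e) hab)
  have hg : Nat.gcd (d * e) (d' * e') = Nat.gcd d d' * Nat.gcd e e' := by
    rw [Nat.Coprime.gcd_mul _ c4, Nat.Coprime.gcd_mul_right_cancel _ c3.symm,
      Nat.Coprime.gcd_mul_left_cancel _ c2]
  rw [hg]
  exact Nat.totient_mul (Nat.Coprime.coprime_dvd_left (Nat.gcd_dvd_left d d')
    (Nat.Coprime.coprime_dvd_right (Nat.gcd_dvd_left e e') c1))

theorem cuspCount_prime {q : ℕ} (hq : q.Prime) : cuspCount q = 2 := by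
  unfold cuspCount
  rw [hq.divisors, Finset.sum_pair hq.one_lt.ne]
  simp [Nat.div_self hq.pos]

theorem cuspCount_prime_sq {q : ℕ} (hq : q.Prime) : cuspCount (q ^ 2) = q + 1 := by
  unfold cuspCount
  rw [hq.divisors_sq]
  have h1 : q ^ 2 ≠ q := by
    intro h
    have : q * q = q * 1 := by rw [← sq, h, mul_one]
    exact hq.one_lt.ne' (Nat.eq_of_mul_eq_mul_left hq.pos this)
  have h2 : q ^ 2 ≠ 1 := by
    intro h
    exact hq.one_lt.ne' (by simpa using h)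
  rw [Finset.sum_insert (by simp [h1, hq.one_lt.ne']), Finset.sum_pair hq.one_lt.ne']
  have h3 : q ^ 2 / q = q := by rw [sq]; exact Nat.mul_div_cancel _ hq.pos
  rw [Nat.div_self (pow_pos hq.pos 2), h3, Nat.div_one, Nat.gcd_one_right, Nat.gcd_self,
    Nat.gcd_one_left, Nat.totient_one, Nat.totient_prime hq]
  have := hq.two_le
  omega

theorem cuspCount_sq_mul {q M : ℕ} (hM : M ≠ 0) (hq : q.Prime) (hqM : ¬ q ∣ M) :
    cuspCount (q ^ 2 * M) = (q + 1) * cuspCount M := by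
  rw [cuspCount_mul (Nat.Coprime.pow_left 2 ((Nat.Prime.coprime_iff_not_dvd hq).mpr hqM))
    (pow_ne_zero 2 hq.ne_zero) hM, cuspCount_prime_sq hq]

theorem cuspCount_prime_mul {q M : ℕ} (hM : M ≠ 0) (hq : q.Prime) (hqM : ¬ q ∣ M) :
    cuspCount (q * M) = 2 * cuspCount M := by
  rw [cuspCount_mul ((Nat.Prime.coprime_iff_not_dvd hq).mpr hqM) hq.ne_zero hM,
    cuspCount_prime hq]

/-- `r + 1` divides `ψ(M)` for every prime `r ∣ M` -/
theorem succ_dvd_dedekindPsi {r : ℕ} (hr : r.Prime) :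
    ∀ M : ℕ, M ≠ 0 → r ∣ M → r + 1 ∣ dedekindPsi M := by
  intro M
  induction M using Nat.strong_induction_on with
  | _ M ih =>
    intro hM hrM
    obtain ⟨M₁, rfl⟩ := hrM
    have hM₁ : M₁ ≠ 0 := by rintro rfl; simp at hM
    by_cases h : r ∣ M₁
    · rw [S20Lib.dedekindPsi_mul_of_dvd hM₁ hr h]
      refine Dvd.dvd.mul_left (ih M₁ ?_ hM₁ h) r
      exact lt_mul_of_one_lt_left (Nat.pos_of_ne_zero hM₁) hr.one_lt
    · rw [S20Lib.dedekindPsi_mul_of_not_dvd hM₁ hr h]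
      exact dvd_mul_right _ _

theorem twelve_dvd_dedekindPsi {M r : ℕ} (hM : M ≠ 0) (hr : r.Prime) (hr12 : r % 12 = 11)
    (hrM : r ∣ M) : 12 ∣ dedekindPsi M :=
  Dvd.dvd.trans (by omega) (succ_dvd_dedekindPsi hr M hM hrM)

/-- the genus formula without elliptic points -/
theorem genusFormula_of_prime {M r : ℕ} (hr : r.Prime) (hr12 : r % 12 = 11) (hrM : r ∣ M) :
    genusFormula M = 1 + (dedekindPsi M : ℚ) / 12 - (cuspCount M : ℚ) / 2 := by
  unfold genusFormula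
  rw [nuTwo_eq_zero hr (by omega) hrM, nuThree_eq_zero hr (by omega) hrM]
  simp

/-- genus relation between the levels `q² M` and `M` (no elliptic points) -/
theorem genusFormula_sq_mul {q M r : ℕ} (hM : M ≠ 0) (hq : q.Prime) (hqM : ¬ q ∣ M)
    (hr : r.Prime) (hr12 : r % 12 = 11) (hrM : r ∣ M) :
    genusFormula (q ^ 2 * M) - 1 =
      ((q : ℚ) + 1) * (genusFormula M - 1 + ((q : ℚ) - 1) * (dedekindPsi M : ℚ) / 12) := by
  rw [genusFormula_of_prime hr hr12 hrM, genusFormula_of_prime hr hr12 (hrM.mul_left (q ^ 2)),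
    dedekindPsi_sq_mul hM hq hqM, cuspCount_sq_mul hM hq hqM]
  push_cast
  ring

/-- genus relation between the levels `q M` and `M` (no elliptic points) -/
theorem genusFormula_prime_mul {q M r : ℕ} (hM : M ≠ 0) (hq : q.Prime) (hqM : ¬ q ∣ M)
    (hr : r.Prime) (hr12 : r % 12 = 11) (hrM : r ∣ M) :
    genusFormula (q * M) - 1 =
      2 * (genusFormula M - 1) + ((q : ℚ) - 1) * (dedekindPsi M : ℚ) / 12 := by
  rw [genusFormula_of_prime hr hr12 hrM, genusFormula_of_prime hr hr12 (hrM.mul_left q),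
    S20Lib.dedekindPsi_mul_of_not_dvd hM hq hqM, cuspCount_prime_mul hM hq hqM]
  push_cast
  ring

/-- `dim S₂(Γ₀(N))` -/
noncomputable abbrev gS (N : ℕ) : ℕ :=
  Module.finrank ℂ (CuspForm (CongruenceSubgroup.Gamma0 N) 2)

/-- the number of supersingular points of `X₀(M)` in characteristic `q` (no elliptic points) -/
def ssCount (q M : ℕ) : ℕ := (q - 1) * (dedekindPsi M / 12)

theorem ssCount_cast {q M r : ℕ} (hM : M ≠ 0) (hq : q.Prime)
    (hr : r.Prime) (hr12 : r % 12 = 11) (hrM : r ∣ M) :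
    (ssCount q M : ℚ) = ((q : ℚ) - 1) * (dedekindPsi M : ℚ) / 12 := by
  obtain ⟨t, ht⟩ := twelve_dvd_dedekindPsi hM hr hr12 hrM
  unfold ssCount
  rw [ht, Nat.mul_div_cancel_left _ (by norm_num : 0 < 12)]
  have := hq.one_le
  push_cast [Nat.cast_sub this]
  ring

theorem twelve_mul_ssCount {q M r : ℕ} (hM : M ≠ 0)
    (hr : r.Prime) (hr12 : r % 12 = 11) (hrM : r ∣ M) :
    12 * ssCount q M = (q - 1) * dedekindPsi M := by
  obtain ⟨t, ht⟩ := twelve_dvd_dedekindPsi hM hr hr12 hrM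
  unfold ssCount
  rw [ht, Nat.mul_div_cancel_left _ (by norm_num : 0 < 12)]
  ring

/-- **(NUM)**, level `q² M`: `g(q² M) - 1 = (q + 1) (g(M) - 1 + s)` -/
theorem gS_sq_mul {q M r : ℕ} [NeZero M] (hq : q.Prime) (hqM : ¬ q ∣ M)
    (hr : r.Prime) (hr12 : r % 12 = 11) (hrM : r ∣ M) :
    (gS (q ^ 2 * M) : ℤ) - 1 = ((q : ℤ) + 1) * ((gS M : ℤ) - 1 + (ssCount q M : ℤ)) := by
  have hM : M ≠ 0 := NeZero.ne M
  have : NeZero (q ^ 2 * M) := ⟨mul_ne_zero (pow_ne_zero 2 hq.ne_zero) hM⟩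
  have h1 := Fermat.Agent.S20.result (q ^ 2 * M)
  have h2 := Fermat.Agent.S20.result M
  have h3 := genusFormula_sq_mul hM hq hqM hr hr12 hrM
  rw [← h1, ← h2, ← ssCount_cast hM hq hr hr12 hrM] at h3
  have : (((gS (q ^ 2 * M) : ℤ) - 1 : ℤ) : ℚ) =
      ((((q : ℤ) + 1) * ((gS M : ℤ) - 1 + (ssCount q M : ℤ)) : ℤ) : ℚ) := by
    push_cast
    exact h3
  exact_mod_cast this

/-- **(NUM)**, level `q M`: `g(q M) - 1 = 2 (g(M) - 1) + s` -/
theorem gS_prime_mul {q M r : ℕ} [NeZero M] (hq : q.Prime) (hqM : ¬ q ∣ M)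
    (hr : r.Prime) (hr12 : r % 12 = 11) (hrM : r ∣ M) :
    (gS (q * M) : ℤ) - 1 = 2 * ((gS M : ℤ) - 1) + (ssCount q M : ℤ) := by
  have hM : M ≠ 0 := NeZero.ne M
  have : NeZero (q * M) := ⟨mul_ne_zero hq.ne_zero hM⟩
  have h1 := Fermat.Agent.S20.result (q * M)
  have h2 := Fermat.Agent.S20.result M
  have h3 := genusFormula_prime_mul hM hq hqM hr hr12 hrM
  rw [← h1, ← h2, ← ssCount_cast hM hq hr hr12 hrM] at h3
  have : (((gS (q * M) : ℤ) - 1 : ℤ) : ℚ) =
      ((2 * ((gS M : ℤ) - 1) + (ssCount q M : ℤ) : ℤ) : ℚ) := by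
    push_cast
    exact h3
  exact_mod_cast this

/-- the sum of the `q + 1` upper bounds of the tight count (chain `mid^(q-1), ∞, 0`) is
`n d + 1 - g(q² M)`, `d = q (q + 1) ψ`, `ψ = 12 t`. -/
theorem tight_count {q M r : ℕ} [NeZero M] (hq : q.Prime) (hqM : ¬ q ∣ M)
    (hr : r.Prime) (hr12 : r % 12 = 11) (hrM : r ∣ M) (n : ℤ) :
    (∑ γ ∈ Finset.range (q - 1),
        (n * (dedekindPsi M : ℤ) + (γ : ℤ) * (2 * ((dedekindPsi M / 12 : ℕ) : ℤ)) + 1 - (gS M : ℤ)))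
      + (n * (dedekindPsi M : ℤ) - ((q : ℤ) - 1) * (ssCount q M : ℤ) + 1 - (gS M : ℤ))
      + (n * ((q : ℤ) ^ 2 * (dedekindPsi M : ℤ)) - (q : ℤ) * (ssCount q M : ℤ) + 1 - (gS M : ℤ))
      = n * (dedekindPsi (q ^ 2 * M) : ℤ) + 1 - (gS (q ^ 2 * M) : ℤ) := by
  have hM : M ≠ 0 := NeZero.ne M
  have hg := gS_sq_mul hq hqM hr hr12 hrM
  have hpsi := dedekindPsi_sq_mul hM hq hqM
  obtain ⟨q', rfl⟩ : ∃ q', q = q' + 1 := ⟨q - 1, by have := hq.one_le; omega⟩
  have hsum : ∀ (m : ℕ) (a b : ℤ), ∑ γ ∈ Finset.range m, (a + (γ : ℤ) * (2 * b)) =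
      m * a + (m : ℤ) * ((m : ℤ) - 1) * b := by
    intro m a b
    induction m with
    | zero => simp
    | succ m ih => rw [Finset.sum_range_succ, ih]; push_cast; ring
  have hs : (ssCount (q' + 1) M : ℤ) = (q' : ℤ) * ((dedekindPsi M / 12 : ℕ) : ℤ) := by
    unfold ssCount
    simp
  set t : ℤ := ((dedekindPsi M / 12 : ℕ) : ℤ) with ht
  have e1 : ∑ γ ∈ Finset.range (q' + 1 - 1),
      (n * (dedekindPsi M : ℤ) + (γ : ℤ) * (2 * t) + 1 - (gS M : ℤ)) =
      ∑ γ ∈ Finset.range q', ((n * (dedekindPsi M : ℤ) + 1 - (gS M : ℤ)) + (γ : ℤ) * (2 * t)) := by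
    rw [Nat.add_sub_cancel]
    exact Finset.sum_congr rfl fun γ _ => by ring
  rw [e1, hsum, hpsi, hs]
  rw [hs] at hg
  push_cast at hg ⊢
  linear_combination hg

end Fermat.Agent.S36Lib
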