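import Fermat.Agent.S36.K0a

/-!
# S36 block (K0e): `A ∩ K0` is a discrete valuation ring with uniformiser `q`
-/

set_option autoImplicit false

namespace Fermat.Agent.S36Lib

open NumberField Polynomial
open scoped Pointwise

local notation "Qb" => AlgebraicClosure ℚ
local notation "GQ" => (AlgebraicClosure ℚ ≃ₐ[ℚ] AlgebraicClosure ℚ)

theorem K0e_isUnit (A : ValuationSubring Qb) {u : Qb} (hK : u ∈ K0 A) (hU : IsU A u)
    (h0 : u ≠ 0) : IsUnit (⟨⟨u, hK⟩, hU.1⟩ : A0 A) := by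
  rw [isUnit_iff_exists_inv]
  refine ⟨⟨⟨u⁻¹, (K0 A).inv_mem hK⟩, hU.2⟩, ?_⟩
  apply Subtype.ext
  apply Subtype.ext
  exact mul_inv_cancel₀ h0

theorem K0e_coe_natCast (A : ValuationSubring Qb) (q : ℕ) :
    (((((q : ℕ) : A0 A) : A0 A) : K0 A) : Qb) = (q : Qb) := by
  simp

theorem K0e_val_q (A : ValuationSubring Qb) {q : ℕ} (hA : A.LiesOverPrime q) :
    A.valuation (q : Qb) < 1 := by
  have := hA
  rw [ValuationSubring.LiesOverPrime, ValuationSubring.mem_nonunits_iff] at this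
  exact this

theorem K0e_factor (A : ValuationSubring Qb) {q : ℕ} (hq : q.Prime)
    (hA : A.LiesOverPrime q) (x : A0 A) (hx : x ≠ 0) :
    ∃ (n : ℕ) (u : A0 A), IsUnit u ∧ x = ((q : ℕ) : A0 A) ^ n * u := by
  have hx0 : ((x : K0 A) : Qb) ≠ 0 := by
    intro h
    apply hx
    apply Subtype.ext
    apply Subtype.ext
    exact h
  have hq0 : (q : Qb) ≠ 0 := by exact_mod_cast hq.ne_zero
  obtain ⟨n, u, huK, hU, hxu⟩ := exists_zpow_mul_unit A hq hA (x : K0 A).2 hx0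
  have hu0 : u ≠ 0 := by
    rintro rfl
    rw [mul_zero] at hxu
    exact hx0 hxu
  obtain ⟨m, rfl | rfl⟩ := n.eq_nat_or_neg
  · refine ⟨m, ⟨⟨u, huK⟩, hU.1⟩, K0e_isUnit A huK hU hu0, ?_⟩
    apply Subtype.ext
    apply Subtype.ext
    rw [hxu, zpow_natCast]
    simp
  · rcases Nat.eq_zero_or_pos m with rfl | hm
    · refine ⟨0, ⟨⟨u, huK⟩, hU.1⟩, K0e_isUnit A huK hU hu0, ?_⟩
      apply Subtype.ext
      apply Subtype.ext
      rw [hxu]
      simp
    · exfalso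
      have h1 : u = (q : Qb) ^ m * ((x : K0 A) : Qb) := by
        rw [hxu, zpow_neg, zpow_natCast, ← mul_assoc, mul_inv_cancel₀ (pow_ne_zero _ hq0), one_mul]
      have h2 : u ∈ A.nonunits := by
        rw [ValuationSubring.mem_nonunits_iff, h1, map_mul, map_pow]
        exact mul_lt_one_of_lt_of_le (pow_lt_one₀ zero_le (K0e_val_q A hA) hm.ne')
          ((A.valuation_le_one_iff _).mpr x.2)
      exact (isU_iff_not_mem_nonunits hU.1 hu0).mp hU h2

theorem K0e_not_isUnit (A : ValuationSubring Qb) {q : ℕ} (hA : A.LiesOverPrime q) :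
    ¬ IsUnit ((q : ℕ) : A0 A) := by
  intro h
  obtain ⟨b, hb⟩ := isUnit_iff_exists_inv.mp h
  have h1 : (q : Qb) * ((b : K0 A) : Qb) = 1 := by
    have := congrArg (fun z : A0 A => ((z : K0 A) : Qb)) hb
    simpa using this
  have h2 : A.valuation ((q : Qb) * ((b : K0 A) : Qb)) < 1 := by
    rw [map_mul]
    exact mul_lt_one_of_lt_of_le (K0e_val_q A hA) ((A.valuation_le_one_iff _).mpr b.2)
  rw [h1, map_one] at h2
  exact lt_irrefl _ h2

theorem irreducible_q_A0 (A : ValuationSubring Qb) {q : ℕ} (hq : q.Prime)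
    (hA : A.LiesOverPrime q) : Irreducible ((q : ℕ) : A0 A) := by
  have hq0 : ((q : ℕ) : A0 A) ≠ 0 := by exact_mod_cast hq.ne_zero
  rw [irreducible_iff]
  refine ⟨K0e_not_isUnit A hA, ?_⟩
  intro a b hab
  have ha0 : a ≠ 0 := by rintro rfl; rw [zero_mul] at hab; exact hq0 hab
  have hb0 : b ≠ 0 := by rintro rfl; rw [mul_zero] at hab; exact hq0 hab
  obtain ⟨n, u, hu, rfl⟩ := K0e_factor A hq hA a ha0
  obtain ⟨m, w, hw, rfl⟩ := K0e_factor A hq hA b hb0
  rcases Nat.eq_zero_or_pos n with rfl | hn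
  · left; simpa using hu
  rcases Nat.eq_zero_or_pos m with rfl | hm
  · right; simpa using hw
  exfalso
  obtain ⟨n, rfl⟩ := Nat.exists_eq_succ_of_ne_zero hn.ne'
  obtain ⟨m, rfl⟩ := Nat.exists_eq_succ_of_ne_zero hm.ne'
  have h1 : ((q : ℕ) : A0 A) * 1 =
      ((q : ℕ) : A0 A) * (((q : ℕ) : A0 A) * (((q : ℕ) : A0 A) ^ n * ((q : ℕ) : A0 A) ^ m * u * w)) := by
    rw [mul_one]
    conv_lhs => rw [hab]
    simp only [Nat.succ_eq_add_one]
    ring
  have h2 := mul_left_cancel₀ hq0 h1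
  exact K0e_not_isUnit A hA (IsUnit.of_mul_eq_one _ h2.symm)

theorem isDiscreteValuationRing_A0 (A : ValuationSubring Qb) {q : ℕ} (hq : q.Prime)
    (hA : A.LiesOverPrime q) : IsDiscreteValuationRing (A0 A) := by
  apply IsDiscreteValuationRing.ofHasUnitMulPowIrreducibleFactorization
  refine ⟨((q : ℕ) : A0 A), irreducible_q_A0 A hq hA, ?_⟩
  intro x hx
  obtain ⟨n, u, hu, rfl⟩ := K0e_factor A hq hA x hx
  exact ⟨n, hu.unit, rfl⟩

end Fermat.Agent.S36Lib
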