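import Fermat.Agent.S36.K0Defs

/-!
# S36 block (K0), (K0H): the inertia field is unramified
-/

set_option autoImplicit false

namespace Fermat.Agent.S36Lib

open NumberField Polynomial Ideal
open scoped Pointwise

/-- copy of `IsDecompositionField.ramificationIdx_eq` for the inertia field -/
theorem inertiaField_ramificationIdx_eq_one (L : Type) [Field L] [NumberField L] [IsGalois ℚ L]
    (P : Ideal (𝓞 L)) [P.IsMaximal] {q : ℕ} (hq : q.Prime) (hP : (q : 𝓞 L) ∈ P) :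
    ¬ ((q : 𝓞 (FixedPoints.intermediateField (P.inertia Gal(L/ℚ)) : IntermediateField ℚ L)) ∈
      (P.under (𝓞 (FixedPoints.intermediateField (P.inertia Gal(L/ℚ)) : IntermediateField ℚ L))) ^ 2) := by
  set H : Subgroup Gal(L/ℚ) := P.inertia Gal(L/ℚ) with hH
  set E : IntermediateField ℚ L := FixedPoints.intermediateField H with hE
  set 𝔭 : Ideal (𝓞 E) := P.under (𝓞 E) with h𝔭
  set p : Ideal ℤ := Ideal.span {(q : ℤ)} with hp
  have hpmax : p.IsMaximal :=
    PrincipalIdealRing.isMaximal_of_irreducible (Nat.prime_iff_prime_int.mp hq).irreducible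
  have hp0 : p ≠ ⊥ := by
    rw [hp, Ne, Ideal.span_singleton_eq_bot]
    exact_mod_cast hq.ne_zero
  have hPp : P.LiesOver p := by
    constructor
    apply hpmax.eq_of_le
    · exact (Ideal.IsPrime.under ℤ P).ne_top
    · rw [hp, Ideal.span_singleton_le_iff_mem, Ideal.under, Ideal.mem_comap]
      simpa using hP
  have hP𝔭 : P.LiesOver 𝔭 := ⟨rfl⟩
  have h𝔭p : 𝔭.LiesOver p := LiesOver.tower_bot P 𝔭 p
  have hGal : IsGaloisGroup H E L := IsGaloisGroup.subgroup Gal(L/ℚ) ℚ L H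
  have hfin : Finite (ℤ ⧸ p) := Ring.HasFiniteQuotients.finiteQuotient hp0
  have h𝔭0 : 𝔭 ≠ ⊥ := Ideal.ne_bot_of_liesOver_of_ne_bot hp0 𝔭
  have h𝔭max : 𝔭.IsMaximal := inferInstance
  have hfin' : Finite (𝓞 E ⧸ 𝔭) := Ring.HasFiniteQuotients.finiteQuotient h𝔭0
  have c1 : Nat.card (P.inertia Gal(L/ℚ)) = p.ramificationIdxIn (𝓞 L) :=
    card_inertia_eq_ramificationIdxIn p P
  have hGal' : IsGaloisGroup H (𝓞 E) (𝓞 L) := IsGaloisGroup.of_isFractionRing H (𝓞 E) (𝓞 L) E L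
  have c2 : Nat.card (P.inertia H) = 𝔭.ramificationIdxIn (𝓞 L) :=
    card_inertia_eq_ramificationIdxIn 𝔭 P
  have htop : P.inertia H = ⊤ := by
    rw [eq_top_iff]
    rintro ⟨h, hh⟩ -
    exact hh
  rw [htop, Subgroup.card_top] at c2
  have c3 : P.ramificationIdx (𝓞 E) = P.ramificationIdx ℤ := by
    rw [← ramificationIdxIn_eq_ramificationIdx 𝔭 P H, ← c2,
      ← ramificationIdxIn_eq_ramificationIdx p P Gal(L/ℚ), ← c1]
  have c4 := ramificationIdx_tower (R := ℤ) 𝔭 P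
  rw [c3] at c4
  have c5 : 𝔭.ramificationIdx ℤ = 1 := by
    have hpos := ramificationIdx_pos P ℤ
    have : 1 * P.ramificationIdx ℤ = 𝔭.ramificationIdx ℤ * P.ramificationIdx ℤ := by
      rw [one_mul]; exact c4
    exact (Nat.eq_of_mul_eq_mul_right hpos this).symm
  intro hmem
  have hmap0 : p.map (algebraMap ℤ (𝓞 E)) ≠ ⊥ := map_ne_bot_of_ne_bot hp0
  rw [IsDedekindDomain.ramificationIdx_eq_multiplicity p 𝔭 hmap0] at c5
  have hle : p.map (algebraMap ℤ (𝓞 E)) ≤ 𝔭 ^ 2 := by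
    rw [hp, Ideal.map_span, Set.image_singleton, Ideal.span_singleton_le_iff_mem]
    simpa using hmem
  have hdvd : 𝔭 ^ 2 ∣ p.map (algebraMap ℤ (𝓞 E)) := Ideal.dvd_iff_le.mpr hle
  have hnu : ¬ IsUnit 𝔭 := by
    rw [Ideal.isUnit_iff]
    exact h𝔭max.ne_top
  have hfm : FiniteMultiplicity 𝔭 (p.map (algebraMap ℤ (𝓞 E))) :=
    FiniteMultiplicity.of_not_isUnit hnu hmap0
  have := hfm.le_multiplicity_of_pow_dvd hdvd
  omega

end Fermat.Agent.S36Lib
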