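import Fermat.Agent.S36.K0Defs

/-!
# S36 block (K0), (K0L): inertia of a finite level lifts to the absolute inertia of `A`
-/

set_option autoImplicit false

namespace Fermat.Agent.S36Lib

open NumberField Polynomial
open scoped Pointwise
open Fermat.Agent.FrobLib Fermat.Agent.S14Lib

local notation "Qb" => AlgebraicClosure ℚ
local notation "GQ" => (AlgebraicClosure ℚ ≃ₐ[ℚ] AlgebraicClosure ℚ)
local notation "Zbar" => integralClosure ℤ (AlgebraicClosure ℚ)

attribute [local instance] isAlgebraic_Qbar isAlgClosure_Qbar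

theorem exists_lift_inertia_of_place (A : ValuationSubring Qb) {q : ℕ} (hq : q.Prime)
    (hA : A.LiesOverPrime q) (L : IntermediateField ℚ Qb) [FiniteDimensional ℚ L] [IsGalois ℚ L]
    (s : L ≃ₐ[ℚ] L) (hs : ∀ x : 𝓞 L, (((s • x - x : 𝓞 L) : L) : Qb) ∈ A.nonunits) :
    ∃ σ ∈ A.inertiaSubgroupIn ℚ, ∀ x : L, σ (x : Qb) = ((s x : L) : Qb) := by
  have hs' : ∀ x : 𝓞 L, LP_toZbar L (s • x - x) ∈ center A := by
    intro x
    rw [mem_center_iff, LP_coe_toZbar]
    exact hs x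
  have hsw : ∀ x : 𝓞 L, LP_toZbar L (s⁻¹ • x) ∈ center A ↔ LP_toZbar L x ∈ center A := by
    intro x
    have h1 := hs' (s⁻¹ • x)
    rw [smul_inv_smul, map_sub] at h1
    constructor
    · intro h
      have := (center A).add_mem h1 h
      rwa [sub_add_cancel] at this
    · intro h
      have := (center A).sub_mem h h1
      rwa [sub_sub_cancel] at this
  obtain ⟨σ₀, hσ₀⟩ := AlgEquiv.restrictNormalHom_surjective (F := ℚ) (K₁ := L) Qb s
  have hσ₀' : ∀ x : L, σ₀ (x : Qb) = ((s x : L) : Qb) := by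
    intro x
    rw [← hσ₀]
    exact (AlgEquiv.restrictNormal_commutes σ₀ L x).symm
  have hσ₀i : ∀ x : L, σ₀⁻¹ (x : Qb) = ((s⁻¹ x : L) : Qb) := by
    intro x
    have h1 := hσ₀' (s⁻¹ x)
    have h2 : s (s⁻¹ x) = x := AlgEquiv.apply_symm_apply s x
    rw [h2] at h1
    rw [← h1]
    exact AlgEquiv.symm_apply_apply σ₀ _
  obtain ⟨τ, hτ, hτQ⟩ := LP_transitive L.fixingSubgroup (L.fixingSubgroup_isClosed)
    (σ₀ • center A) (center A) (by
      intro b hb
      obtain ⟨x, rfl⟩ := LP_exists_toZbar L b hb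
      rw [Ideal.mem_pointwise_smul_iff_inv_smul_mem, LP_smul_toZbar L s⁻¹ σ₀⁻¹ hσ₀i, hsw])
  have hσ₁ : (τ * σ₀) • center A = center A := by rw [mul_smul, ← hτQ]
  have hσ₁s : ∀ x : L, (τ * σ₀) (x : Qb) = ((s x : L) : Qb) := by
    intro x
    rw [AlgEquiv.mul_apply, hσ₀']
    exact (IntermediateField.mem_fixingSubgroup_iff L τ).mp hτ _ (s x).2
  obtain ⟨ρ, hρ, hρQ, hρσ⟩ := LP_inertia L.fixingSubgroup (L.fixingSubgroup_isClosed)
    (center A) (τ * σ₀) hσ₁ (by
      intro b hb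
      obtain ⟨x, rfl⟩ := LP_exists_toZbar L b hb
      rw [LP_smul_toZbar L s (τ * σ₀) hσ₁s, ← map_sub]
      exact hs' x)
  have hρQ' : ρ⁻¹ • center A = center A := by
    conv_lhs => rw [← hρQ]
    rw [inv_smul_smul]
  refine ⟨ρ⁻¹ * (τ * σ₀), LP_mem_inertia A hq hA _ ?_ ?_, ?_⟩
  · rw [mul_smul, hσ₁, hρQ']
  · intro b
    have h1 := hρσ b
    rw [← hρQ', Ideal.mem_pointwise_smul_iff_inv_smul_mem, inv_inv, smul_sub, mul_smul,
      smul_inv_smul]
    have := (center A).neg_mem h1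
    rwa [neg_sub] at this
  · intro x
    rw [AlgEquiv.mul_apply, hσ₁s]
    exact (IntermediateField.mem_fixingSubgroup_iff L ρ⁻¹).mp (inv_mem hρ) _ (s x).2

end Fermat.Agent.S36Lib
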