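import Fermat.Agent.S36.K0Defs

/-!
# S36 block (K0), (K0V): Dedekind domains
-/

set_option autoImplicit false

namespace Fermat.Agent.S36Lib

open NumberField Polynomial
open scoped Pointwise

theorem K0V_step {R : Type*} [CommRing R] [IsDedekindDomain R] (𝔭 : Ideal R) [𝔭.IsMaximal]
    (π : R) (h1 : π ∈ 𝔭) (h2 : π ∉ 𝔭 ^ 2) :
    ∃ t : R, t ∉ 𝔭 ∧ ∀ c ∈ 𝔭, ∃ c', t * c = π * c' := by
  have hdvd : 𝔭 ∣ Ideal.span {π} :=
    Ideal.dvd_iff_le.mpr ((Ideal.span_singleton_le_iff_mem _).mpr h1)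
  obtain ⟨J, hJ⟩ := hdvd
  have hJ𝔭 : ¬ J ≤ 𝔭 := by
    intro hle
    apply h2
    have : Ideal.span {π} ≤ 𝔭 ^ 2 := by
      rw [hJ, pow_two]
      exact Ideal.mul_mono_right hle
    exact this (Ideal.mem_span_singleton_self π)
  obtain ⟨t, htJ, ht⟩ := SetLike.not_le_iff_exists.mp hJ𝔭
  refine ⟨t, ht, fun c hc => ?_⟩
  have : t * c ∈ Ideal.span {π} := by
    rw [hJ, mul_comm t c]
    exact Ideal.mul_mem_mul hc htJ
  obtain ⟨c', hc'⟩ := Ideal.mem_span_singleton'.mp this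
  exact ⟨c', by rw [← hc', mul_comm]⟩

theorem K0V_mem_pow {R : Type*} [CommRing R] (𝔭 : Ideal R) [h𝔭 : 𝔭.IsMaximal] (n : ℕ) {t c : R}
    (ht : t ∉ 𝔭) (h : t * c ∈ 𝔭 ^ n) : c ∈ 𝔭 ^ n := by
  -- `t` is invertible modulo `𝔭 ^ n`
  obtain ⟨s, hs⟩ : ∃ s, s * t - 1 ∈ 𝔭 := by
    obtain ⟨s, hs⟩ := Ideal.IsMaximal.exists_inv h𝔭 ht
    obtain ⟨s, m, hm, hsm⟩ := h𝔭.exists_inv ht
    exact ⟨s, by
      have : s * t - 1 = -m := by rw [← hsm]; ring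
      rw [this]
      exact 𝔭.neg_mem hm⟩
  -- `(1 - s t)^n ∈ 𝔭^n` and `(1 - s t)^n = 1 - t * r`
  have h1 : (s * t - 1) ^ n ∈ 𝔭 ^ n := Ideal.pow_mem_pow hs n
  obtain ⟨r, hr⟩ : ∃ r, (s * t - 1) ^ n = t * r + (-1) ^ n := by
    have := (Commute.all (s * t) (-1 : R)).add_pow n
    have h2 : t ∣ (s * t - 1) ^ n - (-1) ^ n := by
      have h3 : (s * t - 1) - (-1) ∣ (s * t - 1) ^ n - (-1) ^ n := sub_dvd_pow_sub_pow _ _ n
      have h4 : (s * t - 1) - (-1) = s * t := by ring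
      rw [h4] at h3
      exact (Dvd.intro_left s rfl).trans h3
    obtain ⟨r, hr⟩ := h2
    exact ⟨r, by rw [← hr]; ring⟩
  have h3 : (-1) ^ n * c = (s * t - 1) ^ n * c - r * (t * c) := by
    rw [hr]; ring
  have h4 : (-1) ^ n * c ∈ 𝔭 ^ n := by
    rw [h3]
    exact (𝔭 ^ n).sub_mem ((𝔭 ^ n).mul_mem_right _ h1) ((𝔭 ^ n).mul_mem_left _ h)
  have h5 : c = (-1) ^ n * ((-1) ^ n * c) := by
    rw [← mul_assoc, ← mul_pow]
    simp
  rw [h5]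
  exact (𝔭 ^ n).mul_mem_left _ h4

theorem K0V_int {R : Type*} [CommRing R] [IsDedekindDomain R] (𝔭 : Ideal R) [h𝔭 : 𝔭.IsMaximal]
    (π : R) (h1 : π ∈ 𝔭) (h2 : π ∉ 𝔭 ^ 2) (n : ℕ) :
    ∀ c : R, c ∉ 𝔭 ^ n → ∃ (m : ℕ) (a t : R), a ∉ 𝔭 ∧ t ∉ 𝔭 ∧ t * c = π ^ m * a := by
  obtain ⟨t₀, ht₀, hstep⟩ := K0V_step 𝔭 π h1 h2
  induction n with
  | zero =>
    intro c hc
    exact absurd (by simp) hc
  | succ n ih =>
    intro c hc
    by_cases hc𝔭 : c ∈ 𝔭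
    · obtain ⟨c', hc'⟩ := hstep c hc𝔭
      have hc'n : c' ∉ 𝔭 ^ n := by
        intro hmem
        apply hc
        apply K0V_mem_pow 𝔭 (n + 1) ht₀
        rw [hc', pow_succ', ]
        exact Ideal.mul_mem_mul h1 hmem
      obtain ⟨m, a, t, ha, ht, hta⟩ := ih c' hc'n
      refine ⟨m + 1, a, t * t₀, ha, ?_, ?_⟩
      · intro hmem
        rcases h𝔭.isPrime.mem_or_mem hmem with h | h
        · exact ht h
        · exact ht₀ h
      · calc t * t₀ * c = t * (t₀ * c) := by ring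
          _ = π * (t * c') := by rw [hc']; ring
          _ = π ^ (m + 1) * a := by rw [hta]; ring
    · exact ⟨0, c, 1, hc𝔭, (Ideal.ne_top_iff_one 𝔭).mp h𝔭.ne_top, by simp⟩

/-- in a number field, if `q ∈ 𝔭 \ 𝔭²` then every nonzero element is `q^n a / b`, `a b ∉ 𝔭` -/
theorem exists_zpow_mul_div (E : Type) [Field E] [NumberField E] (𝔭 : Ideal (𝓞 E)) [𝔭.IsMaximal]
    (π : 𝓞 E) (h1 : π ∈ 𝔭) (h2 : π ∉ 𝔭 ^ 2) (x : E) (hx : x ≠ 0) :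
    ∃ (n : ℤ) (a b : 𝓞 E), a ∉ 𝔭 ∧ b ∉ 𝔭 ∧ x * (b : E) = (π : E) ^ n * (a : E) := by
  have h𝔭 : 𝔭.IsMaximal := inferInstance
  have hint : ∀ c : 𝓞 E, c ≠ 0 → ∃ (m : ℕ) (a t : 𝓞 E), a ∉ 𝔭 ∧ t ∉ 𝔭 ∧ t * c = π ^ m * a := by
    intro c hc
    have hinf := Ideal.iInf_pow_eq_bot_of_isDomain 𝔭 h𝔭.ne_top
    have : ∃ n, c ∉ 𝔭 ^ n := by
      by_contra hcon
      push Not at hcon
      have : c ∈ ⨅ i, 𝔭 ^ i := (Ideal.mem_iInf).mpr hcon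
      rw [hinf] at this
      exact hc this
    obtain ⟨n, hn⟩ := this
    exact K0V_int 𝔭 π h1 h2 n c hn
  obtain ⟨c, d, hd, rfl⟩ := IsFractionRing.div_surjective (𝓞 E) x
  have hd0 : d ≠ 0 := nonZeroDivisors.ne_zero hd
  have hc0 : c ≠ 0 := by
    rintro rfl
    simp at hx
  obtain ⟨m, a, t, ha, ht, hta⟩ := hint c hc0
  obtain ⟨k, b, s, hb, hs, hsb⟩ := hint d hd0
  have hπ0 : π ≠ 0 := by
    rintro rfl
    exact h2 (Ideal.zero_mem _)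
  have hπ0' : (π : E) ≠ 0 := by
    simpa using hπ0
  have hd0' : (algebraMap (𝓞 E) E d) ≠ 0 := by
    simpa using hd0
  refine ⟨(m : ℤ) - k, s * a, t * b, ?_, ?_, ?_⟩
  · intro hmem
    rcases h𝔭.isPrime.mem_or_mem hmem with h | h
    · exact hs h
    · exact ha h
  · intro hmem
    rcases h𝔭.isPrime.mem_or_mem hmem with h | h
    · exact ht h
    · exact hb h
  · have e1 : (algebraMap (𝓞 E) E t) * algebraMap (𝓞 E) E c =
        (algebraMap (𝓞 E) E π) ^ m * algebraMap (𝓞 E) E a := by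
      rw [← map_mul, hta, map_mul, map_pow]
    have e2 : (algebraMap (𝓞 E) E s) * algebraMap (𝓞 E) E d =
        (algebraMap (𝓞 E) E π) ^ k * algebraMap (𝓞 E) E b := by
      rw [← map_mul, hsb, map_mul, map_pow]
    rw [zpow_sub₀ hπ0', zpow_natCast, zpow_natCast]
    have hk : (algebraMap (𝓞 E) E π) ^ k ≠ 0 := pow_ne_zero _ hπ0'
    have e3 : ((t * b : 𝓞 E) : E) = algebraMap (𝓞 E) E t * algebraMap (𝓞 E) E b := map_mul _ _ _
    have e4 : ((s * a : 𝓞 E) : E) = algebraMap (𝓞 E) E s * algebraMap (𝓞 E) E a := map_mul _ _ _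
    rw [e3, e4, div_mul_eq_mul_div, div_mul_eq_mul_div, div_eq_div_iff hd0' hk]
    calc algebraMap (𝓞 E) E c * (algebraMap (𝓞 E) E t * algebraMap (𝓞 E) E b) *
          (algebraMap (𝓞 E) E π) ^ k
        = (algebraMap (𝓞 E) E t * algebraMap (𝓞 E) E c) *
          ((algebraMap (𝓞 E) E π) ^ k * algebraMap (𝓞 E) E b) := by ring
      _ = _ := by rw [e1, ← e2]; ring

end Fermat.Agent.S36Lib
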