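import Fermat.Agent.S36.K0Defs
import Fermat.Agent.S36.K0Lift
import Fermat.Agent.S36.K0Hilbert
import Fermat.Agent.S36.K0Val

/-!
# S36 block (K0), (K0a): the value group of `K0` is `ℤ`
-/

set_option autoImplicit false

namespace Fermat.Agent.S36Lib

open NumberField Polynomial
open scoped Pointwise
open Fermat.Agent.FrobLib Fermat.Agent.S14Lib

local notation "Qb" => AlgebraicClosure ℚ
local notation "GQ" => (AlgebraicClosure ℚ ≃ₐ[ℚ] AlgebraicClosure ℚ)

attribute [local instance] isAlgebraic_Qbar isAlgClosure_Qbar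

theorem K0a_exists_level (x : Qb) : ∃ L : IntermediateField ℚ Qb, FiniteDimensional ℚ L ∧
    IsGalois ℚ L ∧ x ∈ L := by
  have hfd : FiniteDimensional ℚ (IntermediateField.adjoin ℚ {x}) :=
    IntermediateField.adjoin.finiteDimensional (Algebra.IsIntegral.isIntegral x)
  refine ⟨IntermediateField.normalClosure ℚ (IntermediateField.adjoin ℚ {x}) Qb, ?_, ?_, ?_⟩
  · infer_instance
  · have hn : Normal ℚ Qb := inferInstance
    have : Normal ℚ (IntermediateField.normalClosure ℚ (IntermediateField.adjoin ℚ {x}) Qb) :=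
      normalClosure.normal ℚ _ Qb
    exact { }
  · exact IntermediateField.le_normalClosure _ (IntermediateField.mem_adjoin_simple_self ℚ x)

theorem exists_zpow_mul_unit (A : ValuationSubring Qb) {q : ℕ} (hq : q.Prime)
    (hA : A.LiesOverPrime q) {x : Qb} (hx : x ∈ K0 A) (hx0 : x ≠ 0) :
    ∃ (n : ℤ) (u : Qb), u ∈ K0 A ∧ IsU A u ∧ x = (q : Qb) ^ n * u := by
  obtain ⟨L, hLfin, hLgal, hxL⟩ := K0a_exists_level x
  have : NumberField L := {}
  -- the prime of `L` below `A`
  set P : Ideal (𝓞 L) := (center A).comap (LP_toZbar L) with hP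
  have hPmem : ∀ y : 𝓞 L, y ∈ P ↔ ((y : L) : Qb) ∈ A.nonunits := by
    intro y
    rw [hP, Ideal.mem_comap, mem_center_iff, LP_coe_toZbar]
  have hPprime : P.IsPrime := Ideal.comap_isPrime _ _
  have hqP : (q : 𝓞 L) ∈ P := by
    rw [hPmem]
    have hA' : (q : Qb) ∈ A.nonunits := hA
    simpa using hA'
  have hP0 : P ≠ ⊥ := by
    intro h0
    rw [h0, Ideal.mem_bot] at hqP
    exact hq.ne_zero (by exact_mod_cast hqP)
  have hPmax : P.IsMaximal := hPprime.isMaximal hP0
  -- `x` lies in the inertia field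
  set E : IntermediateField ℚ L := FixedPoints.intermediateField (P.inertia Gal(L/ℚ)) with hE
  have hxE : (⟨x, hxL⟩ : L) ∈ E := by
    rw [hE, FixedPoints.mem_intermediateField_iff]
    rintro ⟨s, hs⟩
    obtain ⟨σ, hσ, hσs⟩ := exists_lift_inertia_of_place A hq hA L s (by
      intro y
      rw [← hPmem]
      exact hs y)
    have h1 := hσs ⟨x, hxL⟩
    rw [(mem_K0_iff.mp hx) σ hσ] at h1
    exact Subtype.ext h1.symm
  have h𝔭max : (P.under (𝓞 E)).IsMaximal := inferInstance
  have hq𝔭 : ((q : ℕ) : 𝓞 E) ∈ P.under (𝓞 E) := by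
    rw [Ideal.under, Ideal.mem_comap, map_natCast]
    exact hqP
  obtain ⟨n, a, b, ha, hb, hab⟩ := exists_zpow_mul_div E (P.under (𝓞 E)) ((q : ℕ) : 𝓞 E) hq𝔭
    (inertiaField_ramificationIdx_eq_one L P hq hqP) (⟨⟨x, hxL⟩, hxE⟩ : E) (by
      intro h0
      apply hx0
      have := congrArg (fun z : E => ((z : L) : Qb)) h0
      simpa using this)
  -- elements outside the prime are units of `A`
  have hunit : ∀ c : 𝓞 E, c ∉ P.under (𝓞 E) → IsU A (((c : E) : L) : Qb) := by
    intro c hc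
    have h1 : algebraMap (𝓞 E) (𝓞 L) c ∉ P := hc
    rw [hPmem] at h1
    have h2 : (((algebraMap (𝓞 E) (𝓞 L) c : 𝓞 L) : L) : Qb) = (((c : E) : L) : Qb) := rfl
    rw [h2] at h1
    have hint : IsIntegral ℤ ((((c : E) : L) : Qb)) := by
      have h3 : IsIntegral ℤ (c : E) := RingOfIntegers.isIntegral_coe c
      have h4 := h3.map ((algebraMap L Qb).comp (algebraMap E L)).toIntAlgHom
      exact h4
    have hmem : (((c : E) : L) : Qb) ∈ A := integral_mem_valuationSubring A hint
    have h0 : (((c : E) : L) : Qb) ≠ 0 := by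
      intro h0
      apply h1
      rw [h0]
      exact A.mem_nonunits_iff.mpr (by simp)
    exact (isU_iff_not_mem_nonunits hmem h0).mpr h1
  have hab' : x * (((b : E) : L) : Qb) = (q : Qb) ^ n * (((a : E) : L) : Qb) := by
    have := congrArg (fun z : E => ((z : L) : Qb)) hab
    simp only [MulMemClass.coe_mul, map_natCast] at this
    rw [this]
    have h5 : ((((((q : ℕ) : E) ^ n : E) : E) : L) : Qb) = (q : Qb) ^ n := by
      have h6 := map_zpow₀ ((algebraMap L Qb).comp (algebraMap E L)) ((q : ℕ) : E) n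
      rw [map_natCast] at h6
      exact h6
    rw [h5]
  have hUa := hunit a ha
  have hUb := hunit b hb
  have hb0 : (((b : E) : L) : Qb) ≠ 0 := by
    intro h0
    apply hb
    have h1 : (b : E) = 0 := by
      have : (((b : E) : L) : Qb) = (((0 : E) : L) : Qb) := by rw [h0]; rfl
      exact Subtype.ext (Subtype.ext this)
    have h2 : b = 0 := RingOfIntegers.coe_injective (by rw [map_zero]; exact h1)
    rw [h2]
    exact Ideal.zero_mem _
  have hq0 : (q : Qb) ≠ 0 := by exact_mod_cast hq.ne_zero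
  have hxeq : x = (q : Qb) ^ n * ((((a : E) : L) : Qb) * ((((b : E) : L) : Qb))⁻¹) := by
    rw [← mul_assoc, ← hab', mul_assoc, mul_inv_cancel₀ hb0, mul_one]
  refine ⟨n, (((a : E) : L) : Qb) * ((((b : E) : L) : Qb))⁻¹, ?_, hUa.mul hUb.inv, hxeq⟩
  have h6 : (((a : E) : L) : Qb) * ((((b : E) : L) : Qb))⁻¹ = x * ((q : Qb) ^ n)⁻¹ := by
    rw [hxeq]
    field_simp
  rw [h6]
  exact (K0 A).mul_mem hx ((K0 A).inv_mem (zpow_mem (natCast_mem _ q) n))

end Fermat.Agent.S36Lib
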