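import Fermat.Agent.S36.K0Defs
import Fermat.Agent.S36.K0Lift
import Fermat.Agent.S36.K0a

/-!
# S36 block (K0), (K0d): `K0(ζ_q)`
-/

set_option autoImplicit false

namespace Fermat.Agent.S36Lib

open NumberField Polynomial
open scoped Pointwise
open Fermat.Agent.FrobLib Fermat.Agent.S14Lib

local notation "Qb" => AlgebraicClosure ℚ
local notation "GQ" => (AlgebraicClosure ℚ ≃ₐ[ℚ] AlgebraicClosure ℚ)

attribute [local instance] isAlgebraic_Qbar isAlgClosure_Qbar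

theorem zeta_sub_one_pow (A : ValuationSubring Qb) {q : ℕ} (hq : q.Prime)
    {ζ : Qb} (hζ : IsPrimitiveRoot ζ q) :
    ∃ u : Qb, IsU A u ∧ u ∈ IntermediateField.adjoin ℚ {ζ} ∧ (ζ - 1) ^ (q - 1) = (q : Qb) * u := by
  have : Fact q.Prime := ⟨hq⟩
  obtain ⟨u, hu⟩ := IsCyclotomicExtension.Rat.associated_zeta_sub_one_pow_prime q hζ
  have hu' : (ζ - 1) ^ (q - 1) * ((u : 𝓞 Qb) : Qb) = (q : Qb) := by
    have := congrArg (fun z : 𝓞 Qb => (z : Qb)) hu
    simp only [map_mul, map_pow, map_sub, map_one, map_natCast] at this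
    exact this
  have hinv : ((u : 𝓞 Qb) : Qb) * (((u⁻¹ : (𝓞 Qb)ˣ) : 𝓞 Qb) : Qb) = 1 := by
    have := congrArg (fun z : 𝓞 Qb => (z : Qb)) (Units.mul_inv u)
    simp only [map_mul, map_one] at this
    exact this
  have hq0 : (q : Qb) ≠ 0 := by exact_mod_cast hq.ne_zero
  have heq : (ζ - 1) ^ (q - 1) = (q : Qb) * (((u⁻¹ : (𝓞 Qb)ˣ) : 𝓞 Qb) : Qb) := by
    rw [← hu', mul_assoc, hinv, mul_one]
  refine ⟨(((u⁻¹ : (𝓞 Qb)ˣ) : 𝓞 Qb) : Qb), ⟨?_, ?_⟩, ?_, heq⟩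
  · exact integral_mem_valuationSubring A (RingOfIntegers.isIntegral_coe _)
  · have : ((((u⁻¹ : (𝓞 Qb)ˣ) : 𝓞 Qb) : Qb))⁻¹ = ((u : 𝓞 Qb) : Qb) :=
      inv_eq_of_mul_eq_one_left hinv
    rw [this]
    exact integral_mem_valuationSubring A (RingOfIntegers.isIntegral_coe _)
  · have h1 : (((u⁻¹ : (𝓞 Qb)ˣ) : 𝓞 Qb) : Qb) = (ζ - 1) ^ (q - 1) * (q : Qb)⁻¹ := by
      rw [heq]
      field_simp
    rw [h1]
    have hζm : ζ ∈ IntermediateField.adjoin ℚ {ζ} := IntermediateField.mem_adjoin_simple_self ℚ ζ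
    exact mul_mem (pow_mem (sub_mem hζm (one_mem _)) _) (inv_mem (natCast_mem _ q))

theorem K0d_nonunits_add {A : ValuationSubring Qb} {x y : Qb} (hx : x ∈ A.nonunits)
    (hy : y ∈ A.nonunits) : x + y ∈ A.nonunits := by
  rw [ValuationSubring.mem_nonunits_iff] at *
  exact A.valuation.map_add_lt hx hy

theorem K0d_nonunits_mul {A : ValuationSubring Qb} {x y : Qb} (hx : x ∈ A)
    (hy : y ∈ A.nonunits) : x * y ∈ A.nonunits := by
  rw [ValuationSubring.mem_nonunits_iff] at *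
  rw [map_mul]
  exact lt_of_le_of_lt (mul_le_of_le_one_left' ((A.valuation_le_one_iff x).mpr hx)) hy

theorem K0d_zeta_mem (A : ValuationSubring Qb) {q : ℕ} (hq : q.Prime)
    {ζ : Qb} (hζ : IsPrimitiveRoot ζ q) : ζ ∈ A :=
  integral_mem_valuationSubring A (hζ.isIntegral hq.pos)

theorem K0d_zeta_sub_one_mem (A : ValuationSubring Qb) {q : ℕ} (hq : q.Prime)
    (hA : A.LiesOverPrime q) {ζ : Qb} (hζ : IsPrimitiveRoot ζ q) : ζ - 1 ∈ A.nonunits := by
  obtain ⟨u, hu, -, h⟩ := zeta_sub_one_pow A hq hζ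
  have h1 : (ζ - 1) ^ (q - 1) ∈ A.nonunits := by
    rw [h, mul_comm]
    exact K0d_nonunits_mul hu.1 hA
  rw [ValuationSubring.mem_nonunits_iff] at h1 ⊢
  rw [map_pow] at h1
  by_contra hcon
  exact absurd h1 (not_lt.mpr (one_le_pow₀ (not_lt.mp hcon)))

theorem exists_inertia_zeta (A : ValuationSubring Qb) {q : ℕ} (hq : q.Prime)
    (hA : A.LiesOverPrime q) {ζ : Qb} (hζ : IsPrimitiveRoot ζ q) (a : ℕ) (ha : ¬ q ∣ a) :
    ∃ σ ∈ A.inertiaSubgroupIn ℚ, σ ζ = ζ ^ a := by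
  have : Fact q.Prime := ⟨hq⟩
  have : NeZero q := ⟨hq.ne_zero⟩
  have hcop : a.Coprime q := ((Nat.Prime.coprime_iff_not_dvd hq).mpr ha).symm
  have hζa : IsPrimitiveRoot (ζ ^ a) q := hζ.pow_of_coprime a hcop
  -- a global automorphism
  obtain ⟨σ₀, hσ₀⟩ : ∃ σ₀ : GQ, σ₀ ζ = ζ ^ a := by
    apply minpoly.exists_algEquiv_of_root' (Algebra.IsAlgebraic.isAlgebraic ζ)
    rw [← Polynomial.cyclotomic_eq_minpoly_rat hζ hq.pos]
    have h1 := (Polynomial.isRoot_cyclotomic_iff (R := Qb)).mpr hζa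
    rw [← Polynomial.map_cyclotomic q (algebraMap ℚ Qb), Polynomial.IsRoot.def,
      Polynomial.eval_map_algebraMap] at h1
    exact h1
  -- the level `ℚ(ζ)`
  set L : IntermediateField ℚ Qb := IntermediateField.adjoin ℚ {ζ} with hL
  have hζL : ζ ∈ L := IntermediateField.mem_adjoin_simple_self ℚ ζ
  have hcyc : IsCyclotomicExtension {q} ℚ L := hζ.intermediateField_adjoin_isCyclotomicExtension ℚ
  have hfin : FiniteDimensional ℚ L := IsCyclotomicExtension.finiteDimensional {q} ℚ L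
  have hgal : IsGalois ℚ L := IsCyclotomicExtension.isGalois {q} ℚ L
  have hnf : NumberField L := {}
  set s : L ≃ₐ[ℚ] L := AlgEquiv.restrictNormalHom L σ₀ with hs
  have hsσ : ∀ x : L, ((s x : L) : Qb) = σ₀ (x : Qb) := fun x =>
    AlgEquiv.restrictNormal_commutes σ₀ L x
  set ζL : L := ⟨ζ, hζL⟩ with hζLdef
  have hζL' : IsPrimitiveRoot ζL q := by
    apply IsPrimitiveRoot.of_map_of_injective (f := algebraMap L Qb) (hf := (algebraMap L Qb).injective)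
    exact hζ
  have hic := IsCyclotomicExtension.Rat.isIntegralClosure_adjoin_singleton_of_prime hζL'
  -- the key property on `ℤ[ζ]`
  have hkey : ∀ y ∈ Algebra.adjoin ℤ ({ζL} : Set L),
      ((y : L) : Qb) ∈ A ∧ σ₀ (y : Qb) ∈ A ∧ σ₀ (y : Qb) - (y : Qb) ∈ A.nonunits := by
    intro y hy
    induction hy using Algebra.adjoin_induction with
    | mem x hx =>
      rw [Set.mem_singleton_iff] at hx
      subst hx
      have hζA := K0d_zeta_mem A hq hζ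
      refine ⟨hζA, ?_, ?_⟩
      · show σ₀ ζ ∈ A
        rw [hσ₀]
        exact pow_mem hζA a
      · show σ₀ ζ - ζ ∈ A.nonunits
        rw [hσ₀]
        have h1 : ζ ^ a - 1 ∈ A.nonunits := by
          have h2 : ζ ^ a - 1 = (∑ i ∈ Finset.range a, ζ ^ i) * (ζ - 1) := (geom_sum_mul ζ a).symm
          rw [h2]
          exact K0d_nonunits_mul (sum_mem fun i _ => pow_mem hζA i)
            (K0d_zeta_sub_one_mem A hq hA hζ)
        have h3 : ζ ^ a - ζ = (ζ ^ a - 1) + (-1) * (ζ - 1) := by ring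
        rw [h3]
        exact K0d_nonunits_add h1 (K0d_nonunits_mul (neg_mem A.one_mem)
          (K0d_zeta_sub_one_mem A hq hA hζ))
    | algebraMap r =>
      have h1 : ((algebraMap ℤ L r : L) : Qb) = (r : Qb) := by simp
      rw [h1, map_intCast, sub_self]
      exact ⟨intCast_mem A r, intCast_mem A r, A.mem_nonunits_iff.mpr (by simp)⟩
    | add x y _ _ hx hy =>
      obtain ⟨x1, x2, x3⟩ := hx
      obtain ⟨y1, y2, y3⟩ := hy
      have e : (((x + y : L) : L) : Qb) = (x : Qb) + (y : Qb) := rfl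
      rw [e, map_add]
      refine ⟨add_mem x1 y1, add_mem x2 y2, ?_⟩
      have : σ₀ (x : Qb) + σ₀ (y : Qb) - ((x : Qb) + (y : Qb)) =
          (σ₀ (x : Qb) - (x : Qb)) + (σ₀ (y : Qb) - (y : Qb)) := by ring
      rw [this]
      exact K0d_nonunits_add x3 y3
    | mul x y _ _ hx hy =>
      obtain ⟨x1, x2, x3⟩ := hx
      obtain ⟨y1, y2, y3⟩ := hy
      have e : (((x * y : L) : L) : Qb) = (x : Qb) * (y : Qb) := rfl
      rw [e, map_mul]
      refine ⟨mul_mem x1 y1, mul_mem x2 y2, ?_⟩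
      have : σ₀ (x : Qb) * σ₀ (y : Qb) - ((x : Qb) * (y : Qb)) =
          σ₀ (x : Qb) * (σ₀ (y : Qb) - (y : Qb)) + (y : Qb) * (σ₀ (x : Qb) - (x : Qb)) := by ring
      rw [this]
      exact K0d_nonunits_add (K0d_nonunits_mul x2 y3) (K0d_nonunits_mul y1 x3)
  obtain ⟨σ, hσ, hσs⟩ := exists_lift_inertia_of_place A hq hA L s (by
    intro x
    obtain ⟨y, hy⟩ := hic.isIntegral_iff.mp (RingOfIntegers.isIntegral_coe x)
    have h1 := (hkey y y.2).2.2
    have h2 : ((y : L) : Qb) = ((x : L) : Qb) := congrArg (fun z : L => (z : Qb)) hy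
    rw [h2] at h1
    have h3 : (((s • x - x : 𝓞 L) : L) : Qb) = σ₀ ((x : L) : Qb) - ((x : L) : Qb) := by
      rw [← hsσ]
      rfl
    rw [h3]
    exact h1)
  refine ⟨σ, hσ, ?_⟩
  have := hσs ζL
  rw [hsσ] at this
  exact this.trans hσ₀

/-- the algebraic part of the expansion -/
theorem K0d_expansion (A : ValuationSubring Qb) {q : ℕ} (hq : q.Prime)
    {ζ : Qb} (hζ : IsPrimitiveRoot ζ q) {x : Qb}
    (hx : x ∈ IntermediateField.adjoin (K0 A) {ζ}) :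
    ∃ c : Fin (q - 1) → Qb, (∀ i, c i ∈ K0 A) ∧ x = ∑ i, c i * (ζ - 1) ^ (i : ℕ) := by
  have halg : IsAlgebraic (K0 A) ζ :=
    (Algebra.IsAlgebraic.isAlgebraic (R := ℚ) ζ).tower_top (K0 A)
  have hx' : x ∈ (IntermediateField.adjoin (K0 A) {ζ}).toSubalgebra := hx
  rw [IntermediateField.adjoin_simple_toSubalgebra_of_isAlgebraic halg,
    Algebra.adjoin_singleton_eq_range_aeval] at hx'
  obtain ⟨p, rfl⟩ := hx'
  set Φ : (K0 A)[X] := (cyclotomic q (K0 A)).comp (X + C 1) with hΦ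
  have hΦm : Φ.Monic := (cyclotomic.monic q (K0 A)).comp_X_add_C 1
  have hΦd : Φ.natDegree = q - 1 := by
    rw [hΦ, natDegree_comp, natDegree_cyclotomic, Nat.totient_prime hq, natDegree_X_add_C, mul_one]
  have hq2 := hq.two_le
  have hΦ1 : Φ ≠ 1 := by
    intro h
    rw [h, natDegree_one] at hΦd
    omega
  have hΦ0 : aeval (ζ - 1) Φ = 0 := by
    rw [hΦ, aeval_comp]
    simp only [map_add, aeval_X, map_one, sub_add_cancel]
    have hne : NeZero ((q : ℕ) : Qb) := ⟨by exact_mod_cast hq.ne_zero⟩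
    have h1 := (Polynomial.isRoot_cyclotomic_iff (R := Qb) (n := q)).mpr hζ
    rw [← Polynomial.map_cyclotomic q (algebraMap (K0 A) Qb), Polynomial.IsRoot.def,
      Polynomial.eval_map_algebraMap] at h1
    exact h1
  set r : (K0 A)[X] := (p.comp (X + C 1)) %ₘ Φ with hr
  have hrd : r.natDegree < q - 1 := hΦd ▸ natDegree_modByMonic_lt _ hΦm hΦ1
  have hrx : aeval (ζ - 1) r = aeval ζ p := by
    rw [hr, aeval_modByMonic_eq_self_of_root hΦ0, aeval_comp]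
    simp
  refine ⟨fun i => ((r.coeff i : K0 A) : Qb), fun i => (r.coeff i).2, ?_⟩
  show aeval ζ p = _
  rw [← hrx, aeval_eq_sum_range' hrd,
    Fin.sum_univ_eq_sum_range (fun i => ((r.coeff i : K0 A) : Qb) * (ζ - 1) ^ i) (q - 1)]
  refine Finset.sum_congr rfl fun i _ => ?_
  rw [Algebra.smul_def]
  rfl

theorem K0d_val_unit {A : ValuationSubring Qb} {u : Qb} (hu : IsU A u) (h0 : u ≠ 0) :
    A.valuation u = 1 := by
  have h1 : A.valuation u ≤ 1 := (A.valuation_le_one_iff u).mpr hu.1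
  have h2 : A.valuation u⁻¹ ≤ 1 := (A.valuation_le_one_iff _).mpr hu.2
  rw [map_inv₀] at h2
  have h4 : A.valuation u ≠ 0 := (Valuation.ne_zero_iff _).mpr h0
  exact le_antisymm h1 ((inv_le_one₀ (zero_lt_iff.mpr h4)).mp h2)

theorem K0d_isU_of_val {A : ValuationSubring Qb} {u : Qb} (hu : A.valuation u = 1) : IsU A u :=
  ⟨(A.valuation_le_one_iff u).mp hu.le, (A.valuation_le_one_iff _).mp (by rw [map_inv₀, hu, inv_one])⟩

theorem K0d_val_zeta (A : ValuationSubring Qb) {q : ℕ} (hq : q.Prime)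
    {ζ : Qb} (hζ : IsPrimitiveRoot ζ q) :
    A.valuation (ζ - 1) ^ (q - 1) = A.valuation (q : Qb) := by
  obtain ⟨u, hu, -, h⟩ := zeta_sub_one_pow A hq hζ
  have hu0 : u ≠ 0 := by
    rintro rfl
    rw [mul_zero] at h
    exact hζ.sub_one_ne_zero hq.one_lt (pow_eq_zero_iff (by have := hq.two_le; omega) |>.mp h)
  rw [← map_pow, h, map_mul, K0d_val_unit hu hu0, mul_one]

/-- values of the terms of the expansion -/
theorem K0d_val (A : ValuationSubring Qb) {q : ℕ} (hq : q.Prime) (hA : A.LiesOverPrime q)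
    {ζ : Qb} (hζ : IsPrimitiveRoot ζ q) {c : Qb} (hc : c ∈ K0 A) (hc0 : c ≠ 0) (i : ℕ) :
    ∃ n : ℤ, A.valuation c = A.valuation (q : Qb) ^ n ∧
      A.valuation (c * (ζ - 1) ^ i) ^ (q - 1) =
        A.valuation (q : Qb) ^ (((q - 1 : ℕ) : ℤ) * n + (i : ℤ)) := by
  obtain ⟨n, u, -, hu, rfl⟩ := exists_zpow_mul_unit A hq hA hc hc0
  have hu0 : u ≠ 0 := right_ne_zero_of_mul hc0
  have hv0 : A.valuation (q : Qb) ≠ 0 :=
    (Valuation.ne_zero_iff _).mpr (by exact_mod_cast hq.ne_zero)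
  have h1 : A.valuation ((q : Qb) ^ n * u) = A.valuation (q : Qb) ^ n := by
    rw [map_mul, K0d_val_unit hu hu0, mul_one, map_zpow₀]
  refine ⟨n, h1, ?_⟩
  rw [map_mul, h1, map_pow, mul_pow, ← pow_mul, mul_comm i, pow_mul, K0d_val_zeta A hq hζ,
    zpow_add₀ hv0, zpow_natCast, mul_comm ((q - 1 : ℕ) : ℤ) n, zpow_mul, zpow_natCast]

theorem K0d_main (A : ValuationSubring Qb) {q : ℕ} (hq : q.Prime) (hA : A.LiesOverPrime q)
    {ζ : Qb} (hζ : IsPrimitiveRoot ζ q) (c : Fin (q - 1) → Qb) (hc : ∀ i, c i ∈ K0 A)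
    (hne : ∃ i, c i ≠ 0) :
    ∃ j, c j ≠ 0 ∧
      A.valuation (∑ i, c i * (ζ - 1) ^ (i : ℕ)) = A.valuation (c j * (ζ - 1) ^ (j : ℕ)) ∧
      ∀ i, A.valuation (c i * (ζ - 1) ^ (i : ℕ)) ≤ A.valuation (c j * (ζ - 1) ^ (j : ℕ)) := by
  classical
  have hπ0 : ζ - 1 ≠ 0 := hζ.sub_one_ne_zero hq.one_lt
  have hv0 : 0 < A.valuation (q : Qb) := Fermat.Agent.S05Lib.val_q_pos hq
  have hv1 : A.valuation (q : Qb) < 1 := Fermat.Agent.S05Lib.val_q_lt_one hA
  obtain ⟨i₀, hi₀⟩ := hne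
  obtain ⟨j, -, hj⟩ := Finset.exists_max_image Finset.univ
    (fun i : Fin (q - 1) => A.valuation (c i * (ζ - 1) ^ (i : ℕ))) ⟨i₀, Finset.mem_univ _⟩
  have hjpos : A.valuation (c j * (ζ - 1) ^ (j : ℕ)) ≠ 0 := by
    have h1 := hj i₀ (Finset.mem_univ _)
    have h2 : A.valuation (c i₀ * (ζ - 1) ^ (i₀ : ℕ)) ≠ 0 :=
      (Valuation.ne_zero_iff _).mpr (mul_ne_zero hi₀ (pow_ne_zero _ hπ0))
    exact (lt_of_lt_of_le (zero_lt_iff.mpr h2) h1).ne'
  have hcj : c j ≠ 0 := by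
    intro h0
    apply hjpos
    rw [h0, zero_mul, map_zero]
  refine ⟨j, hcj, ?_, fun i => hj i (Finset.mem_univ _)⟩
  apply Valuation.map_sum_eq_of_lt _ (Finset.mem_univ j)
  intro i hi
  have hij : i ≠ j := by
    intro h
    simp [h] at hi
  refine lt_of_le_of_ne (hj i (Finset.mem_univ _)) ?_
  intro heq
  by_cases hci : c i = 0
  · apply hjpos
    rw [← heq, hci, zero_mul, map_zero]
  obtain ⟨n, -, hn⟩ := K0d_val A hq hA hζ (hc i) hci i
  obtain ⟨m, -, hm⟩ := K0d_val A hq hA hζ (hc j) hcj j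
  rw [heq, hm] at hn
  have h3 := zpow_right_injective₀ hv0 hv1.ne hn
  have hi' := i.2
  have hj' := j.2
  apply hij
  apply Fin.ext
  have h4 : ((q - 1 : ℕ) : ℤ) * (m - n) = (i : ℤ) - (j : ℤ) := by linarith
  have h5 : m - n = 0 := by
    by_contra hmn
    have h6 : (1 : ℤ) ≤ |m - n| := Int.one_le_abs hmn
    have h7 : |((q - 1 : ℕ) : ℤ) * (m - n)| = ((q - 1 : ℕ) : ℤ) * |m - n| := by
      rw [abs_mul, abs_of_nonneg (Int.natCast_nonneg _)]
    have h8 : |(i : ℤ) - (j : ℤ)| < ((q - 1 : ℕ) : ℤ) := by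
      rw [abs_lt]
      constructor <;> omega
    rw [← h4, h7] at h8
    nlinarith [Int.natCast_nonneg (q - 1)]
  rw [h5, mul_zero] at h4
  omega

/-- expansion: `1, ζ-1, …, (ζ-1)^(q-2)` is an `A ∩ K0`-basis of `A ∩ K0(ζ)` -/
theorem exists_expansion_zeta (A : ValuationSubring Qb) {q : ℕ} (hq : q.Prime)
    (hA : A.LiesOverPrime q) {ζ : Qb} (hζ : IsPrimitiveRoot ζ q) {x : Qb}
    (hx : x ∈ IntermediateField.adjoin (K0 A) {ζ}) :
    ∃ c : Fin (q - 1) → Qb, (∀ i, c i ∈ K0 A) ∧ x = ∑ i, c i * (ζ - 1) ^ (i : ℕ) ∧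
      (x ∈ A → ∀ i, c i ∈ A) := by
  obtain ⟨c, hc, hxc⟩ := K0d_expansion A hq hζ hx
  refine ⟨c, hc, hxc, fun hxA i => ?_⟩
  by_cases hci : c i = 0
  · rw [hci]; exact A.zero_mem
  obtain ⟨j, hcj, hval, hmax⟩ := K0d_main A hq hA hζ c hc ⟨i, hci⟩
  have hv0 : 0 < A.valuation (q : Qb) := Fermat.Agent.S05Lib.val_q_pos hq
  have hv1 : A.valuation (q : Qb) < 1 := Fermat.Agent.S05Lib.val_q_lt_one hA
  have h1 : A.valuation (c i * (ζ - 1) ^ (i : ℕ)) ≤ 1 := by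
    refine (hmax i).trans ?_
    rw [← hval, ← hxc]
    exact (A.valuation_le_one_iff x).mpr hxA
  obtain ⟨n, hn1, hn2⟩ := K0d_val A hq hA hζ (hc i) hci i
  have h2 : A.valuation (q : Qb) ^ (((q - 1 : ℕ) : ℤ) * n + (i : ℤ)) ≤ 1 := by
    rw [← hn2]
    exact pow_le_one₀ zero_le h1
  have h3 : 0 ≤ ((q - 1 : ℕ) : ℤ) * n + (i : ℤ) := by
    by_contra hneg
    exact absurd h2 (not_le.mpr (one_lt_zpow_of_neg₀ hv0 hv1 (not_le.mp hneg)))
  have h4 : 0 ≤ n := by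
    by_contra hneg
    have hi' := i.2
    have : n ≤ -1 := by omega
    nlinarith [Int.natCast_nonneg (q - 1)]
  rw [← A.valuation_le_one_iff, hn1]
  exact zpow_le_one₀ hv0 hv1.le h4

/-- the value group of `K0(ζ)` is generated by the value of `ζ - 1` -/
theorem exists_zpow_mul_unit_zeta (A : ValuationSubring Qb) {q : ℕ} (hq : q.Prime)
    (hA : A.LiesOverPrime q) {ζ : Qb} (hζ : IsPrimitiveRoot ζ q) {x : Qb}
    (hx : x ∈ IntermediateField.adjoin (K0 A) {ζ}) (hx0 : x ≠ 0) :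
    ∃ (n : ℤ) (u : Qb), u ∈ IntermediateField.adjoin (K0 A) {ζ} ∧ IsU A u ∧ x = (ζ - 1) ^ n * u := by
  obtain ⟨c, hc, hxc⟩ := K0d_expansion A hq hζ hx
  have hne : ∃ i, c i ≠ 0 := by
    by_contra hcon
    push Not at hcon
    apply hx0
    rw [hxc]
    exact Finset.sum_eq_zero fun i _ => by rw [hcon i, zero_mul]
  obtain ⟨j, hcj, hval, -⟩ := K0d_main A hq hA hζ c hc hne
  obtain ⟨n, -, hn2⟩ := K0d_val A hq hA hζ (hc j) hcj j
  have hπ0 : ζ - 1 ≠ 0 := hζ.sub_one_ne_zero hq.one_lt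
  have hq1 : q - 1 ≠ 0 := by have := hq.two_le; omega
  set N : ℤ := ((q - 1 : ℕ) : ℤ) * n + (j : ℤ) with hN
  have h1 : A.valuation x = A.valuation (ζ - 1) ^ N := by
    rw [← pow_left_inj₀ zero_le zero_le hq1, hxc, hval, hn2, ← K0d_val_zeta A hq hζ,
      ← zpow_natCast, ← zpow_natCast, ← zpow_mul, ← zpow_mul, mul_comm]
  have hζm : ζ ∈ IntermediateField.adjoin (K0 A) {ζ} :=
    IntermediateField.mem_adjoin_simple_self (K0 A) ζ
  refine ⟨N, x * ((ζ - 1) ^ N)⁻¹, ?_, ?_, ?_⟩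
  · exact mul_mem hx (inv_mem (zpow_mem (sub_mem hζm (one_mem _)) N))
  · apply K0d_isU_of_val
    rw [map_mul, map_inv₀, map_zpow₀, h1]
    exact mul_inv_cancel₀ (zpow_ne_zero _ ((Valuation.ne_zero_iff _).mpr hπ0))
  · field_simp

end Fermat.Agent.S36Lib
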