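import Fermat.Agent.S36.K0b

/-!
# S36 block (K0c): the inertia field `K0` has the same residue field as `Qbar`
-/

set_option autoImplicit false
set_option linter.style.haveILetI false

namespace Fermat.Agent.S36Lib

open NumberField Polynomial
open scoped Pointwise

local notation "Qb" => AlgebraicClosure ℚ
local notation "GQ" => (AlgebraicClosure ℚ ≃ₐ[ℚ] AlgebraicClosure ℚ)

theorem K0c_pow_eq {k : Type*} [Field k] (q : ℕ) [Fact q.Prime] [Algebra (ZMod q) k] (x : k)
    (hx : IsAlgebraic (ZMod q) x) : ∃ f : ℕ, 0 < f ∧ x ^ (q ^ f) = x := by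
  have hi : IsIntegral (ZMod q) x := hx.isIntegral
  let E := IntermediateField.adjoin (ZMod q) {x}
  haveI : FiniteDimensional (ZMod q) E := IntermediateField.adjoin.finiteDimensional hi
  haveI : Finite E := Module.finite_of_finite (ZMod q)
  haveI : Fintype E := Fintype.ofFinite E
  haveI : CharP E q := charP_of_injective_algebraMap (algebraMap (ZMod q) E).injective q
  obtain ⟨n, hp, hn⟩ := FiniteField.card E q
  have := FiniteField.pow_card (⟨x, IntermediateField.mem_adjoin_simple_self _ x⟩ : E)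
  refine ⟨n, n.pos, ?_⟩
  rw [hn] at this
  exact congrArg Subtype.val this

theorem K0c_isAlgebraic {R k : Type*} [CommRing R] [Field k] (q : ℕ) [Fact q.Prime]
    [Algebra (ZMod q) k] (φ : R →+* k) (x : R) (hx : IsIntegral ℤ x) :
    IsAlgebraic (ZMod q) (φ x) := by
  have h2 : IsIntegral ℤ (φ x) := hx.map φ.toIntAlgHom
  exact (h2.tower_top (A := ZMod q)).isAlgebraic

theorem K0c_charP (A : ValuationSubring Qb) {q : ℕ} (hq : q.Prime) (hA : A.LiesOverPrime q) :
    CharP (IsLocalRing.ResidueField A) q := by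
  have hℓ0 : ((q : ℕ) : IsLocalRing.ResidueField A) = 0 := by
    obtain ⟨ha, hm⟩ := ValuationSubring.mem_nonunits_iff_exists_mem_maximalIdeal.1 hA
    have h1 := (IsLocalRing.residue_eq_zero_iff _).2 hm
    have h2 : (⟨(q : Qb), ha⟩ : A) = ((q : ℕ) : A) := Subtype.ext (by simp)
    rw [h2, map_natCast] at h1
    exact h1
  obtain ⟨p, hp⟩ := CharP.exists (IsLocalRing.ResidueField A)
  have hdvd : p ∣ q := (CharP.cast_eq_zero_iff (IsLocalRing.ResidueField A) p q).mp hℓ0
  rcases (Nat.dvd_prime hq).mp hdvd with h | h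
  · exact absurd h (CharP.char_ne_one (IsLocalRing.ResidueField A) p)
  · rwa [h] at hp

theorem K0c_residue_eq_zero_iff (A : ValuationSubring Qb) (x : A) :
    IsLocalRing.residue A x = 0 ↔ (x : Qb) ∈ A.nonunits := by
  rw [IsLocalRing.residue_eq_zero_iff, A.valuation_lt_one_iff, ValuationSubring.mem_nonunits_iff]

theorem K0c_exists_pow (A : ValuationSubring Qb) {q : ℕ} (hq : q.Prime)
    (hA : A.LiesOverPrime q) {a : Qb} (ha : a ∈ A) :
    ∃ f : ℕ, 0 < f ∧ a ^ (q ^ f) - a ∈ A.nonunits := by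
  haveI := Fact.mk hq
  haveI : CharP (IsLocalRing.ResidueField A) q := K0c_charP A hq hA
  letI : Algebra (ZMod q) (IsLocalRing.ResidueField A) := ZMod.algebra _ q
  obtain ⟨b, hb, hba, hbn⟩ := FrobLib.exists_integral_mul A hq hA ha (FrobLib.isAlgebraic_int_Qbar a)
  have key : ∀ (c : Qb) (hc : IsIntegral ℤ c), IsAlgebraic (ZMod q)
      (IsLocalRing.residue A ⟨c, FrobLib.integral_mem_valuationSubring A hc⟩) := by
    intro c hc
    have h1 : IsIntegral ℤ (⟨c, FrobLib.integral_mem_valuationSubring A hc⟩ : A) :=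
      (isIntegral_algHom_iff (A.subtype.toIntAlgHom) A.subtype_injective).mp hc
    exact K0c_isAlgebraic q (IsLocalRing.residue A) _ h1
  have hb' := key b hb
  have hba' := key _ hba
  have hbA : b ∈ A := FrobLib.integral_mem_valuationSubring A hb
  have hne : IsLocalRing.residue A ⟨b, hbA⟩ ≠ 0 := by
    rw [Ne, K0c_residue_eq_zero_iff]
    exact hbn
  have hx : IsLocalRing.residue A ⟨a, ha⟩ =
      IsLocalRing.residue A ⟨b * a, FrobLib.integral_mem_valuationSubring A hba⟩ *
        (IsLocalRing.residue A ⟨b, hbA⟩)⁻¹ := by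
    rw [eq_mul_inv_iff_mul_eq₀ hne, ← map_mul]
    congr 1
    exact Subtype.ext (mul_comm _ _)
  have halg : IsAlgebraic (ZMod q) (IsLocalRing.residue A ⟨a, ha⟩) := by
    rw [hx]
    exact hba'.mul hb'.inv
  obtain ⟨f, hf, hpow⟩ := K0c_pow_eq q _ halg
  refine ⟨f, hf, ?_⟩
  have h3 : IsLocalRing.residue A (⟨a, ha⟩ ^ (q ^ f) - ⟨a, ha⟩) = 0 := by
    rw [map_sub, map_pow, hpow, sub_self]
  rw [K0c_residue_eq_zero_iff] at h3
  exact h3

theorem K0c_exists_factor (A : ValuationSubring Qb) (s : Multiset Qb) (hs : ∀ x ∈ s, x ∈ A)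
    (h : s.prod ∈ A.nonunits) : ∃ x ∈ s, x ∈ A.nonunits := by
  induction s using Multiset.induction_on with
  | empty =>
    rw [Multiset.prod_zero, ValuationSubring.mem_nonunits_iff, map_one] at h
    exact absurd h (lt_irrefl _)
  | cons a s ih =>
    rw [Multiset.prod_cons] at h
    by_cases ha : a ∈ A.nonunits
    · exact ⟨a, Multiset.mem_cons_self _ _, ha⟩
    · have h1 : A.valuation a ≤ 1 := (A.valuation_le_one_iff _).mpr (hs a (Multiset.mem_cons_self _ _))
      rw [ValuationSubring.mem_nonunits_iff, not_lt] at ha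
      have h2 : A.valuation a = 1 := le_antisymm h1 ha
      rw [ValuationSubring.mem_nonunits_iff, map_mul, h2, one_mul,
        ← ValuationSubring.mem_nonunits_iff] at h
      obtain ⟨x, hx, hx'⟩ := ih (fun x hx => hs x (Multiset.mem_cons_of_mem hx)) h
      exact ⟨x, Multiset.mem_cons_of_mem hx, hx'⟩

theorem K0c_root_mem (A : ValuationSubring Qb) {q : ℕ} (hq : q.Prime)
    (hA : A.LiesOverPrime q) {f : ℕ} (hf : 0 < f) {r : Qb} (hr : r ^ (q ^ f) = r) :
    r ∈ K0 A ∧ r ∈ A := by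
  have hn : 2 ≤ q ^ f := le_trans hq.two_le (Nat.le_self_pow hf.ne' q)
  have hrA : r ∈ A := by
    by_cases hr0 : r = 0
    · rw [hr0]; exact A.zero_mem
    · have h1 : r ^ (q ^ f - 1) = 1 := by
        have h2 : r ^ (q ^ f - 1) * r = 1 * r := by
          rw [← pow_succ, Nat.sub_add_cancel (by omega), hr, one_mul]
        exact mul_right_cancel₀ hr0 h2
      exact K0b_mem_of_pow_mem A (m := q ^ f - 1) (by omega) (by rw [h1]; exact A.one_mem)
  refine ⟨?_, hrA⟩
  have hd : aeval r (derivative (X ^ (q ^ f) - X : (K0 A)[X])) =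
      ((q ^ f : ℕ) : Qb) * r ^ (q ^ f - 1) - 1 := by
    simp [derivative_X_pow]
  have hv : A.valuation (((q ^ f : ℕ) : Qb) * r ^ (q ^ f - 1) - 1) = 1 := by
    rw [Valuation.map_sub_swap]
    apply Valuation.map_one_sub_of_lt
    rw [map_mul]
    have h1 : A.valuation ((q ^ f : ℕ) : Qb) < 1 := by
      push_cast
      rw [map_pow]
      have hA' : A.valuation (q : Qb) < 1 := by
        have := hA
        rw [ValuationSubring.LiesOverPrime, ValuationSubring.mem_nonunits_iff] at this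
        exact this
      exact pow_lt_one₀ zero_le hA' hf.ne'
    have h2 : A.valuation (r ^ (q ^ f - 1)) ≤ 1 := (A.valuation_le_one_iff _).mpr (A.pow_mem hrA _)
    exact mul_lt_one_of_lt_of_le h1 h2
  have hne : ((q ^ f : ℕ) : Qb) * r ^ (q ^ f - 1) - 1 ≠ 0 := by
    intro h0
    rw [h0, map_zero] at hv
    exact zero_ne_one hv
  refine mem_K0_of_simple_root A (X ^ (q ^ f) - X) ?_ hrA ?_ ?_ ?_
  · intro i
    rw [coeff_sub, coeff_X_pow, coeff_X]
    split_ifs
    all_goals simp
  · simp [hr]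
  · rw [hd]
    refine ⟨(A.valuation_le_one_iff _).mp hv.le, ?_⟩
    rw [← A.valuation_le_one_iff, map_inv₀, hv, inv_one]
  · rw [hd]
    exact hne

theorem exists_K0_residue (A : ValuationSubring Qb) {q : ℕ} (hq : q.Prime)
    (hA : A.LiesOverPrime q) {a : Qb} (ha : a ∈ A) :
    ∃ a₀ ∈ K0 A, a₀ ∈ A ∧ a - a₀ ∈ A.nonunits := by
  obtain ⟨f, hf, hpow⟩ := K0c_exists_pow A hq hA ha
  have hn : 2 ≤ q ^ f := le_trans hq.two_le (Nat.le_self_pow hf.ne' q)
  have hmonic : (X ^ (q ^ f) - X : Qb[X]).Monic := monic_X_pow_sub (by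
    rw [degree_X]; exact_mod_cast (by omega : 1 < q ^ f))
  have hroots : ∀ r ∈ (X ^ (q ^ f) - X : Qb[X]).roots, r ^ (q ^ f) = r := by
    intro r hr
    have := (mem_roots hmonic.ne_zero).mp hr
    rw [IsRoot, eval_sub, eval_pow, eval_X, sub_eq_zero] at this
    exact this
  have hprod := (IsAlgClosed.splits (X ^ (q ^ f) - X : Qb[X])).eval_eq_prod_roots_of_monic hmonic a
  rw [eval_sub, eval_pow, eval_X] at hprod
  rw [hprod] at hpow
  obtain ⟨x, hx, hxn⟩ := K0c_exists_factor A _ (by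
    intro x hx
    obtain ⟨r, hr, rfl⟩ := Multiset.mem_map.mp hx
    exact A.sub_mem ha (K0c_root_mem A hq hA hf (hroots r hr)).2) hpow
  obtain ⟨r, hr, rfl⟩ := Multiset.mem_map.mp hx
  obtain ⟨h1, h2⟩ := K0c_root_mem A hq hA hf (hroots r hr)
  exact ⟨r, h1, h2, hxn⟩

end Fermat.Agent.S36Lib
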