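import Mathlib
import Fermat.Agent.S14.LiftPlace
import Fermat.Agent.S05.QbarOrd

/-!
# S36 block (K0): the inertia field `K0 = Qbar^I` of a place `A` of `Qbar` over `q`: definitions
-/

set_option autoImplicit false

namespace Fermat.Agent.S36Lib

open NumberField Polynomial
open scoped Pointwise

local notation "Qb" => AlgebraicClosure ℚ
local notation "GQ" => (AlgebraicClosure ℚ ≃ₐ[ℚ] AlgebraicClosure ℚ)

/-- the inertia field -/
noncomputable def K0 (A : ValuationSubring Qb) : IntermediateField ℚ Qb :=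
  IntermediateField.fixedField (A.inertiaSubgroupIn ℚ)

theorem mem_K0_iff {A : ValuationSubring Qb} {x : Qb} :
    x ∈ K0 A ↔ ∀ σ ∈ A.inertiaSubgroupIn ℚ, σ x = x := by
  rw [K0, IntermediateField.mem_fixedField_iff]

/-- `u` is a unit of `A` -/
def IsU (A : ValuationSubring Qb) (u : Qb) : Prop := u ∈ A ∧ u⁻¹ ∈ A

/-- inertia preserves `A` and acts trivially on the residue field -/
theorem inertia_mem {A : ValuationSubring Qb} {σ : GQ} (hσ : σ ∈ A.inertiaSubgroupIn ℚ) {a : Qb}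
    (ha : a ∈ A) : σ a ∈ A ∧ σ a - a ∈ A.nonunits := by
  obtain ⟨s, hs, rfl⟩ := hσ
  have hs' : MulSemiringAction.toRingAut (A.decompositionSubgroup ℚ)
      (IsLocalRing.ResidueField A) s = 1 := hs
  have h1 : s • IsLocalRing.residue A ⟨a, ha⟩ = IsLocalRing.residue A ⟨a, ha⟩ := by
    have := congrArg (fun f => f (IsLocalRing.residue A ⟨a, ha⟩)) hs'
    simpa using this
  rw [← IsLocalRing.ResidueField.residue_smul, ← sub_eq_zero, ← map_sub,
    IsLocalRing.residue_eq_zero_iff, A.valuation_lt_one_iff] at h1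
  refine ⟨(s • (⟨a, ha⟩ : A)).2, ?_⟩
  rw [ValuationSubring.mem_nonunits_iff]
  exact h1

/-- `A₀ = A ∩ K0` -/
noncomputable def A0 (A : ValuationSubring Qb) : ValuationSubring (K0 A) :=
  A.comap (algebraMap (K0 A) Qb)

theorem mem_A0_iff {A : ValuationSubring Qb} (x : K0 A) : x ∈ A0 A ↔ (x : Qb) ∈ A := Iff.rfl

theorem IsU.mul {A : ValuationSubring Qb} {u v : Qb} (hu : IsU A u) (hv : IsU A v) :
    IsU A (u * v) :=
  ⟨A.mul_mem _ _ hu.1 hv.1, by rw [mul_inv]; exact A.mul_mem _ _ hu.2 hv.2⟩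

theorem IsU.inv {A : ValuationSubring Qb} {u : Qb} (hu : IsU A u) : IsU A u⁻¹ :=
  ⟨hu.2, by rw [inv_inv]; exact hu.1⟩

theorem isU_one (A : ValuationSubring Qb) : IsU A 1 := ⟨A.one_mem, by rw [inv_one]; exact A.one_mem⟩

/-- an element of `A` is a unit or a non unit -/
theorem isU_iff_not_mem_nonunits {A : ValuationSubring Qb} {u : Qb} (hu : u ∈ A) (hu0 : u ≠ 0) :
    IsU A u ↔ u ∉ A.nonunits := by
  rw [ValuationSubring.mem_nonunits_iff, not_lt]
  constructor
  · intro h
    have h3 : A.valuation u⁻¹ ≤ 1 := (A.valuation_le_one_iff _).mpr h.2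
    rw [map_inv₀] at h3
    have h4 : A.valuation u ≠ 0 := (Valuation.ne_zero_iff _).mpr hu0
    exact (inv_le_one₀ (zero_lt_iff.mpr h4)).mp h3
  · intro h
    refine ⟨hu, ?_⟩
    rw [← A.valuation_le_one_iff, map_inv₀]
    exact inv_le_one_of_one_le₀ h

end Fermat.Agent.S36Lib
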