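import Fermat.Agent.S36.Mod.ValFix
import Fermat.Agent.S34.AbsGalois
import Fermat.Agent.S18.RiemannLower
import Fermat.Agent.S36.NrmHecke
import Fermat.Agent.ES.Galois

/-!
# S36, block (DSC): descent of Kummer generators to the inertia field

* `exists_isFix_mul_pow` (K1): a Kummer generator whose class is fixed by inertia is an `m`-th
  power times an inertia-fixed Kummer generator
* `exists_isFix_of_pow` (K1'): if `g ^ m` is fixed by inertia then `g` is a constant times a fixed
  function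
-/

set_option autoImplicit false
set_option synthInstance.maxHeartbeats 400000

open AlgebraicCurve ModularCurve

namespace Fermat.Agent.S36Lib

open Fermat.Agent.S18Lib Fermat.Agent.S24Lib Fermat.Agent.S28Lib Fermat.Agent.ESLib
  Fermat.Agent.S34Lib Fermat.Agent.FFLib

noncomputable section

/-! ## elements of maximal order in a finite dimensional space of Laurent series -/

section MaxOrder

variable {K E : Type*} [Field K] [AddCommGroup E] [Module K E]

/-- the elements whose expansion has order `> r` -/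
def DSC_T (φ : E →ₗ[K] LaurentSeries K) (r : ℤ) : Submodule K E where
  carrier := {y | ∀ i ≤ r, (φ y).coeff i = 0}
  zero_mem' := fun i _ => by simp
  add_mem' := fun {a b} ha hb i hi => by
    rw [map_add, HahnSeries.coeff_add, ha i hi, hb i hi, add_zero]
  smul_mem' := fun c a ha i hi => by
    rw [map_smul, HahnSeries.coeff_smul, ha i hi, smul_zero]

theorem DSC_mem_T {φ : E →ₗ[K] LaurentSeries K} {r : ℤ} {y : E} :
    y ∈ DSC_T φ r ↔ ∀ i ≤ r, (φ y).coeff i = 0 := Iff.rfl

theorem DSC_lt_order {φ : E →ₗ[K] LaurentSeries K} {r : ℤ} {y : E} (hy : φ y ≠ 0)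
    (h : y ∈ DSC_T φ r) : r < (φ y).order := by
  by_contra hlt
  exact hy (HahnSeries.coeff_order_eq_zero.1 (h _ (not_lt.1 hlt)))

theorem DSC_mem_T_of_lt {φ : E →ₗ[K] LaurentSeries K} {r : ℤ} {y : E} (h : r < (φ y).order) :
    y ∈ DSC_T φ r := fun _ hi => HahnSeries.coeff_eq_zero_of_lt_order (lt_of_le_of_lt hi h)

theorem DSC_exists_max_order (φ : E →ₗ[K] LaurentSeries K) (hφ : Function.Injective φ) :
    ∀ (d : ℕ) (V : Submodule K E), FiniteDimensional K V → Module.finrank K V = d → V ≠ ⊥ →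
    ∃ s ∈ V, s ≠ 0 ∧ ∀ y ∈ V, (φ s).order ≤ (φ y).order → ∃ c : K, y = c • s := by
  intro d
  induction d using Nat.strong_induction_on with
  | _ d ih =>
    intro V hfd hd hV
    obtain ⟨s₀, hs₀V, hs₀⟩ := (Submodule.ne_bot_iff V).1 hV
    have hφs₀ : φ s₀ ≠ 0 := fun h => hs₀ (hφ (by rw [h, map_zero]))
    set r₀ := (φ s₀).order with hr₀
    set V' : Submodule K E := V ⊓ DSC_T φ r₀ with hV'
    have hle : V' ≤ V := inf_le_left
    by_cases hbot : V' = ⊥
    · refine ⟨s₀, hs₀V, hs₀, fun y hy hord => ?_⟩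
      set b := (φ s₀).coeff r₀ with hb
      have hb0 : b ≠ 0 := fun h => hφs₀ (HahnSeries.coeff_order_eq_zero.1 h)
      refine ⟨(φ y).coeff r₀ / b, ?_⟩
      have hmem : y - ((φ y).coeff r₀ / b) • s₀ ∈ V' := by
        refine ⟨V.sub_mem hy (V.smul_mem _ hs₀V), fun i hi => ?_⟩
        rw [map_sub, map_smul, HahnSeries.coeff_sub, HahnSeries.coeff_smul]
        rcases lt_or_eq_of_le hi with hlt | rfl
        · rw [HahnSeries.coeff_eq_zero_of_lt_order (lt_of_lt_of_le hlt hord),
            HahnSeries.coeff_eq_zero_of_lt_order hlt, smul_zero, sub_zero]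
        · rw [smul_eq_mul, ← hb, div_mul_cancel₀ _ hb0, sub_self]
      rw [hbot, Submodule.mem_bot, sub_eq_zero] at hmem
      exact hmem
    · have hlt : Module.finrank K V' < d := by
        rw [← hd]
        apply Submodule.finrank_lt_finrank_of_lt
        refine lt_of_le_of_ne hle (fun h => ?_)
        have h1 : s₀ ∈ V' := by rw [h]; exact hs₀V
        exact lt_irrefl _ (DSC_lt_order hφs₀ h1.2)
      have hfd' : FiniteDimensional K V' := Submodule.finiteDimensional_of_le hle
      obtain ⟨s, hsV', hs, hmax⟩ := ih _ hlt V' hfd' rfl hbot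
      have hφs : φ s ≠ 0 := fun h => hs (hφ (by rw [h, map_zero]))
      refine ⟨s, hle hsV', hs, fun y hy hord => ?_⟩
      exact hmax y ⟨hy, DSC_mem_T_of_lt (lt_of_lt_of_le (DSC_lt_order hφs hsV'.2) hord)⟩ hord

end MaxOrder

/-! ## orders of expansions -/

theorem DSC_order_coeffMap (σ : GQ) (x : LaurentSeries Qb) :
    (coeffMap (σ : Qb →+* Qb) x).order = x.order := by
  by_cases hx : x = 0
  · rw [hx, map_zero]
  have hx' : coeffMap (σ : Qb →+* Qb) x ≠ 0 := by
    intro h
    apply hx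
    ext n
    have := congrArg (fun y : LaurentSeries Qb => y.coeff n) h
    simpa [coeffMap_coeff] using this
  apply le_antisymm
  · apply HahnSeries.order_le_of_coeff_ne_zero
    rw [coeffMap_coeff]
    intro h
    exact hx (HahnSeries.coeff_order_eq_zero.1 (by simpa using h))
  · apply HahnSeries.order_le_of_coeff_ne_zero
    intro h
    apply hx'
    apply HahnSeries.coeff_order_eq_zero.1
    rw [coeffMap_coeff, h]
    simp

theorem DSC_algebraMap_eq_C (a : Qb) :
    algebraMap Qb (LaurentSeries Qb) a = HahnSeries.C a := by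
  rw [HahnSeries.algebraMap_apply', PowerSeries.algebraMap_apply, HahnSeries.ofPowerSeries_C]
  rfl

theorem DSC_coe_const_mul {N : ℕ} (a : Qb) (f : FB N) :
    ((algebraMap Qb (FB N) a * f : FB N) : LaurentSeries Qb) = a • (f : LaurentSeries Qb) := by
  rw [← HahnSeries.C_mul_eq_smul, ← DSC_algebraMap_eq_C]
  rfl

theorem DSC_JF_one (N : ℕ) [NeZero N] : JF N 1 (one_dvd _) = jBar N := by
  apply Subtype.ext
  show Wq_J 1 = _
  rw [Wq_J_eq]
  rfl

/-- the expansion, as a linear map -/
def DSC_val (N : ℕ) : FB N →ₗ[Qb] LaurentSeries Qb where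
  toFun := Subtype.val
  map_add' _ _ := rfl
  map_smul' c x := by
    rw [Algebra.smul_def, DSC_coe_const_mul]
    rfl

/-! ## transport of the twisted space -/

theorem DSC_gal_mul_mem (N : ℕ) [NeZero N] {m : ℕ} (hm : m ≠ 0) (σ : GQ) {f w : FB N}
    (hf : IsKum N m f) (hw : ESLib.gal N σ f = w ^ m * f) (n : ℕ) {s : FB N}
    (hs : s ∈ riemannRochSpace (n • poleDiv Qb (JF N 1 (one_dvd _)) + GA_div Qb f m)) :
    ESLib.gal N σ s * w ∈
      riemannRochSpace (n • poleDiv Qb (JF N 1 (one_dvd _)) + GA_div Qb f m) := by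
  have hF := isFF_FB N
  set g := arithmeticGalois (modularFunctionFieldFull N) σ with hg
  have hgx : g • (JF N 1 (one_dvd _)) = JF N 1 (one_dvd _) := IM_gal_J N σ 1 _
  have h1 : g • s ∈ riemannRochSpace (n • poleDiv Qb (JF N 1 (one_dvd _)) +
      GA_div Qb (ESLib.gal N σ f) m) := by
    refine GA_smul_mem hF g _ hgx n (GA_div Qb f m) _ (fun v => ?_) hs
    rw [GA_div_apply hF, GA_div_apply hF]
    congr 1
    exact GA_ord_smul g v f
  have hw0 : w ≠ 0 := by
    rintro rfl
    rw [zero_pow hm, zero_mul] at hw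
    exact hf.1 ((map_eq_zero_iff _ (ESLib.gal N σ).injective).1 hw)
  rw [mem_L_iff] at h1 ⊢
  intro v
  rcases h1 v with h0 | h0
  · left
    have : ESLib.gal N σ s = 0 := h0
    rw [this, zero_mul]
  · by_cases hs0 : ESLib.gal N σ s = 0
    · left
      rw [hs0, zero_mul]
    right
    rw [v.ord_mul hs0 hw0]
    have h2 : v.ord (g • s) = v.ord (ESLib.gal N σ s) := rfl
    rw [h2, Finsupp.add_apply, GA_div_apply hF, hw, v.ord_mul (pow_ne_zero _ hw0) hf.1,
      ma_ord_pow, Int.add_ediv_of_dvd_left (Dvd.intro _ rfl),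
      Int.mul_ediv_cancel_left _ (by exact_mod_cast hm)] at h0
    rw [Finsupp.add_apply, GA_div_apply hF]
    linarith

/-! ## (K1) -/

/-- a function which is multiplied by constants under inertia is a constant times a fixed
function -/
theorem DSC_normalize (A : ValuationSubring Qb) (N : ℕ) {f : FB N} (hf : f ≠ 0)
    (h : ∀ σ ∈ A.inertiaSubgroupIn ℚ, ∃ a : Qb, ESLib.gal N σ f = algebraMap Qb (FB N) a * f) :
    ∃ (b : Qb) (f₁ : FB N), b ≠ 0 ∧ IsFix A N f₁ ∧ f = algebraMap Qb (FB N) b * f₁ := by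
  have hf' : (f : LaurentSeries Qb) ≠ 0 := fun h0 => hf (Subtype.ext h0)
  set r := (f : LaurentSeries Qb).order with hr
  set b := (f : LaurentSeries Qb).coeff r with hb
  have hb0 : b ≠ 0 := fun h0 => hf' (HahnSeries.coeff_order_eq_zero.1 h0)
  refine ⟨b, algebraMap Qb (FB N) b⁻¹ * f, hb0, ?_, ?_⟩
  · intro σ hσ
    obtain ⟨a, ha⟩ := h σ hσ
    have h1 : σ b = a * b := by
      have := congrArg (fun y : FB N => (y : LaurentSeries Qb).coeff r) ha
      simp only [coe_gal, coeffMap_coeff] at this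
      rw [DSC_coe_const_mul, HahnSeries.coeff_smul] at this
      exact this
    have h2 : ESLib.gal N σ (algebraMap Qb (FB N) b⁻¹) = algebraMap Qb (FB N) (σ b⁻¹) :=
      arithmeticRingAut_algebraMap _ σ _
    rw [map_mul, h2, ha, ← mul_assoc, ← map_mul, map_inv₀, h1]
    congr 2
    have ha0 : a ≠ 0 := by
      rintro rfl
      rw [zero_mul] at h1
      exact hb0 ((map_eq_zero σ).1 h1)
    field_simp
  · rw [← mul_assoc, ← map_mul, mul_inv_cancel₀ hb0, map_one, one_mul]

/-- **(K1)** -/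
theorem exists_isFix_mul_pow (A : ValuationSubring Qb) (N : ℕ) [NeZero N] {m : ℕ} (hm : m ≠ 0)
    {f : FB N} (hf : IsKum N m f)
    (hI : ∀ σ ∈ A.inertiaSubgroupIn ℚ, ∃ w : FB N, ESLib.gal N σ f = w ^ m * f) :
    ∃ h f₁ : FB N, h ≠ 0 ∧ IsFix A N f₁ ∧ f = h ^ m * f₁ := by
  have hF := isFF_FB N
  set x : FB N := JF N 1 (one_dvd _) with hx
  have hxt : Transcendental Qb x := by
    rw [hx, DSC_JF_one]
    exact transcendental_jBar N
  set D := GA_div Qb f m with hD
  -- a nonzero twisted space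
  obtain ⟨n, hn⟩ : ∃ n : ℕ, riemannRochSpace (n • poleDiv Qb x + D) ≠ ⊥ := by
    have hdeg : 1 ≤ Divisor.degree (poleDiv Qb x) := by
      rw [degree_poleDiv hF hxt]
      have := hF.finiteDimensional hxt
      exact_mod_cast (Module.finrank_pos : 0 < Module.finrank (IntermediateField.adjoin Qb {x}) (FB N))
    refine ⟨((genusR Qb (FB N) : ℤ) - Divisor.degree D).toNat, fun hbot => ?_⟩
    have h1 := riemann_inequality hF
      (((genusR Qb (FB N) : ℤ) - Divisor.degree D).toNat • poleDiv Qb x + D)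
    rw [FFLib.ell, hbot, finrank_bot, map_add, map_nsmul, nsmul_eq_mul] at h1
    have h2 := Int.self_le_toNat ((genusR Qb (FB N) : ℤ) - Divisor.degree D)
    have h3 : (0 : ℤ) ≤ ((((genusR Qb (FB N) : ℤ) - Divisor.degree D).toNat : ℕ) : ℤ) :=
      Int.natCast_nonneg _
    push_cast at h1
    nlinarith
  set V := riemannRochSpace (n • poleDiv Qb x + D) with hV
  have hfd : FiniteDimensional Qb V := finiteDimensional_L hF _
  obtain ⟨s, hsV, hs0, hmax⟩ := DSC_exists_max_order (DSC_val N)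
    Subtype.val_injective _ V hfd rfl hn
  -- `s ^ m * f` is multiplied by constants
  have hsf : s ^ m * f ≠ 0 := mul_ne_zero (pow_ne_zero _ hs0) hf.1
  obtain ⟨b, f₁, hb0, hfix, hbf⟩ := DSC_normalize A N hsf (fun σ hσ => by
    obtain ⟨w, hw⟩ := hI σ hσ
    have hw0 : w ≠ 0 := by
      rintro rfl
      rw [zero_pow hm, zero_mul] at hw
      exact hf.1 ((map_eq_zero_iff _ (ESLib.gal N σ).injective).1 hw)
    have hw0' : (w : LaurentSeries Qb) ≠ 0 := fun h0 => hw0 (Subtype.ext h0)
    have hf0' : (f : LaurentSeries Qb) ≠ 0 := fun h0 => hf.1 (Subtype.ext h0)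
    have hs0' : (s : LaurentSeries Qb) ≠ 0 := fun h0 => hs0 (Subtype.ext h0)
    have hordw : (w : LaurentSeries Qb).order = 0 := by
      have h1 := congrArg (fun y : FB N => (y : LaurentSeries Qb).order) hw
      simp only [coe_gal] at h1
      rw [DSC_order_coeffMap] at h1
      have h2 : ((w ^ m * f : FB N) : LaurentSeries Qb) =
        (w : LaurentSeries Qb) ^ m * (f : LaurentSeries Qb) := rfl
      rw [h2, HahnSeries.order_mul (pow_ne_zero _ hw0') hf0', HahnSeries.order_pow] at h1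
      have h3 : m • (w : LaurentSeries Qb).order = 0 := by linarith
      rw [nsmul_eq_mul] at h3
      rcases mul_eq_zero.1 h3 with h4 | h4
      · exact absurd (by exact_mod_cast h4) hm
      · exact h4
    have hmem := DSC_gal_mul_mem N hm σ hf hw n hsV
    obtain ⟨c, hc⟩ := hmax _ hmem (by
      show (s : LaurentSeries Qb).order ≤ ((ESLib.gal N σ s * w : FB N) : LaurentSeries Qb).order
      have h2 : ((ESLib.gal N σ s * w : FB N) : LaurentSeries Qb) =
        coeffMap (σ : Qb →+* Qb) (s : LaurentSeries Qb) * (w : LaurentSeries Qb) := rfl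
      have h3 : coeffMap (σ : Qb →+* Qb) (s : LaurentSeries Qb) ≠ 0 := by
        intro h0
        apply hs0
        apply (ESLib.gal N σ).injective
        rw [map_zero]
        exact Subtype.ext h0
      rw [h2, HahnSeries.order_mul h3 hw0', DSC_order_coeffMap, hordw, add_zero])
    refine ⟨c ^ m, ?_⟩
    rw [map_mul, map_pow, hw, ← mul_assoc, ← mul_pow, hc, Algebra.smul_def, mul_pow, map_pow,
      mul_assoc])
  obtain ⟨b', hb'⟩ := IsAlgClosed.exists_pow_nat_eq b (Nat.pos_of_ne_zero hm)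
  have hb'0 : b' ≠ 0 := by
    rintro rfl
    rw [zero_pow hm] at hb'
    exact hb0 hb'.symm
  refine ⟨s⁻¹ * algebraMap Qb (FB N) b', f₁, mul_ne_zero (inv_ne_zero hs0) (by simpa using hb'0),
    hfix, ?_⟩
  rw [mul_pow, ← map_pow, hb', mul_assoc, ← hbf, inv_pow, ← mul_assoc,
    inv_mul_cancel₀ (pow_ne_zero _ hs0), one_mul]

/-! ## (K1') -/

/-- **(K1')** -/
theorem exists_isFix_of_pow (A : ValuationSubring Qb) (N : ℕ) {m : ℕ} (hm : m ≠ 0) {g : FB N}
    (hg : IsFix A N (g ^ m)) :
    ∃ (c : Qb) (g₁ : FB N), IsFix A N g₁ ∧ g = algebraMap Qb (FB N) c * g₁ := by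
  by_cases hg0 : g = 0
  · exact ⟨0, 0, isFix_zero N, by rw [hg0, mul_zero]⟩
  obtain ⟨b, g₁, -, hfix, hb⟩ := DSC_normalize A N hg0 (fun σ hσ => by
    set y : FB N := ESLib.gal N σ g / g with hy
    have hy1 : y ^ m = 1 := by
      rw [hy, div_pow, ← map_pow, hg σ hσ, div_self (pow_ne_zero _ hg0)]
    have hint : IsIntegral Qb y :=
      ⟨Polynomial.X ^ m - Polynomial.C 1, Polynomial.monic_X_pow_sub_C 1 hm, by simp [hy1]⟩
    obtain ⟨a, ha⟩ := minpoly.mem_range_of_degree_eq_one Qb y
      (IsAlgClosed.degree_eq_one_of_irreducible Qb (minpoly.irreducible hint))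
    exact ⟨a, by rw [ha, hy, div_mul_cancel₀ _ hg0]⟩)
  exact ⟨b, g₁, hfix, hb⟩

/-! ## (K1'') the norms preserve `IsFix` -/

theorem isFix_nrm_bHom {A : ValuationSubring Qb} {N' N q : ℕ} [NeZero N'] [NeZero N] [NeZero q]
    (hq : q.Prime) (h : N' * q = N) (hqN' : N'.factorization q = 1) {f : FB N}
    (hf : IsFix A N f) : IsFix A N' (nrm (bHom q (dvd_of_eq h)) f) := by
  intro σ hσ
  apply Subtype.ext
  rw [coe_gal, coe_nrm_bHom hq h hqN', ← G_normL_gal]
  congr 1
  have := congrArg (fun y : FB N => (y : LaurentSeries Qb)) (hf σ hσ)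
  simpa using this

theorem isFix_nrm_aHom {A : ValuationSubring Qb} {N' N q : ℕ} [NeZero N'] [NeZero N] [NeZero q]
    (hq : q.Prime) (h : N' * q = N) (hqN' : N'.factorization q = 1) {f : FB N}
    (hf : IsFix A N f) : IsFix A N' (nrm (aHom (Dvd.intro q h)) f) := by
  obtain ⟨M, hN', hc⟩ := HC_exists_M hq hqN'
  obtain ⟨w', hw'⟩ := exists_isAL N' q M hN' hc
  have hN : N = q * q * M := by rw [← h, hN']; ring
  obtain ⟨w, hw⟩ := exists_isAL N (q * q) M hN (Nat.Coprime.mul_left hc hc)
  rw [nrm_aHom_eq h hN' hw' hw]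
  exact (isFix_nrm_bHom hq h hqN' (hf.al hw)).al hw'

end

end Fermat.Agent.S36Lib
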