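import Fermat.Agent.S36.NrmDefs
import Fermat.Agent.S36.Dsc

/-!
# S36, (TOP), first step: reduction of `NUKummer` to functions fixed by inertia (via (K1))
-/

set_option autoImplicit false
set_option synthInstance.maxHeartbeats 400000

open AlgebraicCurve ModularCurve

namespace Fermat.Agent.S36Lib

open Fermat.Agent.S18Lib Fermat.Agent.S24Lib Fermat.Agent.ESLib Fermat.Agent.S34Lib

theorem TOP_of_fix {N N' q p : ℕ} [NeZero N] [NeZero N'] [NeZero q] (hp : p.Prime)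
    (h : N' * q = N) (A : ValuationSubring Qb) (c : ℕ)
    (H : ∀ (n : ℕ) (f : FB N), IsKum N (p ^ n) f → IsFix A N f →
      (∃ g : FB N', nrm (aHom (Dvd.intro q h)) f = g ^ (p ^ n)) →
      (∃ g : FB N', nrm (bHom q (dvd_of_eq h)) f = g ^ (p ^ n)) →
      ∃ g : FB N, f ^ (p ^ c) = g ^ (p ^ n))
    (n : ℕ) (f : FB N) (hf : IsKum N (p ^ n) f)
    (hI : ∀ σ ∈ A.inertiaSubgroupIn ℚ, ∃ w : FB N, ESLib.gal N σ f = w ^ (p ^ n) * f)
    (ha : ∃ g : FB N', nrm (aHom (Dvd.intro q h)) f = g ^ (p ^ n))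
    (hb : ∃ g : FB N', nrm (bHom q (dvd_of_eq h)) f = g ^ (p ^ n)) :
    ∃ g : FB N, f ^ (p ^ c) = g ^ (p ^ n) := by
  have hm : p ^ n ≠ 0 := pow_ne_zero n hp.ne_zero
  obtain ⟨u, f₁, hu, hfix, rfl⟩ := exists_isFix_mul_pow A N hm hf hI
  have hf₁0 : f₁ ≠ 0 := right_ne_zero_of_mul hf.1
  have hK : IsKum N (p ^ n) f₁ := by
    refine ⟨hf₁0, fun P => ?_⟩
    have h1 := hf.2 P
    rw [P.ord_mul (pow_ne_zero _ hu) hf₁0, ma_ord_pow] at h1
    exact (Int.dvd_add_right (Dvd.intro _ rfl)).1 h1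
  have key : ∀ φ : FB N' →ₐ[Qb] FB N, (∃ g : FB N', nrm φ (u ^ (p ^ n) * f₁) = g ^ (p ^ n)) →
      ∃ g : FB N', nrm φ f₁ = g ^ (p ^ n) := by
    rintro φ ⟨g, hg⟩
    rw [map_mul, map_pow] at hg
    have hnu : nrm φ u ≠ 0 := by
      intro h0
      have h2 : nrm φ (u * u⁻¹) = 1 := by rw [mul_inv_cancel₀ hu, map_one]
      rw [map_mul, h0, zero_mul] at h2
      exact zero_ne_one h2
    refine ⟨g / nrm φ u, ?_⟩
    rw [div_pow, ← hg, mul_div_cancel_left₀ _ (pow_ne_zero _ hnu)]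
  obtain ⟨g, hg⟩ := H n f₁ hK hfix (key _ ha) (key _ hb)
  refine ⟨u ^ (p ^ c) * g, ?_⟩
  rw [mul_pow, mul_pow, hg, ← pow_mul, ← pow_mul, mul_comm (p ^ n)]

end Fermat.Agent.S36Lib
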