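import Fermat.Agent.S36.NUFinal
import Fermat.Agent.S36.TopFix
import Fermat.Agent.S36.Inst.PhiNontriv
import Fermat.Agent.S36.Inst.Core3Inst
import Fermat.Agent.S36.New.ModND
import Fermat.Agent.S36.Mod.Tau
import Fermat.Agent.S36.Mod.EtaH

/-!
# S36, (TOP): the geometric core `NUCore`
-/

set_option autoImplicit false
set_option synthInstance.maxHeartbeats 400000

open AlgebraicCurve ModularCurve

namespace Fermat.Agent.S36Lib

open Fermat.Agent.S18Lib Fermat.Agent.S24Lib Fermat.Agent.ESLib Fermat.Agent.S34Lib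
  Fermat.Agent.S37Lib

theorem nuCore : NUCore := by
  intro M q p _ _ _ _ h hq hp hqp hqM hr hbase A hA
  obtain ⟨r, hr, hr12, hrM⟩ := hr
  haveI hqF : Fact q.Prime := ⟨hq⟩
  obtain ⟨w, ζ, i, ζ₂, B⟩ := exists_brData (M := M) (q := q) hqM
  obtain ⟨H, hH⟩ := exists_HT A M q hA
  have hHp := EH_eq_aeval A M q hA H hH
  haveI := nontrivial_Phi (M := M) A hA w i
  obtain ⟨c, hc⟩ := new_of_modCore hqM hA hbase B
    (isModCore_core3 hqM A hA B H hH hHp hbase hr hr12 hrM) hp hqp
  exact ⟨c, fun n f hf hI ha hb => TOP_of_fix hp h A c hc n f hf hI ha hb⟩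

end Fermat.Agent.S36Lib
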