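import Mathlib

/-!
# S36 library, (GL2): descent of fixed vectors from `E^r` to `(ℤ/pⁿ)^r`

`Mp : G → M_r(ℤ_p)` a family of matrices with reductions `ρ n`, `B` an integral matrix such that
`p^c B` kills the vectors of `(ℤ/pⁿ)^r` fixed by `ρ n σ`, `σ ∈ I`, for all `n`. Then `B` kills
the vectors of `E^r` fixed by `I`, for every field `E ⊇ ℤ_p`.
-/

set_option autoImplicit false

namespace Fermat.Agent.S36Lib

open Matrix

variable {p : ℕ} [Fact p.Prime] {G : Type*} {r : ℕ}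

theorem gld_map_map {R R' : Type*} [CommRing R] [CommRing R'] (f : R →+* R')
    (A : Matrix (Fin r) (Fin r) ℤ) :
    (A.map (Int.castRingHom R)).map f = A.map (Int.castRingHom R') := by
  ext i j
  simp

/-- step 1: vectors with coefficients in `ℤ_p` -/
theorem gld_padicInt (Mp : G → Matrix (Fin r) (Fin r) ℤ_[p])
    (ρ : (n : ℕ) → G → Matrix (Fin r) (Fin r) (ZMod (p ^ n)))
    (hMp : ∀ n σ, (Mp σ).map (PadicInt.toZModPow n) = ρ n σ)
    (I : Set G) (B : Matrix (Fin r) (Fin r) ℤ) (c : ℕ)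
    (hnu : ∀ (n : ℕ) (v : Fin r → ZMod (p ^ n)), (∀ σ ∈ I, ρ n σ *ᵥ v = v) →
      (p ^ c : ℕ) • (B.map (Int.castRingHom (ZMod (p ^ n))) *ᵥ v) = 0)
    (w : Fin r → ℤ_[p]) (hw : ∀ σ ∈ I, Mp σ *ᵥ w = w) :
    B.map (Int.castRingHom ℤ_[p]) *ᵥ w = 0 := by
  have h1 : (p ^ c : ℕ) • (B.map (Int.castRingHom ℤ_[p]) *ᵥ w) = 0 := by
    funext i
    apply PadicInt.ext_of_toZModPow.1
    intro n
    have h2 := hnu n (fun k => PadicInt.toZModPow n (w k)) (by
      intro σ hσ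
      funext k
      rw [← hMp]
      have := RingHom.map_mulVec (PadicInt.toZModPow n) (Mp σ) w k
      rw [hw σ hσ] at this
      exact this.symm)
    have h3 := congrFun h2 i
    rw [← gld_map_map (PadicInt.toZModPow n) B] at h3
    have h4 := RingHom.map_mulVec (PadicInt.toZModPow n) (B.map (Int.castRingHom ℤ_[p])) w i
    rw [Pi.smul_apply, Pi.zero_apply] at h3 ⊢
    rw [map_nsmul, h4, map_zero]
    exact h3
  have hp : ((p ^ c : ℕ) : ℤ_[p]) ≠ 0 := by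
    exact_mod_cast pow_ne_zero c (Fact.out : p.Prime).ne_zero
  funext i
  have h5 := congrFun h1 i
  rw [Pi.smul_apply, Pi.zero_apply, nsmul_eq_mul] at h5
  exact (mul_eq_zero.1 h5).resolve_left hp

/-- step 2: vectors with coefficients in the fraction field of `ℤ_p` -/
theorem gld_frac (K : Type*) [Field K] [Algebra ℤ_[p] K] [IsFractionRing ℤ_[p] K]
    (Mp : G → Matrix (Fin r) (Fin r) ℤ_[p])
    (I : Set G) (B : Matrix (Fin r) (Fin r) ℤ)
    (h1 : ∀ w : Fin r → ℤ_[p], (∀ σ ∈ I, Mp σ *ᵥ w = w) →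
      B.map (Int.castRingHom ℤ_[p]) *ᵥ w = 0)
    (w : Fin r → K)
    (hw : ∀ σ ∈ I, (Mp σ).map (algebraMap ℤ_[p] K) *ᵥ w = w) :
    B.map (Int.castRingHom K) *ᵥ w = 0 := by
  classical
  have hinj : Function.Injective (algebraMap ℤ_[p] K) := IsFractionRing.injective ℤ_[p] K
  obtain ⟨c, hc⟩ := IsLocalization.exist_integer_multiples_of_finset (nonZeroDivisors ℤ_[p])
    (Finset.univ.image w)
  have h : ∀ i, ∃ x : ℤ_[p], algebraMap ℤ_[p] K x = (c : ℤ_[p]) • w i := fun i =>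
    hc (w i) (Finset.mem_image_of_mem _ (Finset.mem_univ i))
  choose w' hw' using h
  have hw'' : (fun i => algebraMap ℤ_[p] K (w' i)) = algebraMap ℤ_[p] K (c : ℤ_[p]) • w := by
    funext i
    rw [hw', Pi.smul_apply, Algebra.smul_def, smul_eq_mul]
  have hc0 : algebraMap ℤ_[p] K (c : ℤ_[p]) ≠ 0 := by
    intro h0
    exact nonZeroDivisors.ne_zero c.2 (hinj (h0.trans (map_zero _).symm))
  have h2 := h1 w' (by
    intro σ hσ
    funext i
    apply hinj
    have h3 := RingHom.map_mulVec (algebraMap ℤ_[p] K) (Mp σ) w' i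
    rw [h3]
    have h4 : (algebraMap ℤ_[p] K) ∘ w' = algebraMap ℤ_[p] K (c : ℤ_[p]) • w := hw''
    rw [h4, mulVec_smul, hw σ hσ, ← h4]
    rfl)
  have h5 : B.map (Int.castRingHom K) *ᵥ (algebraMap ℤ_[p] K (c : ℤ_[p]) • w) = 0 := by
    rw [← hw'', ← gld_map_map (algebraMap ℤ_[p] K) B]
    funext i
    have h3 := RingHom.map_mulVec (algebraMap ℤ_[p] K) (B.map (Int.castRingHom ℤ_[p])) w' i
    rw [h2, Pi.zero_apply, map_zero] at h3
    exact h3.symm
  rw [mulVec_smul] at h5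
  exact (smul_eq_zero.1 h5).resolve_left hc0

/-- step 3: vectors with coefficients in a field containing `ℤ_p` -/
theorem gld_field (K : Type*) [Field K] [Algebra ℤ_[p] K] [IsFractionRing ℤ_[p] K]
    (Mp : G → Matrix (Fin r) (Fin r) ℤ_[p])
    (I : Set G) (B : Matrix (Fin r) (Fin r) ℤ)
    (h2 : ∀ w : Fin r → K,
      (∀ σ ∈ I, (Mp σ).map (algebraMap ℤ_[p] K) *ᵥ w = w) →
      B.map (Int.castRingHom K) *ᵥ w = 0)
    {E : Type*} [Field E] (J : ℤ_[p] →+* E) (hJ : Function.Injective J)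
    (v : Fin r → E) (hv : ∀ σ ∈ I, (Mp σ).map J *ᵥ v = v) :
    B.map (Int.castRingHom E) *ᵥ v = 0 := by
  let _ : Algebra K E := (IsFractionRing.lift hJ).toAlgebra
  have halg : ∀ x : ℤ_[p], algebraMap K E (algebraMap ℤ_[p] K x) = J x :=
    fun x => IsFractionRing.lift_algebraMap hJ x
  have hφ : ∀ (φ : Module.Dual K E) (A : Matrix (Fin r) (Fin r) ℤ_[p]) (i : Fin r),
      φ ((A.map J *ᵥ v) i) = (A.map (algebraMap ℤ_[p] K) *ᵥ fun k => φ (v k)) i := by
    intro φ A i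
    simp only [Matrix.mulVec, dotProduct, Matrix.map_apply, map_sum]
    refine Finset.sum_congr rfl fun k _ => ?_
    rw [← halg, ← Algebra.smul_def, map_smul, smul_eq_mul]
  funext i
  rw [Pi.zero_apply, ← Module.forall_dual_apply_eq_zero_iff K]
  intro φ
  rw [← gld_map_map J B, hφ, gld_map_map]
  have h3 := h2 (fun k => φ (v k)) (by
    intro σ hσ
    funext k
    rw [← hφ, hv σ hσ])
  exact congrFun h3 i

/-- the descent -/
theorem gl_descent (Mp : G → Matrix (Fin r) (Fin r) ℤ_[p])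
    (ρ : (n : ℕ) → G → Matrix (Fin r) (Fin r) (ZMod (p ^ n)))
    (hMp : ∀ n σ, (Mp σ).map (PadicInt.toZModPow n) = ρ n σ)
    (I : Set G) (B : Matrix (Fin r) (Fin r) ℤ) (c : ℕ)
    (hnu : ∀ (n : ℕ) (v : Fin r → ZMod (p ^ n)), (∀ σ ∈ I, ρ n σ *ᵥ v = v) →
      (p ^ c : ℕ) • (B.map (Int.castRingHom (ZMod (p ^ n))) *ᵥ v) = 0)
    {E : Type*} [Field E] (J : ℤ_[p] →+* E) (hJ : Function.Injective J)
    (v : Fin r → E) (hv : ∀ σ ∈ I, (Mp σ).map J *ᵥ v = v) :
    B.map (Int.castRingHom E) *ᵥ v = 0 :=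
  gld_field ℚ_[p] Mp I B (gld_frac ℚ_[p] Mp I B (gld_padicInt Mp ρ hMp I B c hnu)) J hJ v hv

end Fermat.Agent.S36Lib
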