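import Mathlib

/-!
# S36 library, (GL1a): a group of unipotent operators on a plane has a common fixed vector
-/

set_option autoImplicit false

namespace Fermat.Agent.S36Lib

open Polynomial Matrix

/-- two nilpotent `2 × 2` matrices with `tr (N C) = 0` satisfy `C N = 0` -/
theorem kolchin_mul_eq_zero {k : Type*} [Field k] (N C : Matrix (Fin 2) (Fin 2) k)
    (hN1 : N.trace = 0) (hN2 : N.det = 0) (hC1 : C.trace = 0) (hC2 : C.det = 0)
    (hNC : (N * C).trace = 0) : C * N = 0 := by
  rw [Matrix.trace_fin_two] at hN1 hC1 hNC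
  rw [Matrix.det_fin_two] at hN2 hC2
  simp only [Matrix.mul_apply, Fin.sum_univ_two] at hNC
  have hx : N 1 1 = -N 0 0 := by linear_combination hN1
  have ha : C 1 1 = -C 0 0 := by linear_combination hC1
  rw [hx] at hN2 hNC
  rw [ha] at hC2 hNC
  ext i j
  fin_cases i <;> fin_cases j <;>
    simp only [Matrix.mul_apply, Fin.sum_univ_two, Matrix.zero_apply, Fin.zero_eta, Fin.mk_one,
      hx, ha] <;>
    apply pow_eq_zero_iff (two_ne_zero) |>.1
  · linear_combination (C 0 1 * N 1 0) * hNC - (N 0 0) ^ 2 * hC2 + (C 0 1 * C 1 0) * hN2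
  · linear_combination (-C 0 1 * N 0 1) * hNC - (N 0 1) ^ 2 * hC2 - (C 0 1) ^ 2 * hN2
  · linear_combination (-C 1 0 * N 1 0) * hNC - (N 1 0) ^ 2 * hC2 - (C 1 0) ^ 2 * hN2
  · linear_combination (C 1 0 * N 0 1) * hNC - (N 0 0) ^ 2 * hC2 + (C 0 1 * C 1 0) * hN2

/-- Kolchin's theorem for `2 × 2` matrices -/
theorem kolchin_matrix {k : Type*} [Field k] {G : Type*} [Group G]
    (R : G →* Matrix (Fin 2) (Fin 2) k) (htr : ∀ g, (R g).trace = 2) (hdet : ∀ g, (R g).det = 1) :
    ∃ e : Fin 2 → k, e ≠ 0 ∧ ∀ g, R g *ᵥ e = e := by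
  by_cases h1 : ∀ g, R g = 1
  · refine ⟨Pi.single 0 1, ?_, fun g => by rw [h1 g, one_mulVec]⟩
    intro h
    have := congrFun h 0
    simp at this
  push Not at h1
  obtain ⟨g₀, hg₀⟩ := h1
  have hnil : ∀ g, (R g - 1).trace = 0 ∧ (R g - 1).det = 0 := by
    intro g
    have h1 := htr g
    have h2 := hdet g
    rw [Matrix.trace_fin_two] at h1 ⊢
    rw [Matrix.det_fin_two] at h2 ⊢
    simp only [Matrix.sub_apply, Matrix.one_apply_eq, Matrix.one_apply_ne (zero_ne_one),
      Matrix.one_apply_ne (one_ne_zero)]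
    constructor
    · linear_combination h1
    · linear_combination h2 - h1
  have hkey : ∀ g, (R g - 1) * (R g₀ - 1) = 0 := by
    intro g
    apply kolchin_mul_eq_zero _ _ (hnil g₀).1 (hnil g₀).2 (hnil g).1 (hnil g).2
    have h3 : (R g₀ - 1) * (R g - 1) = R (g₀ * g) - R g₀ - R g + 1 := by
      rw [map_mul]; noncomm_ring
    rw [h3, Matrix.trace_add, Matrix.trace_sub, Matrix.trace_sub, htr, htr, htr, Matrix.trace_one]
    simp
  have hne : R g₀ - 1 ≠ 0 := sub_ne_zero.2 hg₀
  obtain ⟨j, hj⟩ : ∃ j, (R g₀ - 1) *ᵥ Pi.single j 1 ≠ 0 := by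
    by_contra hcon
    push Not at hcon
    apply hne
    apply Matrix.ext_of_mulVec_single
    intro j
    rw [hcon j, zero_mulVec]
  refine ⟨_, hj, fun g => ?_⟩
  have h4 := congrArg (fun A => A *ᵥ (Pi.single j 1 : Fin 2 → k)) (hkey g)
  simp only [← mulVec_mulVec, zero_mulVec, sub_mulVec, one_mulVec] at h4
  simp only [sub_mulVec, one_mulVec]
  exact sub_eq_zero.1 h4

/-- Kolchin's theorem for a plane -/
theorem kolchin_plane {k : Type*} [Field k] {G : Type*} [Group G]
    {U : Type*} [AddCommGroup U] [Module k U] [Module.Finite k U]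
    (hU : Module.finrank k U = 2)
    (π : G →* Module.End k U) (h : ∀ g, LinearMap.charpoly (π g) = (X - 1) ^ 2) :
    ∃ v : U, v ≠ 0 ∧ ∀ g, π g v = v := by
  let b : Module.Basis (Fin 2) k U := Module.finBasisOfFinrankEq k U hU
  let R : G →* Matrix (Fin 2) (Fin 2) k :=
    ((LinearMap.toMatrixAlgEquiv b : Module.End k U ≃ₐ[k] Matrix (Fin 2) (Fin 2) k) :
      Module.End k U →* Matrix (Fin 2) (Fin 2) k).comp π
  have hR : ∀ g, R g = LinearMap.toMatrix b b (π g) := fun g => rfl
  have hcp : ∀ g, (R g).charpoly = (X - 1) ^ 2 := by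
    intro g
    rw [hR, LinearMap.charpoly_toMatrix, h]
  have hc : ∀ g, (R g).trace = 2 ∧ (R g).det = 1 := by
    intro g
    have h1 := hcp g
    rw [Matrix.charpoly_fin_two] at h1
    have h2 := congrArg (fun P => P.coeff 1) h1
    have h3 := congrArg (fun P => P.coeff 0) h1
    have e : ((X : k[X]) - 1) ^ 2 = X ^ 2 - C 2 * X + C 1 := by
      simp only [map_ofNat, map_one]; ring
    rw [e] at h2 h3
    simp only [coeff_add, coeff_sub, coeff_X_pow, coeff_C_mul, coeff_X_one, coeff_X_zero,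
      coeff_C] at h2 h3
    norm_num at h2 h3
    exact ⟨h2, h3⟩
  obtain ⟨e, he0, he⟩ := kolchin_matrix R (fun g => (hc g).1) (fun g => (hc g).2)
  refine ⟨b.equivFun.symm e, ?_, fun g => ?_⟩
  · intro h0
    apply he0
    have := congrArg b.equivFun h0
    rwa [LinearEquiv.apply_symm_apply, map_zero] at this
  · apply b.equivFun.injective
    have h5 := LinearMap.toMatrix_mulVec_repr b b (π g) (b.equivFun.symm e)
    have h6 : (b.repr (b.equivFun.symm e) : Fin 2 → k) = e := by
      rw [← Module.Basis.equivFun_apply, LinearEquiv.apply_symm_apply]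
    rw [h6, ← hR, he g] at h5
    rw [LinearEquiv.apply_symm_apply, Module.Basis.equivFun_apply, ← h5]

end Fermat.Agent.S36Lib
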