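import Fermat.Agent.S30.Engine
import Fermat.Agent.S36.GLKolchin

/-!
# S36 library, (GL1): the engine of S30 with one more output: if the representation is unipotent on
a subgroup `I`, then `I` fixes a nonzero vector of the eigenspace `W`
-/

set_option autoImplicit false

namespace Fermat.Agent.S36Lib

open Polynomial Matrix Fermat.Agent.S30Lib

/-- comparison of the coefficients of `(X - 1) ^ 2 = X ^ 2 - a X + b` -/
theorem gl_coeffs {R : Type*} [CommRing R] {a b : R}
    (h : ((X : R[X]) - 1) ^ 2 = X ^ 2 - C a * X + C b) : a = 2 ∧ b = 1 := by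
  have e : ((X : R[X]) - 1) ^ 2 = X ^ 2 - C 2 * X + C 1 := by
    simp only [map_ofNat, map_one]; ring
  rw [e] at h
  have h2 := congrArg (fun P => P.coeff 1) h
  have h3 := congrArg (fun P => P.coeff 0) h
  simp only [coeff_add, coeff_sub, coeff_X_pow, coeff_C_mul, coeff_X_one, coeff_X_zero,
    coeff_C] at h2 h3
  norm_num at h2 h3
  exact ⟨h2.symm, h3.symm⟩

/-- an endomorphism of a line is a scalar, read off from the characteristic polynomial -/
theorem gl_scalar_of_charpoly {O E : Type*} [CommRing O] [Field E] [Algebra O E]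
    {U : Type*} [AddCommGroup U] [Module E U] [Module.Finite E U]
    (hU : Module.finrank E U = 1) (f : Module.End E U) (P : O[X])
    (hP : P.map (algebraMap O E) = LinearMap.charpoly f) :
    ∀ v : U, f v = algebraMap O E (-P.coeff 0) • v := by
  intro v
  have h1 : (LinearMap.charpoly f).Monic := LinearMap.charpoly_monic f
  have h2 : (LinearMap.charpoly f).natDegree = 1 := by rw [LinearMap.charpoly_natDegree, hU]
  have h3 := h1.eq_X_add_C h2
  have h4 := LinearMap.aeval_self_charpoly f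
  rw [h3, ← hP, coeff_map] at h4
  simp only [map_add, aeval_X, aeval_C] at h4
  have h5 := congrArg (fun g : Module.End E U => g v) h4
  simp only [LinearMap.add_apply, LinearMap.zero_apply, Module.algebraMap_end_apply] at h5
  rw [map_neg, neg_smul]
  exact eq_neg_of_add_eq_zero_left h5

theorem exists_adicRep_of_quadratic_fix (O : Type) [CommRing O] [IsDomain O]
    [IsDiscreteValuationRing O] [CharZero O]
    {r : ℕ} (M : GQ →* Matrix (Fin r) (Fin r) O) (hM : IsContM M)
    (ε : GQ →* Oˣ) (hε : IsContC ε) (c : GQ) (hc : c * c = 1) (hεc : ε c = -1)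
    (W : Submodule (FractionRing O) (Fin r → FractionRing O)) (hW0 : W ≠ ⊥)
    (hW : ∀ σ, ∀ v ∈ W, actE M σ v ∈ W)
    (D : ℕ) (hD : D ≠ 0) (a : ℕ → O)
    (hεF : ∀ ℓ : ℕ, ℓ.Prime → ¬ ℓ ∣ D → ∀ A : ValuationSubring Qbar, A.LiesOverPrime ℓ →
      ∀ σ : GQ, A.IsFrobeniusAt σ ℓ → ((ε σ : Oˣ) : O) = (ℓ : O))
    (hquad : ∀ ℓ : ℕ, ℓ.Prime → ¬ ℓ ∣ D → ∀ A : ValuationSubring Qbar, A.LiesOverPrime ℓ →
      ∀ σ : GQ, A.IsFrobeniusAt σ ℓ → ∀ v ∈ W,
        actE M σ (actE M σ v) - algebraMap O (FractionRing O) (a ℓ) • actE M σ v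
          + (ℓ : FractionRing O) • v = 0) :
    ∃ ρ : GaloisRepAdic O,
      (∀ ℓ : ℕ, ℓ.Prime → ¬ ℓ ∣ D → ∀ A : ValuationSubring Qbar, A.LiesOverPrime ℓ →
        ∀ σ : GQ, A.IsFrobeniusAt σ ℓ →
          LinearMap.charpoly (ρ.ρ σ) = X ^ 2 - C (a ℓ) * X + C (ℓ : O)) ∧
      ∀ I : Subgroup GQ, (∀ σ ∈ I, LinearMap.charpoly (ρ.ρ σ) = (X - 1) ^ 2) →
        ∃ v ∈ W, v ≠ 0 ∧ ∀ σ ∈ I, actE M σ v = v := by
  choose t ht using exists_quadratic_all O M hM ε hε W hW D hD a hεF hquad
  set d : GQ →* (FractionRing O)ˣ :=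
    (Units.map (algebraMap O (FractionRing O) : O →* FractionRing O)).comp ε with hd
  have hdv : ∀ g, ((d g : (FractionRing O)ˣ) : FractionRing O) =
      algebraMap O (FractionRing O) ((ε g : Oˣ) : O) := fun g => rfl
  have hdc : d c = -1 := by
    apply Units.ext
    rw [hdv, hεc]
    simp
  have hinj : Function.Injective (algebraMap O (FractionRing O)) :=
    IsFractionRing.injective O (FractionRing O)
  obtain ⟨U, hU, hUW, hcase⟩ := exists_stable_of_quadratic (k := FractionRing O)
    (two_ne_zero) (actE M) W hW0 hW d t (fun g v hv => by rw [hdv]; exact ht g v hv) c hc hdc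
  obtain ⟨Y, iA, iM, iFr, iFi, π, hrank, hcont, hone, hchar, hrel⟩ := exists_lattice O M hM U hU
  -- the relation at Frobenius elements
  have hfrob : ∀ ℓ : ℕ, ℓ.Prime → ¬ ℓ ∣ D → ∀ A : ValuationSubring Qbar, A.LiesOverPrime ℓ →
      ∀ σ : GQ, A.IsFrobeniusAt σ ℓ →
        π σ * π σ - a ℓ • π σ + ((ε σ : Oˣ) : O) • (1 : Module.End O Y) = 0 := by
    intro ℓ hℓ hℓD A hA σ hσ
    apply hrel
    intro v hv
    rw [hεF ℓ hℓ hℓD A hA σ hσ, map_natCast]
    exact hquad ℓ hℓ hℓD A hA σ hσ v (hUW hv)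
  rcases hcase with h1 | ⟨h2, hcp⟩
  · obtain ⟨ρ, hρ1, hρ2⟩ := exists_rep_of_rank_one O (hrank.trans h1) π hcont ε hε
    refine ⟨ρ, ?_, ?_⟩
    · intro ℓ hℓ hℓD A hA σ hσ
      rw [hρ2 σ (a ℓ) (hfrob ℓ hℓ hℓD A hA σ hσ), hεF ℓ hℓ hℓD A hA σ hσ]
    · intro I hI
      have hUne : U ≠ ⊥ := by
        intro h
        rw [h, finrank_bot] at h1
        omega
      obtain ⟨v₀, hv₀U, hv₀⟩ := Submodule.exists_mem_ne_zero_of_ne_bot hUne
      -- every element acts by an integral scalar
      have hsc : ∀ σ, ∃ s : O, ∀ v ∈ U, actE M σ v = algebraMap O (FractionRing O) s • v := by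
        intro σ
        refine ⟨-(LinearMap.charpoly (π σ)).coeff 0, fun v hv => ?_⟩
        have := gl_scalar_of_charpoly h1 ((actE M σ).restrict (hU σ)) _ (hchar σ) ⟨v, hv⟩
        exact congrArg Subtype.val this
      refine ⟨v₀, hUW hv₀U, hv₀, fun σ hσ => ?_⟩
      obtain ⟨s, hs⟩ := hsc σ
      obtain ⟨s', hs'⟩ := hsc σ⁻¹
      have hss : s' * s = 1 := by
        have e1 : actE M σ⁻¹ (actE M σ v₀) = v₀ := by
          rw [← Module.End.mul_apply, ← map_mul, inv_mul_cancel, map_one, Module.End.one_apply]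
        rw [hs v₀ hv₀U, map_smul, hs' v₀ hv₀U, smul_smul, ← map_mul] at e1
        have e2 : (algebraMap O (FractionRing O) (s * s') - 1) • v₀ = 0 := by
          rw [sub_smul, e1, one_smul, sub_self]
        rcases smul_eq_zero.1 e2 with h | h
        · apply hinj
          rw [map_one, mul_comm]
          exact sub_eq_zero.1 h
        · exact absurd h hv₀
      have hr := hrel σ (s + ((ε σ : Oˣ) : O) * s') ((ε σ : Oˣ) : O) (by
        intro v hv
        rw [hs v hv, map_smul, hs v hv, smul_smul, smul_smul, ← sub_smul, ← add_smul, ← map_mul,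
          ← map_mul, ← map_sub, ← map_add]
        have : s * s - (s + ((ε σ : Oˣ) : O) * s') * s + ((ε σ : Oˣ) : O) = 0 := by
          linear_combination (-((ε σ : Oˣ) : O)) * hss
        rw [this, map_zero, zero_smul])
      have hcpσ := hρ2 σ _ hr
      rw [hI σ hσ] at hcpσ
      obtain ⟨e1, e2⟩ := gl_coeffs hcpσ
      rw [e2, one_mul] at e1
      have hs1 : s = 1 := by
        have : (s - 1) ^ 2 = 0 := by linear_combination s * e1 - hss
        exact sub_eq_zero.1 (pow_eq_zero_iff (two_ne_zero) |>.1 this)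
      rw [hs v₀ hv₀U, hs1, map_one, one_smul]
  · refine ⟨{ V := Y, finrank_eq := hrank.trans h2, ρ := π, isAdicContinuous := hcont }, ?_, ?_⟩
    · intro ℓ hℓ hℓD A hA σ hσ
      show LinearMap.charpoly (π σ) = _
      apply Polynomial.map_injective _ (IsFractionRing.injective O (FractionRing O))
      rw [hchar σ, hcp σ, hdv, hεF ℓ hℓ hℓD A hA σ hσ]
      -- `t σ = a ℓ`
      have hUne : U ≠ ⊥ := by
        intro h
        rw [h, finrank_bot] at h2
        omega
      obtain ⟨v, hvU, hv0⟩ := Submodule.exists_mem_ne_zero_of_ne_bot hUne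
      have e1 := ht σ v (hUW hvU)
      have e2 := hquad ℓ hℓ hℓD A hA σ hσ v (hUW hvU)
      rw [hεF ℓ hℓ hℓD A hA σ hσ, map_natCast] at e1
      have e3 : (t σ - algebraMap O (FractionRing O) (a ℓ)) • actE M σ v = 0 := by
        rw [sub_smul]
        have := congrArg₂ (· - ·) e2 e1
        simp only [sub_zero] at this
        rw [← this]
        abel
      have e4 : actE M σ v ≠ 0 := by
        intro h
        apply hv0
        have : actE M σ⁻¹ (actE M σ v) = v := by
          rw [← Module.End.mul_apply, ← map_mul, inv_mul_cancel, map_one, Module.End.one_apply]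
        rw [← this, h, map_zero]
      have e5 : t σ = algebraMap O (FractionRing O) (a ℓ) := by
        rcases smul_eq_zero.1 e3 with h | h
        · exact sub_eq_zero.1 h
        · exact absurd h e4
      rw [e5]
      simp
    · intro I hI
      obtain ⟨v, hv0, hv⟩ := kolchin_plane h2 ((dn_pi M U hU).comp I.subtype) (by
        intro g
        show LinearMap.charpoly ((actE M g.1).restrict (hU g.1)) = _
        have h3 : LinearMap.charpoly (π g.1) = (X - 1) ^ 2 := hI g.1 g.2
        rw [← hchar, h3]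
        simp)
      refine ⟨v.1, hUW v.2, fun h => hv0 (Subtype.ext h), fun σ hσ => ?_⟩
      exact congrArg Subtype.val (hv ⟨σ, hσ⟩)

end Fermat.Agent.S36Lib
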