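import Fermat.Agent.S30.Wire
import Fermat.Agent.S36.Defs
import Fermat.Agent.S36.GLEngine
import Fermat.Agent.S36.GLDescent
import Fermat.Agent.S36.GLIota
import Fermat.Agent.Lib.FrobeniusExists
import Fermat.Agent.S22.Main.Final
import Fermat.Prelude.Def_GaloisRep_LocalConditions

/-!
# S36 library, (GL4): S36 from (NU), matrix form, and strong multiplicity one
-/

set_option autoImplicit false
set_option linter.style.haveILetI false
set_option linter.overlappingInstances false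

namespace Fermat.Agent.S36Lib

open Polynomial Matrix Fermat.Agent.S30Lib

theorem gl_padicInt_hom_injective (p : ℕ) [Fact p.Prime] {O : Type*} [CommRing O] [IsDomain O]
    [CharZero O] (j : ℤ_[p] →+* O) : Function.Injective j := by
  rw [injective_iff_map_eq_zero]
  intro x hx
  by_contra hx0
  have h1 := PadicInt.unitCoeff_spec hx0
  rw [h1, map_mul, map_pow, map_natCast] at hx
  rcases mul_eq_zero.1 hx with h | h
  · exact ((PadicInt.unitCoeff hx0).isUnit.map j).ne_zero h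
  · have h2 : (p : O) ≠ 0 := by exact_mod_cast (Fact.out : p.Prime).ne_zero
    exact pow_ne_zero _ h2 h

open Fermat.Agent.ESLib in
/-- the trunk over `O`, with its `ℤ_p`-structure -/
theorem gl_trunk_O {N p : ℕ} [NeZero N] [Fact p.Prime] {r : ℕ}
    {Θ : TT0 N →+* Matrix (Fin r) (Fin r) ℤ}
    {ρ : (n : ℕ) → ESLib.GQ →* Matrix (Fin r) (Fin r) (ZMod (p ^ n))} (h : IsESData N p r Θ ρ)
    (O : Type) [CommRing O] [IsLocalRing O]
    (hp : (p : O) ∈ IsLocalRing.maximalIdeal O)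
    (Mp : S30Lib.GQ →* Matrix (Fin r) (Fin r) ℤ_[p])
    (hMp : ∀ n σ, (Mp σ).map (PadicInt.toZModPow n) = ρ n σ) (j : ℤ_[p] →+* O) :
    IsContM (mapM j Mp) ∧
      (∀ (σ : S30Lib.GQ) (T : TT0 N), mapM j Mp σ * (Θ T).map (Int.castRingHom O) =
        (Θ T).map (Int.castRingHom O) * mapM j Mp σ) ∧
      (∀ (ℓ : ℕ) (hℓ : ℓ.Prime) (hℓN : ¬ ℓ ∣ N), ℓ ≠ p →
        ∀ A : ValuationSubring Qbar, A.LiesOverPrime ℓ → ∀ σ : S30Lib.GQ, A.IsFrobeniusAt σ ℓ →
          mapM j Mp σ * mapM j Mp σ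
            - (Θ (CuspForm.heckeAlgebra.T hℓ hℓN hℓN)).map (Int.castRingHom O) * mapM j Mp σ
            + (ℓ : Matrix (Fin r) (Fin r) O) = 0) := by
  have hred : ∀ (n : ℕ) (T : TT0 N),
      ((Θ T).map (Int.castRingHom ℤ_[p])).map (PadicInt.toZModPow n) = redM p n (Θ T) :=
    fun n T => w30_map_map _ _
  refine ⟨?_, ?_, ?_⟩
  · intro n
    obtain ⟨L, hL, hL1⟩ := h.level n
    refine ⟨L, hL, fun σ hσ i k => ?_⟩
    have h1 : (Mp σ).map (PadicInt.toZModPow n) = 1 := by rw [hMp, hL1 σ hσ]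
    have h2 : (mapM j Mp σ - 1) i k = j ((Mp σ - 1) i k) := by
      by_cases hik : i = k
      · subst hik; simp
      · simp [hik]
    rw [h2]
    apply padicInt_hom_mem p hp
    have h3 := congrFun (congrFun h1 i) k
    rw [Matrix.map_apply] at h3
    rw [Matrix.sub_apply, map_sub, h3]
    by_cases hik : i = k
    · subst hik; simp
    · simp [hik]
  · intro σ T
    have h1 : Mp σ * (Θ T).map (Int.castRingHom ℤ_[p]) =
        (Θ T).map (Int.castRingHom ℤ_[p]) * Mp σ := by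
      apply padic_matrix_ext p
      intro n
      rw [Matrix.map_mul, Matrix.map_mul, hMp, hred]
      exact h.comm n σ T
    have h2 := congrArg (fun A => A.map j) h1
    simp only [Matrix.map_mul, w30_map_map] at h2
    exact h2
  · intro ℓ hℓ hℓN hℓp A hA σ hσ
    have h1 : Mp σ * Mp σ - (Θ (CuspForm.heckeAlgebra.T hℓ hℓN hℓN)).map (Int.castRingHom ℤ_[p])
        * Mp σ + (ℓ : Matrix (Fin r) (Fin r) ℤ_[p]) = 0 := by
      apply padic_matrix_ext p
      intro n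
      have h2 := h.es n ℓ hℓ hℓN hℓp A hA σ hσ
      have h3 : ((ℓ : Matrix (Fin r) (Fin r) ℤ_[p])).map (PadicInt.toZModPow n) =
          (ℓ : Matrix (Fin r) (Fin r) (ZMod (p ^ n))) :=
        map_natCast (PadicInt.toZModPow n).mapMatrix ℓ
      rw [Matrix.map_add _ (map_add _), Matrix.map_sub _ (map_sub _), Matrix.map_mul,
        Matrix.map_mul, hMp, hred, h3, h2]
      simp
    have h2 := congrArg (fun A => A.map j) h1
    have h3 : ((ℓ : Matrix (Fin r) (Fin r) ℤ_[p])).map j = (ℓ : Matrix (Fin r) (Fin r) O) :=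
      map_natCast j.mapMatrix ℓ
    simp only [Matrix.map_add _ (map_add j), Matrix.map_sub _ (map_sub j), Matrix.map_mul,
      w30_map_map, h3] at h2
    rw [mapM_apply, h2]
    simp

open Fermat.Agent.ESLib in
theorem s36_of_nu (nu : NUStatement) (smo : SMOStatement)
    {M : ℕ} [NeZero M] {g : CuspForm (CongruenceSubgroup.Gamma0 M) 2} (hg : g.IsNewform)
    (lam : ℕ) [Fact lam.Prime]
    (S : Finset ℕ)
    (O' : Type) [CommRing O'] [IsDomain O'] [IsDiscreteValuationRing O']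
    [IsAdicComplete (IsLocalRing.maximalIdeal O') O'] [Finite (IsLocalRing.ResidueField O')]
    [CharZero O'] (hlamO' : (lam : O') ∈ IsLocalRing.maximalIdeal O')
    (chig : CuspForm.heckeAlgebra M 2 (↑S : Set ℕ) →+* ℂ)
    (hchig : ∀ (ℓ : ℕ) (hℓ : ℓ.Prime) (hℓM : ¬ ℓ ∣ M) (hℓS : ℓ ∉ (↑S : Set ℕ)),
      chig (CuspForm.heckeAlgebra.T hℓ hℓM hℓS) = ModularFormClass.qCoeff g ℓ)
    (iota : chig.range →+* O')
    (hlamS : lam ∈ S) (hMS : ∀ q : ℕ, q.Prime → q ∣ M → q ∈ S) :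
    ∃ (O'' : Type) (_ : CommRing O'') (_ : IsDomain O'') (_ : IsDiscreteValuationRing O'')
      (_ : IsAdicComplete (IsLocalRing.maximalIdeal O'') O'')
      (_ : Finite (IsLocalRing.ResidueField O''))
      (_ : CharZero O'') (_ : Algebra O' O'') (_ : Module.Finite O' O'')
      (_ : IsLocalHom (algebraMap O' O'')),
      Function.Injective (algebraMap O' O'') ∧
      ∃ ρ : GaloisRepAdic O'',
        (∀ (ℓ : ℕ) (hℓ : ℓ.Prime) (hℓM : ¬ ℓ ∣ M) (hℓS : ℓ ∉ (↑S : Set ℕ)),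
          ∀ A : ValuationSubring (AlgebraicClosure ℚ), A.LiesOverPrime ℓ →
            ∀ σ : AlgebraicClosure ℚ ≃ₐ[ℚ] AlgebraicClosure ℚ, A.IsFrobeniusAt σ ℓ →
              LinearMap.charpoly (ρ.ρ σ) =
                X ^ 2 - C (algebraMap O' O'' ((iota.comp chig.rangeRestrict)
                  (CuspForm.heckeAlgebra.T hℓ hℓM hℓS))) * X + C ((ℓ : O''))) ∧
        (∀ q : ℕ, q.Prime → q ≠ lam → M.factorization q = 2 →
          ¬ ρ.IsUnipotentOnInertiaAt q) := by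
  classical
  obtain ⟨r, Θ, ρ₀, hES, hNU⟩ := nu M lam
  obtain ⟨Mp, hMp⟩ := exists_padic_lift lam ρ₀ hES.compat
  obtain ⟨j⟩ := exists_padicInt_hom lam O' hlamO'
  obtain ⟨hMc, hMcomm, hMes⟩ := gl_trunk_O hES O' hlamO' Mp hMp j
  set Mo : S30Lib.GQ →* Matrix (Fin r) (Fin r) O' := mapM j Mp with hMo
  obtain ⟨ε, hεc, hεF, hεI, hεconj⟩ := w30_cyclo_O lam O' hlamO'
  let χ : CuspForm.heckeAlgebra M 2 (↑S : Set ℕ) →+* O' := iota.comp chig.rangeRestrict
  let ι : CuspForm.heckeAlgebra M 2 (↑S : Set ℕ) →+* TT0 M := incS M S hMS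
  have hι : Function.Injective ι := Subalgebra.inclusion_injective _
  let E := FractionRing O'
  let χE : CuspForm.heckeAlgebra M 2 (↑S : Set ℕ) →+* E := (algebraMap O' E).comp χ
  obtain ⟨v₀, hv₀, hv₀e⟩ := exists_eigenvector (Θ.comp ι) (hES.inj.comp hι) χE
  -- the eigenspace
  let W : Submodule E (Fin r → E) :=
    { carrier := {v | ∀ t, (Θ (ι t)).map (Int.castRingHom E) *ᵥ v = χE t • v}
      add_mem' := by
        intro v w hv hw t
        rw [Matrix.mulVec_add, hv t, hw t, smul_add]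
      zero_mem' := by
        intro t
        rw [Matrix.mulVec_zero, smul_zero]
      smul_mem' := by
        intro c v hv t
        rw [Matrix.mulVec_smul, hv t, smul_comm] }
  have hWmem : ∀ v, v ∈ W ↔ ∀ t, (Θ (ι t)).map (Int.castRingHom E) *ᵥ v = χE t • v :=
    fun v => Iff.rfl
  have hW0 : W ≠ ⊥ := by
    intro h
    have : v₀ ∈ W := hv₀e
    rw [h] at this
    exact hv₀ ((Submodule.mem_bot E).1 this)
  have hcommE : ∀ (σ : S30Lib.GQ) (T : TT0 M),
      (Mo σ).map (algebraMap O' E) * (Θ T).map (Int.castRingHom E) =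
        (Θ T).map (Int.castRingHom E) * (Mo σ).map (algebraMap O' E) := by
    intro σ T
    have h2 := congrArg (fun A => A.map (algebraMap O' E)) (hMcomm σ T)
    simp only [Matrix.map_mul, w30_map_map] at h2
    exact h2
  have hW : ∀ σ, ∀ v ∈ W, actE Mo σ v ∈ W := by
    intro σ v hv t
    rw [act_apply, mapM_apply, Matrix.mulVec_mulVec, ← hcommE, ← Matrix.mulVec_mulVec, hv t,
      Matrix.mulVec_smul]
  -- the bad set
  let D : ℕ := M * ∏ q ∈ S.filter Nat.Prime, q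
  have hD : D ≠ 0 := mul_ne_zero (NeZero.ne M)
    (Finset.prod_ne_zero_iff.2 fun q hq => (Finset.mem_filter.1 hq).2.ne_zero)
  have hDN : ∀ ℓ : ℕ, ¬ ℓ ∣ D → ¬ ℓ ∣ M := fun ℓ h h' => h (Dvd.dvd.mul_right h' _)
  have hDS : ∀ ℓ : ℕ, ℓ.Prime → ¬ ℓ ∣ D → ℓ ∉ (↑S : Set ℕ) := by
    intro ℓ hℓ h hS
    apply h
    have h1 := Finset.dvd_prod_of_mem (fun q => q)
      (Finset.mem_filter.2 ⟨Finset.mem_coe.1 hS, hℓ⟩)
    exact Dvd.dvd.mul_left h1 _
  have hDp : ∀ ℓ : ℕ, ℓ.Prime → ¬ ℓ ∣ D → ℓ ≠ lam := by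
    intro ℓ hℓ h e
    exact hDS ℓ hℓ h (e ▸ Finset.mem_coe.2 hlamS)
  let a : ℕ → O' := fun ℓ =>
    if h : ℓ.Prime ∧ ¬ ℓ ∣ M ∧ ℓ ∉ (↑S : Set ℕ) then
      χ (CuspForm.heckeAlgebra.T h.1 h.2.1 h.2.2) else 0
  have ha : ∀ (ℓ : ℕ) (hℓ : ℓ.Prime) (hℓN : ¬ ℓ ∣ M) (hℓS : ℓ ∉ (↑S : Set ℕ)),
      a ℓ = χ (CuspForm.heckeAlgebra.T hℓ hℓN hℓS) := by
    intro ℓ hℓ hℓN hℓS
    simp only [a]
    rw [dif_pos ⟨hℓ, hℓN, hℓS⟩]
  have hquad : ∀ ℓ : ℕ, ℓ.Prime → ¬ ℓ ∣ D → ∀ A : ValuationSubring Qbar, A.LiesOverPrime ℓ →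
      ∀ σ : S30Lib.GQ, A.IsFrobeniusAt σ ℓ → ∀ v ∈ W,
        actE Mo σ (actE Mo σ v) - algebraMap O' (FractionRing O') (a ℓ) • actE Mo σ v
          + (ℓ : FractionRing O') • v = 0 := by
    intro ℓ hℓ hℓD A hA σ hσ v hv
    have hℓN := hDN ℓ hℓD
    have hℓS := hDS ℓ hℓ hℓD
    have h1 := hMes ℓ hℓ hℓN (hDp ℓ hℓ hℓD) A hA σ hσ
    have h2 := congrArg (fun A => A.map (algebraMap O' E)) h1
    have h3 : ((ℓ : Matrix (Fin r) (Fin r) O')).map (algebraMap O' E) =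
        (ℓ : Matrix (Fin r) (Fin r) E) := map_natCast (algebraMap O' E).mapMatrix ℓ
    simp only [Matrix.map_add _ (map_add (algebraMap O' E)),
      Matrix.map_sub _ (map_sub (algebraMap O' E)), Matrix.map_mul, w30_map_map, h3] at h2
    have h4 := congrArg (fun A => A *ᵥ v) h2
    simp only [Matrix.add_mulVec, Matrix.sub_mulVec, ← Matrix.mulVec_mulVec] at h4
    have h5 : ι (CuspForm.heckeAlgebra.T hℓ hℓN hℓS) = CuspForm.heckeAlgebra.T hℓ hℓN hℓN := rfl
    have h6 := hW σ v hv (CuspForm.heckeAlgebra.T hℓ hℓN hℓS)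
    rw [h5, act_apply, mapM_apply] at h6
    rw [h6] at h4
    rw [act_apply, act_apply, mapM_apply, ha ℓ hℓ hℓN hℓS]
    have h7 : (ℓ : Matrix (Fin r) (Fin r) E) *ᵥ v = (ℓ : E) • v := by
      have : (ℓ : Matrix (Fin r) (Fin r) E) = (ℓ : E) • (1 : Matrix (Fin r) (Fin r) E) := by
        rw [← Algebra.algebraMap_eq_smul_one, map_natCast]
      rw [this, Matrix.smul_mulVec, Matrix.one_mulVec]
    have h8 : (Matrix.map (0 : Matrix (Fin r) (Fin r) O') (algebraMap O' E)) *ᵥ v = 0 := by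
      rw [Matrix.map_zero _ (map_zero _), Matrix.zero_mulVec]
    rw [h7, h8] at h4
    exact h4
  obtain ⟨ρ, hρ2, hfix⟩ := exists_adicRep_of_quadratic_fix O' Mo hMc ε hεc complexConjugation
    complexConjugation_mul_self hεconj W hW0 hW D hD a
    (fun ℓ hℓ hℓD A hA σ hσ => hεF ℓ hℓ (hDp ℓ hℓ hℓD) A hA σ hσ) hquad
  have hdvd : ∀ ℓ : ℕ, ℓ.Prime → ¬ ℓ ∣ M → ℓ ∉ (↑S : Set ℕ) → ¬ ℓ ∣ D := by
    intro ℓ hℓ hℓN hℓS h
    rcases (Nat.Prime.dvd_mul hℓ).1 h with h | h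
    · exact hℓN h
    · obtain ⟨q, hq, hqd⟩ := (Prime.dvd_finsetProd_iff hℓ.prime _).1 h
      obtain ⟨hqS, hqp⟩ := Finset.mem_filter.1 hq
      rw [(Nat.prime_dvd_prime_iff_eq hℓ hqp).1 hqd] at hℓS
      exact hℓS (Finset.mem_coe.2 hqS)
  refine ⟨O', inferInstance, inferInstance, inferInstance, inferInstance, inferInstance,
    inferInstance, Algebra.id O', inferInstance, ?_, Function.injective_id, ρ, ?_, ?_⟩
  · exact ⟨fun a h => h⟩
  · intro ℓ hℓ hℓN hℓS A hA σ hσ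
    rw [hρ2 ℓ hℓ (hdvd ℓ hℓ hℓN hℓS) A hA σ hσ, ha ℓ hℓ hℓN hℓS]
    rfl
  · intro q hq hqlam hfac hun
    obtain ⟨A, hA⟩ := Fermat.Agent.FrobLib.exists_liesOverPrime hq
    obtain ⟨v, hvW, hv0, hvfix⟩ := hfix (A.inertiaSubgroupIn ℚ) (hun A hA)
    have hqM : q ∣ M := Nat.dvd_of_factorization_pos (by rw [hfac]; norm_num)
    haveI : NeZero (M / q) :=
      ⟨(Nat.div_pos (Nat.le_of_dvd (Nat.pos_of_ne_zero (NeZero.ne M)) hqM) hq.pos).ne'⟩
    obtain ⟨t, hkill, ht⟩ := smo hg S hMS chig hchig q hq hqM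
    obtain ⟨c, hc⟩ := hNU q hq hqlam hfac (incS M S hMS t) hkill A hA
    have hJ : Function.Injective ((algebraMap O' E).comp j) :=
      (IsFractionRing.injective O' E).comp (gl_padicInt_hom_injective lam j)
    have hz := gl_descent (fun σ => Mp σ) (fun n σ => ρ₀ n σ) hMp
      (A.inertiaSubgroupIn ℚ : Set S30Lib.GQ) (Θ (incS M S hMS t)) c hc
      ((algebraMap O' E).comp j) hJ v (by
        intro σ hσ
        have h1 := hvfix σ hσ
        rw [act_apply, mapM_apply, hMo, mapM_apply, Matrix.map_map] at h1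
        exact h1)
    have h2 := hvW t
    rw [show ι t = incS M S hMS t from rfl, hz] at h2
    have h3 : χE t = 0 := (smul_eq_zero.1 h2.symm).resolve_right hv0
    have h4 : χ t = 0 := (IsFractionRing.injective O' E) (h3.trans (map_zero _).symm)
    haveI : Module.Finite ℤ (CuspForm.heckeAlgebra M 2 (↑S : Set ℕ)) :=
      Fermat.Agent.S22Main.finite_heckeAlgebra M 2 _
    have h5 : chig.rangeRestrict t = 0 :=
      gl_iota_injective chig iota (h4.trans (map_zero _).symm)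
    exact ht (congrArg Subtype.val h5)

end Fermat.Agent.S36Lib
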