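import Fermat.Agent.S36.K0f

/-!
# S36 block (K0b): prime to `q` roots of units of `K0` lie in `K0`
-/

set_option autoImplicit false

namespace Fermat.Agent.S36Lib

open NumberField Polynomial
open scoped Pointwise

local notation "Qb" => AlgebraicClosure ℚ
local notation "GQ" => (AlgebraicClosure ℚ ≃ₐ[ℚ] AlgebraicClosure ℚ)

theorem K0b_mem_of_pow_mem (A : ValuationSubring Qb) {m : ℕ} (hm : m ≠ 0) {w : Qb}
    (h : w ^ m ∈ A) : w ∈ A := by
  rw [← A.valuation_le_one_iff] at h ⊢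
  rw [map_pow] at h
  exact (pow_le_one_iff hm).mp h

theorem K0b_isU_of_pow (A : ValuationSubring Qb) {m : ℕ} (hm : m ≠ 0) {w : Qb}
    (h : IsU A (w ^ m)) : IsU A w :=
  ⟨K0b_mem_of_pow_mem A hm h.1, K0b_mem_of_pow_mem A hm (by rw [inv_pow]; exact h.2)⟩

theorem K0b_isU_pow (A : ValuationSubring Qb) {w : Qb} (h : IsU A w) (n : ℕ) : IsU A (w ^ n) :=
  ⟨A.pow_mem h.1 n, by rw [← inv_pow]; exact A.pow_mem h.2 n⟩

theorem K0b_isU_natCast (A : ValuationSubring Qb) {q : ℕ} (hq : q.Prime)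
    (hA : A.LiesOverPrime q) {m : ℕ} (hm : ¬ q ∣ m) : IsU A (m : Qb) := by
  have h1 : A.valuation ((m : ℤ) : Qb) = 1 :=
    S05Lib.val_int_eq_one hq hA (by exact_mod_cast hm)
  push_cast at h1
  refine ⟨(A.valuation_le_one_iff _).mp h1.le, ?_⟩
  rw [← A.valuation_le_one_iff, map_inv₀, h1, inv_one]

theorem mem_K0_of_pow (A : ValuationSubring Qb) {q : ℕ} (hq : q.Prime)
    (hA : A.LiesOverPrime q) {m : ℕ} (hm : ¬ q ∣ m) {w : Qb} (hu : w ^ m ∈ K0 A)
    (hU : IsU A (w ^ m)) : w ∈ K0 A := by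
  have hm0 : m ≠ 0 := by rintro rfl; exact hm (dvd_zero q)
  by_cases hw0 : w = 0
  · rw [hw0]; exact (K0 A).zero_mem
  have hw : IsU A w := K0b_isU_of_pow A hm0 hU
  have hd : aeval w (derivative (X ^ m - C (⟨w ^ m, hu⟩ : K0 A))) = (m : Qb) * w ^ (m - 1) := by
    simp [derivative_X_pow]
  refine mem_K0_of_simple_root A (X ^ m - C (⟨w ^ m, hu⟩ : K0 A)) ?_ hw.1 ?_ ?_ ?_
  · intro i
    rw [coeff_sub, coeff_X_pow, coeff_C]
    split_ifs
    · exact A.sub_mem A.one_mem hU.1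
    · simpa using A.one_mem
    · simpa using hU.1
    · simpa using A.zero_mem
  · simp
  · rw [hd]
    exact (K0b_isU_natCast A hq hA hm).mul (K0b_isU_pow A hw _)
  · rw [hd]
    exact mul_ne_zero (by exact_mod_cast hm0) (pow_ne_zero _ hw0)

theorem exists_root_K0 (A : ValuationSubring Qb) {q : ℕ} (hq : q.Prime)
    (hA : A.LiesOverPrime q) {m : ℕ} (hm : ¬ q ∣ m) {u : Qb} (hu : u ∈ K0 A) (hU : IsU A u) :
    ∃ w ∈ K0 A, IsU A w ∧ w ^ m = u := by
  have hm0 : m ≠ 0 := by rintro rfl; exact hm (dvd_zero q)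
  obtain ⟨w, hw⟩ := IsAlgClosed.exists_pow_nat_eq u (Nat.pos_of_ne_zero hm0)
  exact ⟨w, mem_K0_of_pow A hq hA hm (by rw [hw]; exact hu) (by rw [hw]; exact hU),
    K0b_isU_of_pow A hm0 (by rw [hw]; exact hU), hw⟩

end Fermat.Agent.S36Lib
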