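import Fermat.Agent.S36.K0Defs

/-!
# S36 block (K0f): Hensel for simple roots: a simple root (mod the maximal ideal) of a polynomial
over `A ∩ K0` lies in `K0`
-/

set_option autoImplicit false

namespace Fermat.Agent.S36Lib

open NumberField Polynomial
open scoped Pointwise

local notation "Qb" => AlgebraicClosure ℚ
local notation "GQ" => (AlgebraicClosure ℚ ≃ₐ[ℚ] AlgebraicClosure ℚ)

/-- second order Taylor expansion with remainder in `A` -/
theorem K0f_taylor (A : ValuationSubring Qb) (p : Qb[X]) (hp : ∀ i, p.coeff i ∈ A) {x y : Qb}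
    (hx : x ∈ A) (hy : y ∈ A) :
    ∃ k ∈ A, p.eval (x + y) = p.eval x + (derivative p).eval x * y + k * y ^ 2 := by
  have hl : p ∈ Polynomial.lifts A.subtype := by
    rw [Polynomial.lifts_iff_coeff_lifts]
    intro n
    exact ⟨⟨p.coeff n, hp n⟩, rfl⟩
  obtain ⟨P, rfl⟩ := hl
  obtain ⟨k, hk⟩ := Polynomial.binomExpansion P (⟨x, hx⟩ : A) ⟨y, hy⟩
  refine ⟨k, k.2, ?_⟩
  have h := congrArg A.subtype hk
  have e1 : ∀ (Q : A[X]) (z : A), (Q.map A.subtype).eval (z : Qb) = A.subtype (Q.eval z) := by
    intro Q z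
    exact Polynomial.eval_map_apply A.subtype z
  simp only [coe_mapRingHom]
  rw [Polynomial.derivative_map]
  have e2 := e1 P (⟨x, hx⟩ + ⟨y, hy⟩)
  have e3 := e1 P ⟨x, hx⟩
  have e4 := e1 (derivative P) ⟨x, hx⟩
  simp only [map_add, map_mul, map_pow] at h
  change (P.map A.subtype).eval (x + y) = _ at e2
  change (P.map A.subtype).eval x = _ at e3
  change ((derivative P).map A.subtype).eval x = _ at e4
  rw [e2, e3, e4, h]
  rfl

/-- NOTE: the hypothesis `h0` is necessary (`IsU A 0` holds by the junk value `0⁻¹ = 0`, and the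
statement is false for `P = 0`). -/
theorem mem_K0_of_simple_root (A : ValuationSubring Qb) (P : (K0 A)[X])
    (hP : ∀ i, ((P.coeff i : K0 A) : Qb) ∈ A) {a : Qb} (ha : a ∈ A)
    (hroot : aeval a P = 0) (hsimple : IsU A (aeval a (derivative P)))
    (h0 : aeval a (derivative P) ≠ 0) : a ∈ K0 A := by
  rw [mem_K0_iff]
  intro σ hσ
  obtain ⟨hb, hba⟩ := inertia_mem hσ ha
  set p : Qb[X] := P.map (algebraMap (K0 A) Qb) with hp
  have hpc : ∀ i, p.coeff i ∈ A := by
    intro i
    rw [hp, coeff_map]
    exact hP i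
  have hpa : p.eval a = 0 := by
    rw [hp, eval_map_algebraMap]; exact hroot
  have hda : (derivative p).eval a = aeval a (derivative P) := by
    rw [hp, derivative_map, eval_map_algebraMap]
  have hσp : p.map (σ : Qb →+* Qb) = p := by
    ext i
    rw [coeff_map, hp, coeff_map]
    exact mem_K0_iff.mp (P.coeff i).2 σ hσ
  have hpb : p.eval (σ a) = 0 := by
    have h1 : (p.map (σ : Qb →+* Qb)).eval ((σ : Qb →+* Qb) a) = (σ : Qb →+* Qb) (p.eval a) :=
      Polynomial.eval_map_apply _ a
    rw [hσp, hpa, map_zero] at h1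
    exact h1
  have hy : σ a - a ∈ A := A.sub_mem hb ha
  obtain ⟨k, hk, hexp⟩ := K0f_taylor A p hpc ha hy
  rw [add_sub_cancel, hpb, hpa, zero_add, hda] at hexp
  by_contra hne
  have hne' : σ a - a ≠ 0 := sub_ne_zero.mpr hne
  have h2 : aeval a (derivative P) = -(k * (σ a - a)) := by
    have : (aeval a (derivative P) + k * (σ a - a)) * (σ a - a) = 0 := by
      rw [hexp]; ring
    rcases mul_eq_zero.mp this with h | h
    · exact eq_neg_of_add_eq_zero_left h
    · exact absurd h hne'
  have h3 : aeval a (derivative P) ∈ A.nonunits := by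
    rw [h2, ValuationSubring.mem_nonunits_iff, Valuation.map_neg, map_mul]
    have hk1 : A.valuation k ≤ 1 := (A.valuation_le_one_iff _).mpr hk
    have hy1 : A.valuation (σ a - a) < 1 := (ValuationSubring.mem_nonunits_iff A).mp hba
    calc A.valuation k * A.valuation (σ a - a) ≤ 1 * A.valuation (σ a - a) :=
          mul_le_mul_left hk1 _
      _ = A.valuation (σ a - a) := one_mul _
      _ < 1 := hy1
  exact ((isU_iff_not_mem_nonunits hsimple.1 h0).mp hsimple) h3

end Fermat.Agent.S36Lib
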