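import Fermat.Agent.S36.TrunkClause
import Fermat.Agent.S36.NrmAux
import Fermat.Agent.S36.NrmKum
import Fermat.Agent.S36.GLWire
import Fermat.Agent.SMO.Killer

/-!
# S36: everything from the geometric core `NUCore`

`NUCore` is (NU) for Kummer generators at the levels `q ^ 2 * M`, `q ∤ M`, where `M` is divisible
by a prime `r ≡ 11 mod 12` and by `2` or `3`.
-/

set_option autoImplicit false
set_option synthInstance.maxHeartbeats 400000

open AlgebraicCurve ModularCurve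

namespace Fermat.Agent.S36Lib

open Fermat.Agent.S18Lib Fermat.Agent.S24Lib Fermat.Agent.ESLib Fermat.Agent.S34Lib
  Fermat.Agent.S37Lib

/-- the geometric core of S36 -/
def NUCore : Prop :=
  ∀ (M q p : ℕ) [NeZero M] [NeZero q] [NeZero (q ^ 2 * M)] [NeZero (q * M)]
    (h : q * M * q = q ^ 2 * M), q.Prime → p.Prime → q ≠ p → ¬ q ∣ M →
    (∃ r : ℕ, r.Prime ∧ r % 12 = 11 ∧ r ∣ M) → (2 ∣ M ∨ 3 ∣ M) →
    NUKummer (q ^ 2 * M) (q * M) q p h

theorem NUF_cast {N N' N₂ N₂' q p : ℕ} [NeZero N] [NeZero N'] [NeZero N₂] [NeZero N₂'] [NeZero q]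
    (h : N' * q = N) (h₂ : N₂' * q = N₂) (e' : N' = N₂') (H : NUKummer N₂ N₂' q p h₂) :
    NUKummer N N' q p h := by
  subst e'
  obtain rfl : N = N₂ := h.symm.trans h₂
  exact H

/-- one auxiliary prime, or nothing if it already divides the level -/
theorem NUF_step {N N' q p r : ℕ} [NeZero N] [NeZero N'] [NeZero q] (hq : q.Prime) (hp : p.Prime)
    (h : N' * q = N) (hqN' : N'.factorization q = 1) (hr : r.Prime) (hrq : r ≠ q)
    (H : ∀ (N₂ N₂' : ℕ) [NeZero N₂] [NeZero N₂'] (h₂ : N₂' * q = N₂), N₂'.factorization q = 1 →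
      N' ∣ N₂' → r ∣ N₂' → NUKummer N₂ N₂' q p h₂) : NUKummer N N' q p h := by
  by_cases hrN : r ∣ N
  · refine H N N' h hqN' dvd_rfl ?_
    rw [← h] at hrN
    rcases (Nat.Prime.dvd_mul hr).1 hrN with h1 | h1
    · exact h1
    · exact absurd ((Nat.prime_dvd_prime_iff_eq hr hq).1 h1) hrq
  · haveI : NeZero (N * r) := ⟨mul_ne_zero (NeZero.ne N) hr.ne_zero⟩
    haveI : NeZero (N' * r) := ⟨mul_ne_zero (NeZero.ne N') hr.ne_zero⟩
    have h₂ : N' * r * q = N * r := by rw [← h]; ring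
    refine nuKummer_of_mul hq hp h hqN' hr hrN h₂ (H _ _ h₂ ?_ (Dvd.intro _ rfl)
      (Dvd.intro_left _ rfl))
    rw [Nat.factorization_mul (NeZero.ne N') hr.ne_zero, Finsupp.add_apply, hqN',
      Nat.factorization_eq_zero_of_not_dvd (fun hd => hrq
        ((Nat.prime_dvd_prime_iff_eq hq hr).1 hd).symm)]

theorem nuKummer_of_core (core : NUCore) (N N' q p : ℕ) [NeZero N] [NeZero N'] [NeZero q]
    (h : N' * q = N) (hq : q.Prime) (hp : p.Prime) (hqp : q ≠ p)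
    (hqN' : N'.factorization q = 1) : NUKummer N N' q p h := by
  obtain ⟨r, hrq, hr, hr12⟩ := Nat.forall_exists_prime_gt_and_eq_mod (q := 12) (a := 11)
    (by decide) q
  have hr12' : r % 12 = 11 := by
    have := (ZMod.natCast_eq_natCast_iff' r 11 12).1 (by simpa using hr12)
    simpa using this
  obtain ⟨s, hs, hsq, hs23⟩ : ∃ s : ℕ, s.Prime ∧ s ≠ q ∧ (s = 2 ∨ s = 3) := by
    by_cases h2 : q = 2
    · exact ⟨3, Nat.prime_three, by omega, Or.inr rfl⟩
    · exact ⟨2, Nat.prime_two, fun h => h2 h.symm, Or.inl rfl⟩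
  refine NUF_step hq hp h hqN' hr (by omega) ?_
  intro N₂ N₂' _ _ h₂ hf₂ _ hrN₂
  refine NUF_step hq hp h₂ hf₂ hs hsq ?_
  intro N₃ N₃' _ _ h₃ hf₃ hd₃ hsN₃
  have hqN₃ : q ∣ N₃' := Nat.dvd_of_factorization_pos (by rw [hf₃]; norm_num)
  obtain ⟨M, rfl⟩ := hqN₃
  haveI : NeZero M := ⟨fun h0 => NeZero.ne (q * M) (by rw [h0, mul_zero])⟩
  haveI : NeZero (q ^ 2 * M) := ⟨mul_ne_zero (pow_ne_zero 2 hq.ne_zero) (NeZero.ne M)⟩
  have hqM : ¬ q ∣ M := by
    intro hd
    have h1 : 1 ≤ M.factorization q :=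
      (hq.dvd_iff_one_le_factorization (NeZero.ne M)).1 hd
    rw [Nat.factorization_mul hq.ne_zero (NeZero.ne M), Finsupp.add_apply,
      hq.factorization_self] at hf₃
    omega
  have hcop : ∀ t : ℕ, t.Prime → t ≠ q → t ∣ q * M → t ∣ M := by
    intro t ht htq hd
    rcases (Nat.Prime.dvd_mul ht).1 hd with h1 | h1
    · exact absurd ((Nat.prime_dvd_prime_iff_eq ht hq).1 h1) htq
    · exact h1
  have h₄ : q * M * q = q ^ 2 * M := by ring
  refine NUF_cast h₃ h₄ rfl (core M q p h₄ hq hp hqp hqM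
    ⟨r, hr, hr12', hcop r hr (by omega) (hrN₂.trans hd₃)⟩ ?_)
  rcases hs23 with rfl | rfl
  · exact Or.inl (hcop _ hs hsq hsN₃)
  · exact Or.inr (hcop _ hs hsq hsN₃)

theorem nuStatement_of_core (core : NUCore) : NUStatement :=
  nuStatement_of (fun N N' q p _ _ _ h hq hp hqp hf => nuKummer_of_core core N N' q p h hq hp hqp hf)
    (fun φ _ _ hf => nrm_isKum φ hf)
    (fun hq h hf hℓ hℓN f f' e => nrm_aHom_heckeMul hq h hf hℓ hℓN f f' e)
    (fun hq h hf hℓ hℓN f f' e => nrm_bHom_heckeMul hq h hf hℓ hℓN f f' e)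

end Fermat.Agent.S36Lib
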