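import Fermat.Agent.S36.NrmB
import Fermat.Agent.S36.Mod.BrDefs

/-!
# S36 norm block, (NA2): the norm along the inclusion `FB (q M) → FB (q² M)` on expansions:
`N_α f = f · ∏_{a=1}^{q-1} i_{ζ^a} f`
-/

set_option autoImplicit false
set_option synthInstance.maxHeartbeats 400000
set_option linter.style.haveILetI false

open AlgebraicCurve ModularCurve

namespace Fermat.Agent.S36Lib

open Fermat.Agent.S18Lib Fermat.Agent.S24Lib Fermat.Agent.ESLib Fermat.Agent.S34Lib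

noncomputable section

/-- the norm along `φ` is the product over a complete list of ring homs extending `ψ` -/
theorem NA2_norm_prod {F E L : Type*} [Field F] [Field E] [Field L] [CharZero F]
    (φ : F →+* E) (ψ : F →+* L) {ι : Type*} [Fintype ι] (τ : ι → E →+* L)
    (hτ : ∀ o x, τ o (φ x) = ψ x) (hinj : Function.Injective τ)
    (hcard : Fintype.card ι = (letI := φ.toAlgebra; Module.finrank F E)) (hpos : 0 < Fintype.card ι)
    (y : E) : ψ (letI := φ.toAlgebra; Algebra.norm F y) = ∏ o, τ o y := by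
  letI := φ.toAlgebra
  letI := ψ.toAlgebra
  haveI : FiniteDimensional F E := Module.finite_of_finrank_pos (by rw [← hcard]; exact hpos)
  let σ : ι → (E →ₐ[F] L) := fun o => { toRingHom := τ o, commutes' := fun x => hτ o x }
  have hσ : Function.Injective σ := by
    intro o o' h
    apply hinj
    ext x
    exact DFunLike.congr_fun h x
  exact norm_eq_prod_of_injective σ hσ hcard y

/-- the `q` embeddings of `FB (q² M)` over `FB (q M)` -/
def NA2_emb {M q : ℕ} (i : ℕ → FB (q ^ 2 * M) →ₐ[Qb] LaurentSeries Qb) :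
    Option (Fin (q - 1)) → (FB (q ^ 2 * M) →+* LaurentSeries Qb)
  | none => (FB (q ^ 2 * M)).val.toRingHom
  | some a => (i ((a : ℕ) + 1)).toRingHom

theorem NA2_emb_none {M q : ℕ} (i : ℕ → FB (q ^ 2 * M) →ₐ[Qb] LaurentSeries Qb)
    (x : FB (q ^ 2 * M)) : NA2_emb i none x = (x : LaurentSeries Qb) := rfl

theorem NA2_emb_some {M q : ℕ} (i : ℕ → FB (q ^ 2 * M) →ₐ[Qb] LaurentSeries Qb)
    (a : Fin (q - 1)) (x : FB (q ^ 2 * M)) : NA2_emb i (some a) x = i ((a : ℕ) + 1) x := rfl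

theorem NA2_not_dvd {q : ℕ} (a : Fin (q - 1)) : ¬ q ∣ (a : ℕ) + 1 := fun hd => by
  have h1 := Nat.le_of_dvd (Nat.succ_pos _) hd
  have h2 := a.2
  omega

theorem NA2_emb_injective {M q : ℕ} [NeZero M] [NeZero q] [NeZero (q ^ 2 * M)] (hq : q.Prime)
    {w : FB (q ^ 2 * M) ≃ₐ[Qb] FB (q ^ 2 * M)} {ζ : Qbˣ}
    {i : ℕ → FB (q ^ 2 * M) →ₐ[Qb] LaurentSeries Qb} {ζ₂ : Qbˣ} (B : BrData M q w ζ i ζ₂) :
    Function.Injective (NA2_emb i) := by
  have hJm : Wq_J (q ^ 2 * 1) ∈ FB (q ^ 2 * M) := Wq_J_mem (Nat.mul_dvd_mul_left _ (one_dvd M))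
  have hval : ∀ a : Fin (q - 1), (NA2_emb i (some a) ⟨_, hJm⟩).coeff (-1 : ℤ) =
      ((ζ ^ ((a : ℕ) + 1) : Qbˣ) : Qb)⁻¹ := by
    intro a
    rw [NA2_emb_some, (B.mid _ (NA2_not_dvd a)).top 1 (one_dvd M), twist_coeff, NB_coeff_J_one,
      mul_one, zpow_neg_one, Units.val_inv_eq_inv_val]
  have hq2 : 1 < q ^ 2 := Nat.one_lt_pow (by norm_num) hq.one_lt
  have hvaln : (NA2_emb i none ⟨_, hJm⟩).coeff (-1 : ℤ) = 0 := by
    rw [NA2_emb_none]
    show (Wq_J (q ^ 2 * 1)).coeff (-1 : ℤ) = 0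
    haveI : NeZero (q ^ 2 * 1) := ⟨by positivity⟩
    rw [Wq_J_eq, coeffEmb_coeff, qExpand_coeff_of_not_dvd, map_zero]
    intro hd
    rw [Int.dvd_neg] at hd
    have := Int.le_of_dvd one_pos hd
    push_cast at this
    have h2 : (1 : ℤ) < (q : ℤ) ^ 2 := by exact_mod_cast hq2
    linarith
  intro o o' hoo
  have h1 : (NA2_emb i o ⟨_, hJm⟩).coeff (-1 : ℤ) = (NA2_emb i o' ⟨_, hJm⟩).coeff (-1 : ℤ) := by
    rw [hoo]
  rcases o with _ | a <;> rcases o' with _ | a'
  · rfl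
  · rw [hvaln, hval] at h1
    exact absurd h1.symm (inv_ne_zero (Units.ne_zero _))
  · rw [hvaln, hval] at h1
    exact absurd h1 (inv_ne_zero (Units.ne_zero _))
  · rw [hval, hval, inv_inj] at h1
    have h2 : ζ ^ ((a : ℕ) + 1) = ζ ^ ((a' : ℕ) + 1) := Units.ext h1
    have h3 := B.prim.pow_inj (by have := a.2; omega) (by have := a'.2; omega) h2
    congr 1
    exact Fin.ext (by omega)

theorem coe_nrm_aHom {M q : ℕ} [NeZero M] [NeZero q] [NeZero (q ^ 2 * M)] [NeZero (q * M)]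
    (hq : q.Prime) (h : q * M * q = q ^ 2 * M)
    {w : FB (q ^ 2 * M) ≃ₐ[Qb] FB (q ^ 2 * M)} {ζ : Qbˣ}
    {i : ℕ → FB (q ^ 2 * M) →ₐ[Qb] LaurentSeries Qb} {ζ₂ : Qbˣ} (B : BrData M q w ζ i ζ₂)
    (f : FB (q ^ 2 * M)) :
    ((nrm (aHom (Dvd.intro q h)) f : FB (q * M)) : LaurentSeries Qb)
      = (f : LaurentSeries Qb) * ∏ a : Fin (q - 1), i ((a : ℕ) + 1) f := by
  have hc : Fintype.card (Option (Fin (q - 1))) = q := by
    rw [Fintype.card_option, Fintype.card_fin]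
    have := hq.pos
    omega
  have key := NA2_norm_prod (aHom (Dvd.intro q h)).toRingHom (FB (q * M)).val.toRingHom
    (NA2_emb i) (by
      intro o x
      show NA2_emb i o (aHom (Dvd.intro q h) x) = (x : LaurentSeries Qb)
      rcases o with _ | a
      · rw [NA2_emb_none, coe_aHom]
      · rw [NA2_emb_some]
        obtain ⟨x, hx⟩ := x
        rw [aHom_eq]
        exact (B.mid _ (NA2_not_dvd a)).apply_of_mem x hx _)
    (NA2_emb_injective hq B) (hc.trans (finrank_aHom hq h (Dvd.intro _ rfl)).symm)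
    (by rw [hc]; exact hq.pos) f
  rw [Fintype.prod_option] at key
  exact key

end

end Fermat.Agent.S36Lib
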