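import Fermat.Agent.S36.NrmDefs
import Fermat.Agent.S36.NrmEmb
import Fermat.Agent.S36.ALCompat

/-!
# S36 / S35 norm block, (DEG): degrees.  `N = N' * q`, `q ∣ N'`
-/

set_option autoImplicit false
set_option linter.style.haveILetI false
set_option synthInstance.maxHeartbeats 400000

open AlgebraicCurve ModularCurve CongruenceSubgroup

namespace Fermat.Agent.S36Lib

open Fermat.Agent.S18Lib Fermat.Agent.S24Lib Fermat.Agent.ESLib Fermat.Agent.S34Lib

noncomputable section

theorem finrank_aHom {N' N q : ℕ} [NeZero N'] [NeZero N] (hq : q.Prime) (h : N' * q = N)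
    (hqN' : q ∣ N') :
    (letI := algebraAlong (aHom (Dvd.intro q h)); Module.finrank (FB N') (FB N)) = q := by
  have hle : FB N' ≤ FB N := FB_le_of_dvd (Dvd.intro q h)
  have hd := D2_degree hle
  have h1 : (Gamma0 N).index = (Gamma0 N').index * q := by
    rw [Fermat.Agent.S20Lib.index_Gamma0 N, Fermat.Agent.S20Lib.index_Gamma0 N', ← h,
      mul_comm N' q, Fermat.Agent.S20Lib.dedekindPsi_mul_of_dvd (NeZero.ne N') hq hqN', mul_comm]
  rw [h1] at hd
  exact (Nat.eq_of_mul_eq_mul_left (Nat.pos_of_ne_zero (D2_index_ne_zero N')) hd).symm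

/-- `N'.factorization q = 1` means `N' = q * M`, `q ∤ M` -/
theorem DEG_exists_M {N' q : ℕ} (hN' : N' ≠ 0) (hq : q.Prime) (hqN' : N'.factorization q = 1) :
    ∃ M : ℕ, N' = q * M ∧ Nat.Coprime q M := by
  have h1 : q ∣ N' := (hq.dvd_iff_one_le_factorization hN').2 hqN'.ge
  obtain ⟨M, rfl⟩ := h1
  refine ⟨M, rfl, (Nat.Prime.coprime_iff_not_dvd hq).2 ?_⟩
  rintro ⟨c, rfl⟩
  have h2 : q ^ 2 ∣ q * (q * c) := ⟨c, by ring⟩
  have h3 := (hq.pow_dvd_iff_le_factorization hN').1 h2
  omega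

theorem finrank_bHom {N' N q : ℕ} [NeZero N'] [NeZero N] [NeZero q] (hq : q.Prime)
    (h : N' * q = N) (hqN' : N'.factorization q = 1) :
    (letI := algebraAlong (bHom q (dvd_of_eq h)); Module.finrank (FB N') (FB N)) = q := by
  obtain ⟨M, hM, hc⟩ := DEG_exists_M (NeZero.ne N') hq hqN'
  have hN : N = q * q * M := by rw [← h, hM]; ring
  obtain ⟨w', hw'⟩ := exists_isAL N' q M hM hc
  obtain ⟨w, hw⟩ := exists_isAL N (q * q) M hN (Nat.Coprime.mul_left hc hc)
  have key := finrank_along_equiv (bHom q (dvd_of_eq h)).toRingHom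
    (aHom (Dvd.intro q h)).toRingHom (w' : FB N' ≃+* FB N') (w : FB N ≃+* FB N)
    (fun x => IsAL.swap hM hN (Dvd.intro q h) (dvd_of_eq h) hw' hw x)
  have ha := finrank_aHom hq h (hM ▸ dvd_mul_right q M)
  exact key.symm.trans ha

end

end Fermat.Agent.S36Lib
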