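import Fermat.Agent.S36.NrmDefs
import Fermat.Agent.S36.NrmEmb
import Fermat.Agent.S36.NrmDeg
import Fermat.Agent.ES.Formal
import Fermat.Agent.ES.Integral

/-!
# S36 / S35 norm block, (NB): the norm along `z ↦ z(q^q)` on `q`-expansions
-/

set_option autoImplicit false
set_option synthInstance.maxHeartbeats 400000

open AlgebraicCurve ModularCurve

namespace Fermat.Agent.S36Lib

open Fermat.Agent.S18Lib Fermat.Agent.S24Lib Fermat.Agent.ESLib Fermat.Agent.S34Lib

noncomputable section

theorem NB_coeff_J_one : (Wq_J 1).coeff (-1 : ℤ) = 1 := by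
  rw [Wq_J_eq, coeffEmb_coeff, qExpand_one_apply, coeff_jq_neg_one, map_one]

theorem coe_nrm_bHom {N' N q : ℕ} [NeZero N'] [NeZero N] [NeZero q] (hq : q.Prime)
    (h : N' * q = N) (hqN' : N'.factorization q = 1) (f : FB N) :
    ((nrm (bHom q (dvd_of_eq h)) f : FB N') : LaurentSeries Qb)
      = normL q (f : LaurentSeries Qb) := by
  have hζ := exists_primitiveRoot_Qb q
  letI : Algebra (FB N') (FB N) := algebraAlong (bHom q (dvd_of_eq h))
  have hdeg : Module.finrank (FB N') (FB N) = q := finrank_bHom hq h hqN'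
  haveI : FiniteDimensional (FB N') (FB N) :=
    Module.finite_of_finrank_pos (by rw [hdeg]; exact hq.pos)
  let φL : FB N' →+* LaurentSeries Qb := (qExpand Qb q).comp (FB N').val.toRingHom
  letI : Algebra (FB N') (LaurentSeries Qb) := φL.toAlgebra
  letI : Fintype (rootsOfUnity q Qb) := Fintype.ofFinite _
  let σ : rootsOfUnity q Qb → (FB N →ₐ[FB N'] LaurentSeries Qb) := fun z =>
    { toRingHom := (twistHom (z : Qbˣ)).comp (FB N).val.toRingHom
      commutes' := fun x => by
        change twist (z : Qbˣ) ((bHom q (dvd_of_eq h) x : FB N) : LaurentSeries Qb) =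
          qExpand Qb q (x : LaurentSeries Qb)
        rw [coe_bHom, twist_qExpand q (z : Qbˣ) ((mem_rootsOfUnity _ _).1 z.2)] }
  have hσ_apply : ∀ z (x : FB N), σ z x = twist (z : Qbˣ) (x : LaurentSeries Qb) :=
    fun _ _ => rfl
  have hσ : Function.Injective σ := by
    intro z w hzw
    have h1 := DFunLike.congr_fun hzw (⟨Wq_J 1, Wq_J_mem (one_dvd N)⟩ : FB N)
    rw [hσ_apply, hσ_apply] at h1
    have h2 := congrArg (fun x => HahnSeries.coeff x (-1 : ℤ)) h1
    simp only [twist_coeff, NB_coeff_J_one, mul_one] at h2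
    have h3 : ((z : Qbˣ) ^ (-1 : ℤ)) = ((w : Qbˣ) ^ (-1 : ℤ)) := Units.ext h2
    rw [zpow_neg_one, zpow_neg_one, inv_inj] at h3
    exact Subtype.ext h3
  have hcard : Fintype.card (rootsOfUnity q Qb) = Module.finrank (FB N') (FB N) := by
    obtain ⟨ζ, hζ'⟩ := hζ
    rw [hdeg, ← Nat.card_eq_fintype_card, hζ'.card_rootsOfUnity]
  have key := norm_eq_prod_of_injective σ hσ hcard f
  apply qExpand_injective (R := Qb) q
  rw [qExpand_normL q hζ]
  exact key

end

end Fermat.Agent.S36Lib
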